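import Mathlib

set_option autoImplicit false
set_option linter.unusedSectionVars false

/-!
# Lifting split injectivity and surjectivity from the residue field
-/

open IsLocalRing
open scoped TensorProduct

namespace Fermat.Agent.Deg

variable {Λ : Type*} [CommRing Λ] [IsLocalRing Λ]

theorem mem_smul_top_of_one_tmul {M : Type*} [AddCommGroup M] [Module Λ M] {x : M}
    (h : (1 : ResidueField Λ) ⊗ₜ[Λ] x = 0) : x ∈ (maximalIdeal Λ) • (⊤ : Submodule Λ M) := by
  have h2 : TensorProduct.quotTensorEquivQuotSMul M (maximalIdeal Λ)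
      ((1 : ResidueField Λ) ⊗ₜ[Λ] x) = Submodule.Quotient.mk x := by
    have h3 := TensorProduct.quotTensorEquivQuotSMul_mk_tmul (maximalIdeal Λ) (1 : Λ) x
    rw [one_smul] at h3
    exact h3
  have h0 : TensorProduct.quotTensorEquivQuotSMul M (maximalIdeal Λ)
      ((1 : ResidueField Λ) ⊗ₜ[Λ] x) = 0 := by
    have h4 : ((1 : ResidueField Λ) ⊗ₜ[Λ] x : (Λ ⧸ maximalIdeal Λ) ⊗[Λ] M) = 0 := h
    rw [h4]
    exact map_zero (TensorProduct.quotTensorEquivQuotSMul M (maximalIdeal Λ))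
  exact (Submodule.Quotient.mk_eq_zero _).1 (h2.symm.trans h0)

theorem one_tmul_eq_zero {M : Type*} [AddCommGroup M] [Module Λ M] {x : M}
    (h : x ∈ (maximalIdeal Λ) • (⊤ : Submodule Λ M)) : (1 : ResidueField Λ) ⊗ₜ[Λ] x = 0 := by
  refine Submodule.smul_induction_on h (fun r hr n _ ↦ ?_) (fun x y hx hy ↦ ?_)
  · rw [← TensorProduct.smul_tmul, Algebra.smul_def, mul_one]
    have h1 : algebraMap Λ (ResidueField Λ) r = 0 := (residue_eq_zero_iff r).2 hr
    rw [h1, TensorProduct.zero_tmul]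
  · rw [TensorProduct.tmul_add, hx, hy, add_zero]

theorem exists_one_tmul {M : Type*} [AddCommGroup M] [Module Λ M] (t : ResidueField Λ ⊗[Λ] M) :
    ∃ x : M, t = (1 : ResidueField Λ) ⊗ₜ[Λ] x := by
  obtain ⟨x, hx⟩ := TensorProduct.mk_surjective Λ M (ResidueField Λ) residue_surjective t
  exact ⟨x, hx.symm⟩

/-- A map of finite free modules which is injective modulo the maximal ideal has a retraction. -/
theorem exists_retraction {M M' : Type*} [AddCommGroup M] [Module Λ M] [AddCommGroup M']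
    [Module Λ M'] [Module.Finite Λ M] [Module.Finite Λ M'] [Module.Free Λ M'] (f : M →ₗ[Λ] M')
    (hf : ∀ x, f x ∈ (maximalIdeal Λ) • (⊤ : Submodule Λ M') →
      x ∈ (maximalIdeal Λ) • (⊤ : Submodule Λ M)) :
    ∃ g : M' →ₗ[Λ] M, ∀ x, g (f x) = x := by
  obtain ⟨g, hg⟩ := (IsLocalRing.split_injective_iff_lTensor_residueField_injective f).2 (by
    rw [injective_iff_map_eq_zero]
    intro t ht
    obtain ⟨x, rfl⟩ := exists_one_tmul t
    rw [LinearMap.lTensor_tmul] at ht
    exact one_tmul_eq_zero (hf x (mem_smul_top_of_one_tmul ht)))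
  exact ⟨g, fun x ↦ LinearMap.congr_fun hg x⟩

/-- A map of finite modules which is surjective modulo the maximal ideal is surjective. -/
theorem surjective_of_mod {M M' : Type*} [AddCommGroup M] [Module Λ M] [AddCommGroup M']
    [Module Λ M'] [Module.Finite Λ M'] (f : M →ₗ[Λ] M')
    (hf : ∀ y, ∃ x, y - f x ∈ (maximalIdeal Λ) • (⊤ : Submodule Λ M')) : Function.Surjective f := by
  rw [← LinearMap.range_eq_top]
  have h : (⊤ : Submodule Λ M') ≤ LinearMap.range f ⊔ (maximalIdeal Λ) • (⊤ : Submodule Λ M') := by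
    intro y _
    obtain ⟨x, hx⟩ := hf y
    have : y = f x + (y - f x) := by abel
    rw [this]
    exact Submodule.add_mem_sup ⟨x, rfl⟩ hx
  refine top_le_iff.1 (Submodule.le_of_le_smul_of_le_jacobson_bot (I := maximalIdeal Λ)
    Module.Finite.fg_top ?_ h)
  rw [jacobson_eq_maximalIdeal]
  exact bot_ne_top

theorem prod_mem_smul_top {M : Type*} [AddCommGroup M] [Module Λ M] {I : Ideal Λ} {x : M × M}
    (h1 : x.1 ∈ I • (⊤ : Submodule Λ M)) (h2 : x.2 ∈ I • (⊤ : Submodule Λ M)) :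
    x ∈ I • (⊤ : Submodule Λ (M × M)) := by
  have e : x = LinearMap.inl Λ M M x.1 + LinearMap.inr Λ M M x.2 := by simp
  rw [e]
  refine Submodule.add_mem _ ?_ ?_
  · have h3 := Submodule.mem_map_of_mem (f := LinearMap.inl Λ M M) h1
    rw [Submodule.map_smul''] at h3
    exact (Submodule.smul_mono le_rfl le_top) h3
  · have h3 := Submodule.mem_map_of_mem (f := LinearMap.inr Λ M M) h2
    rw [Submodule.map_smul''] at h3
    exact (Submodule.smul_mono le_rfl le_top) h3

/-- Joint surjectivity of two maps. -/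
theorem surjective₂_of_mod {M M' : Type*} [AddCommGroup M] [Module Λ M] [AddCommGroup M']
    [Module Λ M'] [Module.Finite Λ M'] (f g : M →ₗ[Λ] M')
    (h : ∀ x y, ∃ w, x - f w ∈ (maximalIdeal Λ) • (⊤ : Submodule Λ M') ∧
      y - g w ∈ (maximalIdeal Λ) • (⊤ : Submodule Λ M')) (x y : M') : ∃ w, f w = x ∧ g w = y := by
  have hf : Function.Surjective (f.prod g) := surjective_of_mod _ fun v ↦ by
    obtain ⟨w, h1, h2⟩ := h v.1 v.2
    exact ⟨w, prod_mem_smul_top h1 h2⟩
  obtain ⟨z, hz⟩ := hf (x, y)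
  exact ⟨z, congrArg Prod.fst hz, congrArg Prod.snd hz⟩

/-- Retractions of two maps. -/
theorem exists_retraction₂ {M M' : Type*} [AddCommGroup M] [Module Λ M] [AddCommGroup M']
    [Module Λ M'] [Module.Finite Λ M] [Module.Finite Λ M'] [Module.Free Λ M'] (f : Fin 2 → (M →ₗ[Λ] M'))
    (hf : ∀ x y, f 0 x + f 1 y ∈ (maximalIdeal Λ) • (⊤ : Submodule Λ M') →
      x ∈ (maximalIdeal Λ) • (⊤ : Submodule Λ M) ∧ y ∈ (maximalIdeal Λ) • (⊤ : Submodule Λ M)) :
    ∃ ρ : Fin 2 → (M' →ₗ[Λ] M), ∀ k l x, ρ k (f l x) = if k = l then x else 0 := by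
  obtain ⟨g, hg'⟩ := exists_retraction ((f 0).coprod (f 1)) (by
    rintro ⟨x, y⟩ hxy
    obtain ⟨h2, h3⟩ := hf x y hxy
    exact prod_mem_smul_top h2 h3)
  refine ⟨fun k ↦ if k = 0 then (LinearMap.fst Λ _ _).comp g else (LinearMap.snd Λ _ _).comp g,
    fun k l x ↦ ?_⟩
  have h0 : g (f 0 x) = (x, 0) := by
    have := hg' (x, 0)
    simpa using this
  have h1 : g (f 1 x) = (0, x) := by
    have := hg' (0, x)
    simpa using this
  fin_cases k <;> fin_cases l
  · change (g (f 0 x)).1 = x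
    rw [h0]
  · change (g (f 1 x)).1 = 0
    rw [h1]
  · change (g (f 0 x)).2 = 0
    rw [h0]
  · change (g (f 1 x)).2 = x
    rw [h1]

end Fermat.Agent.Deg
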