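import Fermat.Agent.Deg.Local
import Fermat.Agent.TWMod.Points

set_option autoImplicit false
set_option linter.unusedSectionVars false

/-!
# Base change and specialisation of local components

Versions of the results of `TWMod/LocalPart` and `TWMod/Points` with `IsGood` as hypothesis.
-/

open CongruenceSubgroup Fermat.Agent.Top Fermat.Agent.TWMod MvPolynomial IsLocalRing
open scoped MatrixGroups TensorProduct

namespace Fermat.Agent.Deg

/-- Abstract extension of functionals. -/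
theorem functional_aux {Λ K M V ι : Type*} [CommRing Λ] [Field K] (ψ : Λ →+* K) [AddCommGroup M]
    [Module Λ M] [AddCommGroup V] [Module K V] [Fintype ι] (b : Module.Basis ι Λ M)
    (b' : Module.Basis ι K V) (s : M →+ V) (hs : ∀ (t : Λ) m, s (t • m) = ψ t • s m)
    (hb : ∀ i, b' i = s (b i)) (φ : M →ₗ[Λ] Λ) :
    ∃ φ' : V →ₗ[K] K, ∀ x, φ' (s x) = ψ (φ x) := by
  refine ⟨b'.constr K fun i ↦ ψ (φ (b i)), fun x ↦ ?_⟩
  conv_lhs => rw [← b.sum_repr x]
  conv_rhs => rw [← b.sum_repr x]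
  rw [map_sum, map_sum, map_sum, map_sum]
  refine Finset.sum_congr rfl fun i _ ↦ ?_
  rw [hs, map_smul, map_smul, ← hb, Module.Basis.constr_basis, smul_eq_mul, smul_eq_mul, map_mul]

section Tau

variable {N : ℕ} [NeZero N] {Λ : Type} [CommRing Λ] [IsLocalRing Λ] {χ : DirichletCharacter Λ N}
  {S : Set ℕ} {E : MvPolynomial (Pr S) Λ} (hg : IsGood (kap χ)) (hE : ev χ S Λ (E * E) = ev χ S Λ E)
  (A : Type*) [AddCommGroup A] [Module Λ A]

include hg hE

theorem pr_inc' : (prM χ S E).comp (incM χ S E) = LinearMap.id := by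
  refine LinearMap.ext fun x ↦ Subtype.ext ?_
  exact eq_of_mem' Λ hE hg x.2

theorem tauM_injective' : Function.Injective (tauM A χ S E) := by
  have h1 : Function.Injective (LinearMap.rTensor A (incM χ S E)) := by
    intro x y h
    have h' := congrArg (LinearMap.rTensor A (prM χ S E)) h
    rw [← LinearMap.rTensor_comp_apply, ← LinearMap.rTensor_comp_apply, pr_inc' hg hE,
      LinearMap.rTensor_id_apply, LinearMap.rTensor_id_apply] at h'
    exact h'
  exact (tau_bijective (A := A) hg).1.comp h1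

theorem range_tauM' : LinearMap.range (tauM A χ S E) = MM A χ S E := by
  have e1 : (LinearMap.rTensor A (ev χ S Λ E)).comp (LinearMap.rTensor A (incM χ S E)) =
      LinearMap.rTensor A (incM χ S E) := by
    rw [← LinearMap.rTensor_comp, ← inc_pr, LinearMap.comp_assoc, pr_inc' hg hE,
      LinearMap.comp_id]
  apply le_antisymm
  · rintro _ ⟨t, rfl⟩
    refine ⟨tauM A χ S E t, ?_⟩
    rw [tauM, LinearMap.comp_apply, ev_tau]
    exact congrArg _ (LinearMap.congr_fun e1 t)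
  · rintro _ ⟨y, rfl⟩
    obtain ⟨t, rfl⟩ := (tau_bijective (A := A) hg).2 y
    refine ⟨LinearMap.rTensor A (prM χ S E) t, ?_⟩
    rw [tauM, LinearMap.comp_apply, ev_tau]
    exact congrArg _ (LinearMap.congr_fun (rT_inc_pr (χ := χ) (S := S) (E := E) A) t)

/-- base change for the local component, as an equivalence -/
noncomputable def tauE' : MM Λ χ S E ⊗[Λ] A ≃ₗ[Λ] MM A χ S E :=
  (LinearEquiv.ofInjective (tauM A χ S E) (tauM_injective' hg hE A)).trans
    (LinearEquiv.ofEq _ _ (range_tauM' hg hE A))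

theorem coe_tauE' (t : MM Λ χ S E ⊗[Λ] A) :
    ((tauE' hg hE A t : MM A χ S E) : H1 (kap χ) A) = tauM A χ S E t := rfl

end Tau

section Pt

variable {N : ℕ} [NeZero N] {Λ : Type} [CommRing Λ] [IsLocalRing Λ] {χ : DirichletCharacter Λ N}
  {S : Set ℕ} {E : MvPolynomial (Pr S) Λ} (hg : IsGood (kap χ)) (hE : ev χ S Λ (E * E) = ev χ S Λ E)
  {K : Type} [Field K] (ψ : Λ →+* K)

include hg hE

set_option maxHeartbeats 2000000 in
/-- **Base change of bases to points.** -/
theorem exists_basis_pt' {ι : Type*} [Finite ι] (b : Module.Basis ι Λ (MM Λ χ S E)) :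
    ∃ b' : Module.Basis ι K (MP ψ χ S E), ∀ i, ((b' i : MP ψ χ S E) : H1 _ _) = spc ψ χ (b i) := by
  classical
  have := Fintype.ofFinite ι
  let v : ι → MP ψ χ S E := fun i ↦ ⟨spc ψ χ (b i), spc_mem ψ χ (b i).2⟩
  let e1 := TensorProduct.equivFinsuppOfBasisLeft (N := PtMod ψ) b
  let e2 := tauE' hg hE (PtMod ψ)
  obtain ⟨V, hV⟩ : ∃ V : (ι → K) → MP ψ χ S E, ∀ z, V z = ∑ i, z i • v i := ⟨_, fun _ ↦ rfl⟩
  have key : ∀ z : ι →₀ PtMod ψ,
      chg (sameOn_pt ψ χ) ((e2 (e1.symm z) : MM (PtMod ψ) χ S E) : H1 (kap χ) (PtMod ψ)) =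
        (V (fun i ↦ toK ψ (z i))).1 := by
    intro z
    rw [TensorProduct.equivFinsuppOfBasisLeft_symm_apply, Finsupp.sum_fintype _ _ (by simp)]
    rw [coe_tauE', map_sum, map_sum, hV, Submodule.coe_sum]
    refine Finset.sum_congr rfl fun i _ ↦ ?_
    rw [tauM, LinearMap.comp_apply, LinearMap.rTensor_tmul, chg_tau_tmul]
    rfl
  have hinj : ∀ z : ι → K, V z = 0 → ∀ i, z i = 0 := by
    intro z hz
    have h := key (Finsupp.equivFunOnFinite.symm z)
    have h0 : (V (fun i ↦ toK ψ ((Finsupp.equivFunOnFinite.symm z : ι →₀ PtMod ψ) i))).1 =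
        (V z).1 := rfl
    rw [h0, hz, Submodule.coe_zero, map_eq_zero_iff _ (chg (sameOn_pt ψ χ)).injective,
      ZeroMemClass.coe_eq_zero, map_eq_zero_iff _ e2.injective,
      map_eq_zero_iff _ e1.symm.injective] at h
    intro i
    exact DFunLike.congr_fun h i
  have hsurj : ∀ y : MP ψ χ S E, ∃ z, y = V z := by
    rintro ⟨y, hy⟩
    obtain ⟨x, hx⟩ := (chg (sameOn_pt ψ χ)).surjective y
    have hy' := hy
    rw [← hx, chg_mem_iff] at hy'
    obtain ⟨t, ht⟩ := e2.surjective ⟨x, hy'⟩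
    refine ⟨fun i ↦ toK ψ (e1 t i), Subtype.ext ?_⟩
    have h := key (e1 t)
    rw [LinearEquiv.symm_apply_apply, ht] at h
    exact hx.symm.trans h
  have hli : LinearIndependent K v := by
    rw [Fintype.linearIndependent_iff]
    intro z hz
    exact hinj z ((hV z).trans hz)
  have hsp : ⊤ ≤ Submodule.span K (Set.range v) := by
    intro y _
    obtain ⟨z, rfl⟩ := hsurj y
    rw [hV]
    exact Submodule.sum_mem _ fun i _ ↦ Submodule.smul_mem _ _ (Submodule.subset_span ⟨i, rfl⟩)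
  exact ⟨Module.Basis.mk hli hsp, fun i ↦ by rw [Module.Basis.mk_apply]⟩

theorem spc_eq_zero_iff' {ι : Type*} [Finite ι] (b : Module.Basis ι Λ (MM Λ χ S E))
    (x : MM Λ χ S E) : spc ψ χ x = 0 ↔ ∀ i, ψ (b.repr x i) = 0 := by
  classical
  have := Fintype.ofFinite ι
  obtain ⟨b', hb'⟩ := exists_basis_pt' hg hE ψ b
  have h1 : spc ψ χ x = ((∑ i, ψ (b.repr x i) • b' i : MP ψ χ S E) : H1 _ _) := by
    conv_lhs => rw [← b.sum_repr x]
    rw [Submodule.coe_sum, map_sum, Submodule.coe_sum]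
    refine Finset.sum_congr rfl fun i _ ↦ ?_
    rw [Submodule.coe_smul, spc_smul, Submodule.coe_smul, hb']
  rw [h1, ZeroMemClass.coe_eq_zero]
  constructor
  · intro h i
    exact (Fintype.linearIndependent_iff.mp b'.linearIndependent) _ h i
  · intro h
    exact Finset.sum_eq_zero fun i _ ↦ by rw [h i, zero_smul]

/-- specialisation on the local component -/
noncomputable def spE (ψ : Λ →+* K) (χ : DirichletCharacter Λ N) (S : Set ℕ)
    (E : MvPolynomial (Pr S) Λ) : MM Λ χ S E →+ MP ψ χ S E where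
  toFun m := ⟨spc ψ χ m.1, spc_mem ψ χ m.2⟩
  map_zero' := Subtype.ext (map_zero (spc ψ χ))
  map_add' m m' := Subtype.ext (map_add (spc ψ χ) m.1 m'.1)

omit [NeZero N] [IsLocalRing Λ] hg hE in
theorem coe_spE (m : MM Λ χ S E) : ((spE ψ χ S E m : MP ψ χ S E) : H1 _ _) = spc ψ χ m.1 := rfl

omit [NeZero N] [IsLocalRing Λ] hg hE in
theorem spE_smul (t : Λ) (m : MM Λ χ S E) :
    spE ψ χ S E (t • m) = ψ t • spE ψ χ S E m :=
  Subtype.ext (spc_smul ψ χ t m.1)

theorem exists_basis_spE {ι : Type*} [Finite ι] (b : Module.Basis ι Λ (MM Λ χ S E)) :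
    ∃ b' : Module.Basis ι K (MP ψ χ S E), ∀ i, b' i = spE ψ χ S E (b i) := by
  obtain ⟨b', hb'⟩ := exists_basis_pt' hg hE ψ b
  exact ⟨b', fun i ↦ Subtype.ext (hb' i)⟩

/-- Linear functionals specialise. -/
theorem exists_functional_pt [Module.Free Λ (MM Λ χ S E)] [Module.Finite Λ (MM Λ χ S E)]
    (φ : MM Λ χ S E →ₗ[Λ] Λ) : ∃ φ' : MP ψ χ S E →ₗ[K] K, ∀ x : MM Λ χ S E,
      φ' (spE ψ χ S E x) = ψ (φ x) := by
  classical
  let b := Module.Free.chooseBasis Λ (MM Λ χ S E)
  obtain ⟨b', hb'⟩ := exists_basis_spE hg hE ψ b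
  exact functional_aux ψ b b' (spE ψ χ S E) (spE_smul ψ) hb' φ

/-- The component at a point is spanned by specialised classes. -/
theorem span_spc [Module.Free Λ (MM Λ χ S E)] [Module.Finite Λ (MM Λ χ S E)] :
    Submodule.span K (Set.range (spE ψ χ S E)) = ⊤ := by
  classical
  let b := Module.Free.chooseBasis Λ (MM Λ χ S E)
  obtain ⟨b', hb'⟩ := exists_basis_spE hg hE ψ b
  rw [eq_top_iff, ← b'.span_eq]
  refine Submodule.span_mono ?_
  rintro _ ⟨i, rfl⟩
  exact ⟨b i, (hb' i).symm⟩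

/-- If the points `ψ ∈ Ψ` separate the elements of `Λ`, they separate classes in the local
component. -/
theorem eq_zero_of_spc' [Module.Free Λ (MM Λ χ S E)] [Module.Finite Λ (MM Λ χ S E)]
    {Ψ : Set (Λ →+* K)} (hsep : ∀ r : Λ, (∀ ψ ∈ Ψ, ψ r = 0) → r = 0) {x : MM Λ χ S E}
    (hx : ∀ ψ ∈ Ψ, spc ψ χ x = 0) : x = 0 := by
  let b := Module.Free.chooseBasis Λ (MM Λ χ S E)
  apply b.repr.injective
  ext i
  rw [map_zero, Finsupp.zero_apply]
  exact hsep _ fun ψ hψ ↦ (spc_eq_zero_iff' hg hE ψ b x).1 (hx ψ hψ) i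

end Pt

end Fermat.Agent.Deg
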