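import Fermat.Agent.Deg.Spc
import Fermat.Agent.LL.Functional

set_option autoImplicit false
set_option linter.unusedSectionVars false

/-!
# Eigenfunctionals, with a smaller set of bad primes

`S` is the set of primes excluded in the Hecke polynomial `E`, `S'` is the set of primes excluded in
the diagonalisation.  The eigenbases can be adapted to a subspace.
-/

open CongruenceSubgroup Fermat.Agent.Top Fermat.Agent.TWMod Fermat.Agent.Twist
  Fermat.Agent.Ihara Fermat.Agent.TWLow MvPolynomial IsLocalRing Fermat.Agent.LL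
open scoped MatrixGroups TensorProduct

namespace Fermat.Agent.Deg

section Basis

variable {K V : Type} [Field K] [AddCommGroup V] [Module K V]

/-- A basis consisting of vectors with property `P`, adapted to a subspace. -/
theorem exists_adapted_basis (P : V → Prop) (hV : Submodule.span K {x | P x} = ⊤)
    (W : Submodule K V) (hW : W = Submodule.span K {x | x ∈ W ∧ P x}) :
    ∃ (ι : Type) (b : Module.Basis ι K V) (old : Set ι), (∀ c, P (b c)) ∧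
      W = Submodule.span K (b '' old) := by
  obtain ⟨s, hs1, hs2, hs3⟩ := exists_linearIndependent K {x | x ∈ W ∧ P x}
  have hst : s ⊆ {x | P x} := fun x hx ↦ (hs1 hx).2
  obtain ⟨t, ht1, ht2, ht3, ht4'⟩ := exists_linearIndepOn_id_extension (K := K) hs3 hst
  have ht4 : LinearIndependent K ((↑) : t → V) := ht4'
  have hsp : ⊤ ≤ Submodule.span K (Set.range ((↑) : t → V)) := by
    rw [Subtype.range_coe, ← hV, Submodule.span_le]
    exact ht3
  refine ⟨t, Module.Basis.mk ht4 hsp, {c | (c : V) ∈ s}, fun c ↦ ?_, ?_⟩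
  · rw [Module.Basis.mk_apply]
    exact ht1 c.2
  · rw [hW, ← hs2]
    congr 1
    ext x
    constructor
    · intro hx
      exact ⟨⟨x, ht2 hx⟩, hx, Module.Basis.mk_apply _ _ _⟩
    · rintro ⟨c, hc, rfl⟩
      rw [Module.Basis.mk_apply]
      exact hc

theorem mem_span_image_iff {ι : Type} (b : Module.Basis ι K V) (old : Set ι) (v : V) :
    v ∈ Submodule.span K (b '' old) ↔ ∀ c ∉ old, b.coord c v = 0 := by
  rw [Module.Basis.mem_span_image]
  constructor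
  · intro h c hc
    by_contra hne
    exact hc (h (Finsupp.mem_support_iff.2 hne))
  · intro h c hc
    by_contra hne
    exact (Finsupp.mem_support_iff.1 hc) (h c hne)

end Basis

section Eig

variable {Λ : Type} [CommRing Λ] {N : ℕ}
  (χ : DirichletCharacter Λ N) (S : Set ℕ) (S' : Finset ℕ) (E : MvPolynomial (Pr S) Λ)
  (ψ : Λ →+* ℂ)

/-- eigenbasis at a point, adapted to a subspace -/
structure EigD where
  ι : Type
  b : Module.Basis ι ℂ (MP ψ χ S E)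
  α : ι → Pr (↑S' : Set ℕ) → ℂ
  eig : ∀ c, IsEigP ψ χ ↑S' (α c) ((b c : MP ψ χ S E) : H1 _ _)
  old : Set ι

variable {χ S S' E ψ}

/-- spanned by eigenvectors -/
def EigSpan (χ : DirichletCharacter Λ N) (S : Set ℕ) (S' : Finset ℕ)
    (E : MvPolynomial (Pr S) Λ) (ψ : Λ →+* ℂ) : Prop :=
  MP ψ χ S E = Submodule.span ℂ {x | x ∈ MP ψ χ S E ∧ ∃ α, IsEigP ψ χ ↑S' α x}

/-- eigenvectors in the component -/
def IsEv (χ : DirichletCharacter Λ N) (S : Set ℕ) (S' : Finset ℕ)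
    (E : MvPolynomial (Pr S) Λ) (ψ : Λ →+* ℂ) (x : MP ψ χ S E) : Prop :=
  ∃ α, IsEigP ψ χ ↑S' α (x : H1 _ _)

theorem EigSpan.top (h : EigSpan χ S S' E ψ) :
    Submodule.span ℂ {x : MP ψ χ S E | IsEv χ S S' E ψ x} = ⊤ := by
  rw [eq_top_iff]
  rintro ⟨x, hx⟩ -
  have hx' := hx
  rw [h] at hx'
  have key : ∀ y ∈ Submodule.span ℂ {x | x ∈ MP ψ χ S E ∧ ∃ α, IsEigP ψ χ ↑S' α x},
      ∀ hy : y ∈ MP ψ χ S E,
      (⟨y, hy⟩ : MP ψ χ S E) ∈
        Submodule.span ℂ {x : MP ψ χ S E | IsEv χ S S' E ψ x} := by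
    intro y hy
    induction hy using Submodule.span_induction with
    | mem y hy => exact fun _ ↦ Submodule.subset_span hy.2
    | zero => exact fun _ ↦ Submodule.zero_mem _
    | add y z hy hz ihy ihz =>
      intro _
      have hy' : y ∈ MP ψ χ S E := by rw [h]; exact hy
      have hz' : z ∈ MP ψ χ S E := by rw [h]; exact hz
      exact Submodule.add_mem _ (ihy hy') (ihz hz')
    | smul c y hy ih =>
      intro _
      have hy' : y ∈ MP ψ χ S E := by rw [h]; exact hy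
      exact Submodule.smul_mem _ c (ih hy')
  exact key x hx' hx

/-- an eigenbasis adapted to a subspace -/
theorem EigSpan.exists_eigD (h : EigSpan χ S S' E ψ) (W : Submodule ℂ (MP ψ χ S E))
    (hW : W = Submodule.span ℂ {x | x ∈ W ∧ IsEv χ S S' E ψ x}) :
    ∃ D : EigD χ S S' E ψ, ∀ v, v ∈ W ↔ ∀ c ∉ D.old, D.b.coord c v = 0 := by
  obtain ⟨ι, b, old, h1, h2⟩ := exists_adapted_basis (IsEv χ S S' E ψ) h.top W hW
  choose α hα using h1
  refine ⟨⟨ι, b, α, hα, old⟩, fun v ↦ ?_⟩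
  rw [h2]
  exact mem_span_image_iff b old v

theorem EigSpan.nonempty_eigD (h : EigSpan χ S S' E ψ) : Nonempty (EigD χ S S' E ψ) := by
  obtain ⟨D, -⟩ := h.exists_eigD ⊥ (by
    rw [eq_comm, Submodule.span_eq_bot]
    rintro x ⟨hx, -⟩
    exact hx)
  exact ⟨D⟩

end Eig

section Fun

variable {𝒪 : Type} [CommRing 𝒪] [IsLocalRing 𝒪] {p r : ℕ} {av : Fin r → ℕ} {G : GrpRing 𝒪 p av}
  {j : 𝒪 →+* ℂ} (hj : Function.Injective j)
  {N : ℕ} [NeZero N] {S : Set ℕ} {S' : Finset ℕ}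
  {χ : DirichletCharacter G.Λ N} {E : MvPolynomial (Pr S) G.Λ}
  (hg : IsGood (kap χ)) (hE : ev χ S G.Λ (E * E) = ev χ S G.Λ E)

open Classical in
/-- Hecke operators on the local component, indexed by all integers -/
noncomputable def TD (χ : DirichletCharacter G.Λ N) (S : Set ℕ) (S' : Finset ℕ)
    (E : MvPolynomial (Pr S) G.Λ) (ℓ : ℕ) : Module.End G.Λ (MM G.Λ χ S E) :=
  if h : ℓ.Prime ∧ ℓ ∉ S' then hkM G.Λ χ S E h.1 else 0

theorem TD_of {ℓ : ℕ} (h : ℓ.Prime ∧ ℓ ∉ S') : TD χ S S' E ℓ = hkM G.Λ χ S E h.1 := dif_pos h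

theorem TD_comm (ℓ ℓ' : ℕ) : TD χ S S' E ℓ * TD χ S S' E ℓ' = TD χ S S' E ℓ' * TD χ S S' E ℓ := by
  by_cases h : ℓ.Prime ∧ ℓ ∉ S'
  · by_cases h' : ℓ'.Prime ∧ ℓ' ∉ S'
    · rw [TD_of h, TD_of h']
      exact LinearMap.ext fun x ↦ Subtype.ext (hk_comm χ G.Λ h.1 h'.1 x.1)
    · rw [TD, TD, dif_neg h', zero_mul, mul_zero]
  · rw [TD, dif_neg h, zero_mul, mul_zero]

variable (D : ∀ ψ : Pts G j, EigD χ S S' E ψ.1)

/-- the functional -/
noncomputable def lamD (ψ : Pts G j) (c : (D ψ).ι) : MM G.Λ χ S E →+ ℂ :=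
  ((D ψ).b.coord c).toAddMonoidHom.comp (spE ψ.1 χ S E)

theorem lamD_apply (ψ : Pts G j) (c : (D ψ).ι) (m : MM G.Λ χ S E) :
    lamD D ψ c m = (D ψ).b.coord c (spE ψ.1 χ S E m) := rfl

theorem lamD_smul (ψ : Pts G j) (c : (D ψ).ι) (t : G.Λ) (m : MM G.Λ χ S E) :
    lamD D ψ c (t • m) = ψ.1 t * lamD D ψ c m := by
  rw [lamD_apply, lamD_apply, spE_smul, map_smul]
  rfl

open Classical in
/-- the eigenvalues -/
noncomputable def evD (ψ : Pts G j) (c : (D ψ).ι) (ℓ : ℕ) : ℂ :=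
  if h : ℓ.Prime ∧ ℓ ∉ (↑S' : Set ℕ) then (D ψ).α c ⟨ℓ, h⟩ else 0

theorem evD_of {ℓ : ℕ} (h : ℓ.Prime ∧ ℓ ∉ (↑S' : Set ℕ)) (ψ : Pts G j) (c : (D ψ).ι) :
    evD D ψ c ℓ = (D ψ).α c ⟨ℓ, h⟩ := dif_pos h

theorem lamD_T {ℓ : ℕ} (h : ℓ.Prime ∧ ℓ ∉ S') (ψ : Pts G j) (c : (D ψ).ι)
    (m : MM G.Λ χ S E) : lamD D ψ c (TD χ S S' E ℓ m) = evD D ψ c ℓ * lamD D ψ c m := by
  have h' : ℓ.Prime ∧ ℓ ∉ (↑S' : Set ℕ) := ⟨h.1, fun hh ↦ h.2 (Finset.mem_coe.1 hh)⟩
  rw [evD_of D h', lamD_apply, TD_of h, spE_hkM]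
  exact coord_eig (D ψ).b (hkP ψ.1 χ S E h.1) (fun c ↦ (D ψ).α c ⟨ℓ, h'⟩)
    (fun c' ↦ Subtype.ext ((D ψ).eig c' ⟨ℓ, h'⟩)) c _

include hg hE

theorem lamD_sep (hj : Function.Injective j) [Module.Free G.Λ (MM G.Λ χ S E)]
    [Module.Finite G.Λ (MM G.Λ χ S E)]
    (m : MM G.Λ χ S E) (h : ∀ ψ c, lamD D ψ c m = 0) : m = 0 := by
  refine eq_zero_of_spc' hg hE (Ψ := {ψ | ψ.comp (algebraMap 𝒪 G.Λ) = j})
    (fun r hr ↦ G.sep j hj r hr) fun ψ hψ ↦ ?_
  have h1 : spE ψ χ S E m = 0 := by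
    apply (D ⟨ψ, hψ⟩).b.repr.injective
    rw [map_zero]
    ext c
    exact h ⟨ψ, hψ⟩ c
  exact congrArg Subtype.val h1

theorem lamD_ne [Module.Free G.Λ (MM G.Λ χ S E)] [Module.Finite G.Λ (MM G.Λ χ S E)]
    (ψ : Pts G j) (c : (D ψ).ι) : ∃ m, lamD D ψ c m ≠ 0 := by
  by_contra hcon
  push Not at hcon
  have h1 : (D ψ).b.coord c = 0 := by
    refine LinearMap.ext_on_range (v := spE ψ.1 χ S E) (span_spc hg hE ψ.1) fun m ↦ ?_
    exact hcon m
  have h3 := LinearMap.congr_fun h1 ((D ψ).b c)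
  rw [Module.Basis.coord_apply, Module.Basis.repr_self, Finsupp.single_eq_same] at h3
  exact one_ne_zero h3

/-- **The automorphic module.** -/
noncomputable def autD [Module.Free G.Λ (MM G.Λ χ S E)]
    [Module.Finite G.Λ (MM G.Λ χ S E)] : AutMod j G.Λ S' where
  M := MM G.Λ χ S E
  T := TD χ S S' E
  T_comm := TD_comm
  I := Σ ψ : Pts G j, (D ψ).ι
  lam i := lamD D i.1 i.2
  psi i := i.1.1
  ev i := evD D i.1 i.2
  psi_comp i := i.1.2
  lam_smul i := lamD_smul D i.1 i.2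
  lam_T i _ h1 h2 m := lamD_T D ⟨h1, h2⟩ i.1 i.2 m
  lam_ne i := lamD_ne hg hE D i.1 i.2
  sep m hm := lamD_sep hg hE D hj m fun ψ c ↦ hm ⟨ψ, c⟩

end Fun

end Fermat.Agent.Deg
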