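import Fermat.Agent.Deg.Resid
import Fermat.Agent.Ihara.Coker
import Fermat.Agent.TWMod.ParEis

set_option autoImplicit false
set_option linter.unusedSectionVars false

/-!
# Ihara's lemma for pairs of homomorphisms, and the trace
-/

open CongruenceSubgroup Fermat.Agent.Top Fermat.Agent.TWMod Fermat.Agent.Twist
  Fermat.Agent.Ihara Fermat.Agent.TWLow Matrix
open scoped MatrixGroups

namespace Fermat.Agent.DegK

section Inj

variable {N q : ℕ} (a : ALD N q)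

/-- A relation between the two degeneracies is a gluing relation. -/
theorem glue_of_deg (hq : q ≠ 0) {A : Type*} [AddCommGroup A] {φ ψ : Additive (Gamma0 N) →+ A}
    (h : ∀ γ γ' : Gamma0 (q * N), a.w * mt γ = mt γ' * a.w →
      ev φ (incl (dvd_mul_left N q) γ) + ev ψ (incl (dvd_mul_left N q) γ') = 0) :
    Glue (q : ℤ) φ (-ψ) := by
  intro γ γ₁ hr
  have hq0 : (q : ℤ) ≠ 0 := by exact_mod_cast hq
  obtain ⟨δ, hδ⟩ : ∃ δ : Gamma0 (q * N), mt γ = mt δ := by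
    obtain ⟨c, hc⟩ := dvd_en γ₁
    have hdvd : ((q * N : ℕ) : ℤ) ∣ mt γ 1 0 := by
      rw [mt_apply, hr.h10, hc]
      exact ⟨c, by push_cast; ring⟩
    exact exists_mt (isDelta_of_det hdvd (by rw [det_mt]; exact isCoprime_one_left)) (det_mt γ)
  have h1 : mt δ * ALD.dg q = ALD.dg q * mt γ₁ := by
    rw [← hδ]
    ext i j
    fin_cases i <;> fin_cases j <;> simp [ALD.dg, Matrix.mul_apply, Fin.sum_univ_two, mt_apply]
    · exact hr.h00.symm
    · rw [hr.h01]; ring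
    · exact hr.h10
    · rw [hr.h11]; ring
  obtain ⟨δ', h2⟩ := a.conj_mt hq δ
  obtain ⟨X, hX⟩ : ∃ X : M2, X = !![a.x, a.y; N * a.z, q * a.t] := ⟨_, rfl⟩
  have hXdet : X.det = 1 := by
    rw [hX, Matrix.det_fin_two_of]; linear_combination a.h
  obtain ⟨ξ, hξ⟩ := exists_mt (N := N) (X := X) (isDelta_of_det (by rw [hX]; simp)
    (by rw [hXdet]; exact isCoprime_one_left)) hXdet
  have hwd : a.w * ALD.dg q = (q : ℤ) • mt ξ := by
    rw [← hξ, hX]
    ext i j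
    fin_cases i <;> fin_cases j <;> simp [ALD.dg, ALD.w, Matrix.mul_apply, Fin.sum_univ_two] <;> ring
  have hconj : incl (dvd_mul_left N q) δ' * ξ = ξ * γ₁ := by
    apply mt_injective
    rw [mt_mul, mt_mul, mt_incl]
    have e1 : (q : ℤ) • (mt δ' * mt ξ) = (q : ℤ) • (mt ξ * mt γ₁) := by
      rw [← Matrix.mul_smul, ← hwd, ← Matrix.mul_assoc, ← h2, Matrix.mul_assoc, h1,
        ← Matrix.mul_assoc, hwd, Matrix.smul_mul]
    exact smul_right_injective _ hq0 e1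
  have key := h δ δ' h2
  have e2 : incl (dvd_mul_left N q) δ = γ := mt_injective (by rw [mt_incl, hδ])
  have e3 : ev ψ (incl (dvd_mul_left N q) δ') = ev ψ γ₁ := by
    have h3 := congrArg (ev ψ) hconj
    rw [ev_mul, ev_mul, add_comm] at h3
    exact add_left_cancel h3
  rw [e2, e3] at key
  change ev φ γ = -ev ψ γ₁
  exact eq_neg_of_add_eq_zero_left key

theorem glue_of_deg_neg (hq : q ≠ 0) {A : Type*} [AddCommGroup A]
    {φ ψ : Additive (Gamma0 N) →+ A}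
    (h : ∀ γ γ' : Gamma0 (q * N), a.w * mt γ = mt γ' * a.w →
      ev φ (incl (dvd_mul_left N q) γ) + ev ψ (incl (dvd_mul_left N q) γ') = 0) :
    Glue (q : ℤ) (-φ) ψ := by
  intro γ γ' hr
  have h1 := glue_of_deg a hq h γ γ' hr
  change -ev φ γ = ev ψ γ'
  rw [h1]
  change -(-ev ψ γ') = ev ψ γ'
  rw [neg_neg]

variable [NeZero N] {k : Type*} [Field k]

/-- **Ihara's lemma** for the two degeneracy maps. -/
theorem deg_kill (hq : q.Prime) (hqN : ¬ q ∣ N) {φ ψ : Additive (Gamma0 N) →+ k}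
    (ℓ : Nat.Primes) (hℓ : GoodP N q k ℓ) (h1 : (ℓ : ℕ) ≡ 1 [MOD nI N])
    (h : ∀ γ γ' : Gamma0 (q * N), a.w * mt γ = mt γ' * a.w →
      ev φ (incl (dvd_mul_left N q) γ) + ev ψ (incl (dvd_mul_left N q) γ') = 0)
    (h' : ∀ γ γ' : Gamma0 (q * N), a.w * mt γ = mt γ' * a.w →
      ev (hop N ℓ φ) (incl (dvd_mul_left N q) γ) +
        ev (hop N ℓ ψ) (incl (dvd_mul_left N q) γ') = 0) :
    hop N ℓ (hop N ℓ φ - ((ℓ : ℕ) + 1) • φ) =
      ((ℓ : ℕ) + 1) • (hop N ℓ φ - ((ℓ : ℕ) + 1) • φ) ∧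
    hop N ℓ (hop N ℓ ψ - ((ℓ : ℕ) + 1) • ψ) =
      ((ℓ : ℕ) + 1) • (hop N ℓ ψ - ((ℓ : ℕ) + 1) • ψ) := by
  have hqcop : IsCoprime (q : ℤ) (N : ℤ) :=
    Nat.isCoprime_iff_coprime.mpr ((Nat.Prime.coprime_iff_not_dvd hq).mpr hqN)
  constructor
  · have g1 := glue_of_deg a hq.ne_zero h
    have g2 := glue_of_deg a hq.ne_zero h'
    rw [← map_neg] at g2
    exact g1.hop_sq hq hqN ℓ ℓ g2 hℓ hℓ h1
  · have g1 := (glue_of_deg_neg a hq.ne_zero h).symm hqcop
    have g2 := glue_of_deg_neg a hq.ne_zero h'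
    rw [← map_neg] at g2
    exact g1.hop_sq hq hqN ℓ ℓ (g2.symm hqcop) hℓ hℓ h1

end Inj

section Trace

variable {N q : ℕ} (a : ALD N q) {A : Type*} [AddCommGroup A]

/-- The operator on homomorphisms attached to a system of representatives. -/
def trR {Γ₁ Γ₂ G I : Type*} [Group Γ₁] [Group Γ₂] [Group G] {ι₁ : Γ₁ →* G}
    {ι₂ : Γ₂ →* G} [Fintype I] (R : BR ι₁ ι₂ I) (φ : Additive Γ₁ →+ A) : Additive Γ₂ →+ A :=
  AddMonoidHom.mk' (fun γ => ∑ i, φ (Additive.ofMul (R.c γ.toMul i))) (fun γ γ' => by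
    have h : ∀ i, φ (Additive.ofMul (R.c (γ + γ').toMul i)) =
        φ (Additive.ofMul (R.c γ.toMul i)) +
          φ (Additive.ofMul (R.c γ'.toMul (R.perm γ.toMul i))) := by
      intro i
      rw [toMul_add, R.c_mul, ofMul_mul, map_add]
      rfl
    rw [Finset.sum_congr rfl fun i _ => h i, Finset.sum_add_distrib,
      Equiv.sum_comp (R.perm γ.toMul) (fun i => φ (Additive.ofMul (R.c γ'.toMul i)))])

theorem ev_toHom_opM {K M : ℕ} {I : Type*} [Fintype I] {D : I → M2} (hD : RepSys K M D)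
    (f : Symb K A) (γ : Gamma0 M) :
    (opM D f.1) e1 (mt γ *ᵥ e1) = ∑ i, ev (toHom f) ((sys hD).c γ i) := by
  have hne : ∀ i, D i *ᵥ e1 ≠ 0 := fun i => mulVec_ne_zero_of_det (hD.det i) e1_ne
  have hne' : ∀ i, D i *ᵥ (mt γ *ᵥ e1) ≠ 0 := fun i =>
    mulVec_ne_zero_of_det (hD.det i) (mt_mulVec_ne_zero γ e1_ne)
  have h1 : ∀ i, ev (toHom f) ((sys hD).c γ i) =
      f (D ((sys hD).perm γ i) *ᵥ e1) e1 + f e1 (D i *ᵥ (mt γ *ᵥ e1)) := by
    intro i
    rw [ev_toHom f _ (hne ((sys hD).perm γ i)), mulVec_mulVec]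
    have h2 : mt ((sys hD).c γ i) * D ((sys hD).perm γ i) = D i * mt γ :=
      (sys_spec hD γ i).symm
    rw [h2, ← mulVec_mulVec, f.2.add _ _ _ (hne _) e1_ne (hne' i)]
  rw [Finset.sum_congr rfl fun i _ => h1 i, Finset.sum_add_distrib,
    Equiv.sum_comp ((sys hD).perm γ) (fun i => f (D i *ᵥ e1) e1), ← Finset.sum_add_distrib,
    opM_apply]
  refine Finset.sum_congr rfl fun i _ => ?_
  exact (f.2.add _ _ _ (hne i) e1_ne (hne' i)).symm

/-- The trace on homomorphisms. -/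
noncomputable def trH (hq : q.Prime) (hqN : ¬ q ∣ N) (φ : Additive (Gamma0 (q * N)) →+ A) :
    Additive (Gamma0 N) →+ A := trR (sys (a.repSys_trM hq hqN)) φ

theorem ev_trH (hq : q.Prime) (hqN : ¬ q ∣ N) (φ : Additive (Gamma0 (q * N)) →+ A)
    (γ : Gamma0 N) : ev (trH a hq hqN φ) γ =
      ∑ i, ev φ ((sys (a.repSys_trM hq hqN)).c γ i) := rfl

theorem toHom_Tr (hq : q.Prime) (hqN : ¬ q ∣ N) (f : Symb (q * N) A) :
    toHom (a.Tr A hq hqN f) = trH a hq hqN (toHom f) := by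
  refine AddMonoidHom.ext fun x => ?_
  obtain ⟨γ, rfl⟩ := Additive.ofMul.surjective x
  exact ev_toHom_opM (a.repSys_trM hq hqN) f γ

theorem trH_add (hq : q.Prime) (hqN : ¬ q ∣ N) (φ φ' : Additive (Gamma0 (q * N)) →+ A) :
    trH a hq hqN (φ + φ') = trH a hq hqN φ + trH a hq hqN φ' := by
  refine AddMonoidHom.ext fun x => ?_
  obtain ⟨γ, rfl⟩ := Additive.ofMul.surjective x
  change ev (trH a hq hqN (φ + φ')) γ = ev (trH a hq hqN φ) γ + ev (trH a hq hqN φ') γ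
  rw [ev_trH, ev_trH, ev_trH, ← Finset.sum_add_distrib]
  rfl

theorem trH_zero (hq : q.Prime) (hqN : ¬ q ∣ N) :
    trH a hq hqN (0 : Additive (Gamma0 (q * N)) →+ A) = 0 := by
  have h := trH_add a hq hqN (0 : Additive (Gamma0 (q * N)) →+ A) 0
  rw [add_zero] at h
  exact add_eq_left.mp h.symm

theorem trH_comp (hq : q.Prime) (hqN : ¬ q ∣ N) {B : Type*} [AddCommGroup B] (g : A →+ B)
    (φ : Additive (Gamma0 (q * N)) →+ A) :
    trH a hq hqN (g.comp φ) = g.comp (trH a hq hqN φ) := by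
  refine AddMonoidHom.ext fun x => ?_
  obtain ⟨γ, rfl⟩ := Additive.ofMul.surjective x
  change ev (trH a hq hqN (g.comp φ)) γ = g (ev (trH a hq hqN φ) γ)
  rw [ev_trH, ev_trH, map_sum]
  rfl

end Trace

end Fermat.Agent.DegK
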