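import Fermat.Agent.Deg.Maps
import Fermat.Agent.Deg.Alg
import Fermat.Agent.TWMod.LocalPart

set_option autoImplicit false
set_option linter.unusedSectionVars false

/-!
# Degeneracy maps on local components

Local components are taken with respect to the same Hecke polynomial `E` at both levels.  The
statements over the residue field are lifted to the coefficient ring.
-/

open CongruenceSubgroup Fermat.Agent.Top Fermat.Agent.TWMod Fermat.Agent.Twist
  Fermat.Agent.Ihara Fermat.Agent.TWLow MvPolynomial IsLocalRing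
open scoped MatrixGroups TensorProduct

namespace Fermat.Agent.Deg

section Ev

variable {N : ℕ} [NeZero N] {Λ : Type} [CommRing Λ] {χ : DirichletCharacter Λ N} {S : Set ℕ}
  (A : Type*) [AddCommGroup A] [Module Λ A]

/-- Transfer principle. -/
theorem ev_zero (hg : IsGood (kap χ)) {P : MvPolynomial (Pr S) Λ} (hP : ev χ S Λ P = 0) :
    ev χ S A P = 0 := by
  refine LinearMap.ext fun x ↦ ?_
  obtain ⟨t, rfl⟩ := (tau_bijective (A := A) hg).2 x
  rw [ev_tau, hP]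
  simp

theorem ev_congr' (hg : IsGood (kap χ)) {P Q : MvPolynomial (Pr S) Λ}
    (h : ev χ S Λ P = ev χ S Λ Q) : ev χ S A P = ev χ S A Q := by
  rw [← sub_eq_zero, ← map_sub] at h ⊢
  exact ev_zero A hg h

variable {E : MvPolynomial (Pr S) Λ} (hE : ev χ S Λ (E * E) = ev χ S Λ E)

include hE

theorem idem_apply (hg : IsGood (kap χ)) (x : H1 (kap χ) A) :
    ev χ S A E (ev χ S A E x) = ev χ S A E x := by
  have h := ev_congr' A hg hE
  rw [map_mul] at h
  exact LinearMap.congr_fun h x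

theorem eq_of_mem' (hg : IsGood (kap χ)) {x : H1 (kap χ) A} (hx : x ∈ MM A χ S E) :
    ev χ S A E x = x := by
  obtain ⟨y, rfl⟩ := hx
  exact idem_apply A hE hg y

end Ev

section Red

variable {N : ℕ} [NeZero N] {Λ : Type} [CommRing Λ] [IsLocalRing Λ] (χ : DirichletCharacter Λ N)
  (S : Set ℕ) (E : MvPolynomial (Pr S) Λ)

/-- the residue map as a linear map -/
noncomputable def resL (Λ : Type) [CommRing Λ] [IsLocalRing Λ] : Λ →ₗ[Λ] ResidueField Λ :=
  Algebra.linearMap Λ (ResidueField Λ)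

theorem resL_surjective : Function.Surjective (resL Λ) := residue_surjective

/-- Functoriality of local components in the coefficients. -/
theorem mapH_mem {A A' : Type*} [AddCommGroup A] [Module Λ A] [AddCommGroup A'] [Module Λ A']
    (g : A →ₗ[Λ] A') {x : H1 (kap χ) A} (hx : x ∈ MM A χ S E) : mapH g x ∈ MM A' χ S E := by
  obtain ⟨y, rfl⟩ := hx
  exact ⟨mapH g y, ev_mapH χ S g E y⟩

/-- reduction to the residue field -/
noncomputable def red : MM Λ χ S E →ₗ[Λ] MM (ResidueField Λ) χ S E :=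
  (mapH (resL Λ)).restrict fun _ hx ↦ mapH_mem χ S E (resL Λ) hx

variable {χ S E}

theorem coe_red (x : MM Λ χ S E) :
    ((red χ S E x : MM (ResidueField Λ) χ S E) : H1 (kap χ) (ResidueField Λ)) =
      mapH (resL Λ) (x : H1 (kap χ) Λ) := rfl

theorem red_surjective (hg : IsGood (kap χ)) : Function.Surjective (red χ S E) := by
  rintro ⟨_, y, rfl⟩
  obtain ⟨x, rfl⟩ := mapH_surjective hg (resL_surjective (Λ := Λ)) y
  exact ⟨⟨ev χ S Λ E x, x, rfl⟩, Subtype.ext (ev_mapH χ S (resL Λ) E x).symm⟩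

theorem red_eq_zero (hg : IsGood (kap χ)) (hE : ev χ S Λ (E * E) = ev χ S Λ E)
    {x : MM Λ χ S E} (hx : red χ S E x = 0) :
    x ∈ (maximalIdeal Λ) • (⊤ : Submodule Λ (MM Λ χ S E)) := by
  apply mem_smul_top_of_one_tmul
  have h1 : (x : H1 (kap χ) Λ) ⊗ₜ[Λ] (1 : ResidueField Λ) = 0 := by
    apply (tau_bijective (A := ResidueField Λ) hg).1
    rw [map_zero, tau_tmul]
    have h2 : mapH (resL Λ) (x : H1 (kap χ) Λ) = 0 := congrArg Subtype.val hx
    have h3 : LinearMap.toSpanSingleton Λ (ResidueField Λ) 1 = resL Λ := by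
      ext
      simp [resL]
    rw [h3, h2]
  have h4 := congrArg (LinearMap.rTensor (ResidueField Λ) (prM χ S E)) h1
  rw [map_zero, LinearMap.rTensor_tmul] at h4
  have h5 : prM χ S E (x : H1 (kap χ) Λ) = x := Subtype.ext (eq_of_mem' Λ hE hg x.2)
  rw [h5] at h4
  have h6 := congrArg (TensorProduct.comm Λ _ _) h4
  rw [map_zero, TensorProduct.comm_tmul] at h6
  exact h6

theorem red_of_mem {x : MM Λ χ S E}
    (hx : x ∈ (maximalIdeal Λ) • (⊤ : Submodule Λ (MM Λ χ S E))) : red χ S E x = 0 := by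
  have h : ∀ (r : Λ), r ∈ maximalIdeal Λ → ∀ y : H1 (kap χ) Λ, mapH (resL Λ) (r • y) = 0 := by
    intro r hr y
    obtain ⟨f, rfl⟩ := cls_surjective _ _ y
    rw [← map_smul (cls (kap χ) Λ), mapH_cls]
    have e : mapZ (resL Λ) (r • f) = 0 := by
      refine Subtype.ext (funext fun γ ↦ ?_)
      change resL Λ (r • f.1 γ) = 0
      have : residue Λ (r * f.1 γ) = 0 := by
        rw [map_mul, (residue_eq_zero_iff r).2 hr, zero_mul]
      exact this
    rw [e, map_zero]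
  refine Submodule.smul_induction_on hx (fun r hr n _ ↦ ?_) (fun x y hx hy ↦ ?_)
  · refine Subtype.ext ?_
    exact h r hr (n : H1 (kap χ) Λ)
  · rw [map_add, hx, hy, add_zero]

end Red

section Step

variable {N q K : ℕ} (hK : K = q * N) (a : ALD N q) {Λ : Type} [CommRing Λ]
variable (A : Type*) [AddCommGroup A] [Module Λ A]
variable {χ : DirichletCharacter Λ K} {χ₀ : DirichletCharacter Λ N} (h : CR χ χ₀)
variable {S : Set ℕ} (hS : ∀ l : ℕ, l.Prime → l ∣ K → l ∈ S)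

include hS

theorem not_dvd_of_Pr (ℓ : Pr S) : ¬ ℓ.1 ∣ K := fun hd ↦ ℓ.2.2 (hS _ ℓ.2.1 hd)

theorem Rop_ev (P : MvPolynomial (Pr S) Λ) (x : H1 (kap χ₀) A) :
    Rop hK A h (ev χ₀ S A P x) = ev χ S A P (Rop hK A h x) :=
  evC_natural (hkE_comm χ₀ S A) (hkE_comm χ S A) (Rop hK A h)
    (fun i x ↦ Rop_hk hK A h i.2.1 (not_dvd_of_Pr hS i) x) P x

theorem Wop_ev (hq : q ≠ 0) (P : MvPolynomial (Pr S) Λ) (x : H1 (kap χ) A) :
    Wop hK a A h hq (ev χ S A P x) = ev χ S A P (Wop hK a A h hq x) :=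
  evC_natural (hkE_comm χ S A) (hkE_comm χ S A) (Wop hK a A h hq)
    (fun i x ↦ Wop_hk hK a A h hq i.2.1 (not_dvd_of_Pr hS i) x) P x

theorem Trop_ev (hq : q.Prime) (hqN : ¬ q ∣ N) (P : MvPolynomial (Pr S) Λ) (x : H1 (kap χ) A) :
    Trop hK a A h hq hqN (ev χ S A P x) = ev χ₀ S A P (Trop hK a A h hq hqN x) :=
  evC_natural (hkE_comm χ S A) (hkE_comm χ₀ S A) (Trop hK a A h hq hqN)
    (fun i x ↦ Trop_hk hK a A h hq hqN i.2.1 (not_dvd_of_Pr hS i) x) P x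

omit hS in
/-- Hecke operators (also at primes in `S`) commute with Hecke polynomials. -/
theorem hk_ev {ℓ : ℕ} (hℓ : ℓ.Prime) (P : MvPolynomial (Pr S) Λ) (x : H1 (kap χ₀) A) :
    hk χ₀ A hℓ (ev χ₀ S A P x) = ev χ₀ S A P (hk χ₀ A hℓ x) :=
  evC_natural (hkE_comm χ₀ S A) (hkE_comm χ₀ S A) (hk χ₀ A hℓ)
    (fun i x ↦ hk_comm χ₀ A hℓ i.2.1 x) P x

variable (E : MvPolynomial (Pr S) Λ)

/-- the restriction on local components -/
noncomputable def RM : MM A χ₀ S E →ₗ[Λ] MM A χ S E :=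
  (Rop hK A h).restrict (by
    rintro _ ⟨y, rfl⟩
    exact ⟨Rop hK A h y, (Rop_ev hK A h hS E y).symm⟩)

/-- the Atkin–Lehner operator on local components -/
noncomputable def WM (hq : q ≠ 0) : MM A χ S E →ₗ[Λ] MM A χ S E :=
  (Wop hK a A h hq).restrict (by
    rintro _ ⟨y, rfl⟩
    exact ⟨Wop hK a A h hq y, (Wop_ev hK a A h hS hq E y).symm⟩)

/-- the trace on local components -/
noncomputable def TrM (hq : q.Prime) (hqN : ¬ q ∣ N) : MM A χ S E →ₗ[Λ] MM A χ₀ S E :=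
  (Trop hK a A h hq hqN).restrict (by
    rintro _ ⟨y, rfl⟩
    exact ⟨Trop hK a A h hq hqN y, (Trop_ev hK a A h hS hq hqN E y).symm⟩)

omit hS in
/-- Hecke operators on local components -/
noncomputable def hkM (χ₀ : DirichletCharacter Λ N) (S : Set ℕ) (E : MvPolynomial (Pr S) Λ)
    {ℓ : ℕ} (hℓ : ℓ.Prime) : MM A χ₀ S E →ₗ[Λ] MM A χ₀ S E :=
  (hk χ₀ A hℓ).restrict (by
    rintro _ ⟨y, rfl⟩
    exact ⟨hk χ₀ A hℓ y, (hk_ev A hℓ E y).symm⟩)

/-- the degeneracy maps -/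
noncomputable def dα (hq : q ≠ 0) (k : Fin 2) : MM A χ₀ S E →ₗ[Λ] MM A χ S E :=
  if k = 0 then RM hK A h hS E else (WM hK a A h hS E hq).comp (RM hK A h hS E)

/-- the traces -/
noncomputable def dτ (hq : q.Prime) (hqN : ¬ q ∣ N) (k : Fin 2) : MM A χ S E →ₗ[Λ] MM A χ₀ S E :=
  if k = 0 then (TrM hK a A h hS E hq hqN).comp (WM hK a A h hS E hq.ne_zero)
  else TrM hK a A h hS E hq hqN

theorem dα_zero (hq : q ≠ 0) (x : MM A χ₀ S E) :
    ((dα hK a A h hS E hq 0 x : MM A χ S E) : H1 (kap χ) A) = Rop hK A h x := rfl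

theorem dα_one (hq : q ≠ 0) (x : MM A χ₀ S E) :
    ((dα hK a A h hS E hq 1 x : MM A χ S E) : H1 (kap χ) A) =
      Wop hK a A h hq (Rop hK A h x) := rfl

theorem dτ_zero (hq : q.Prime) (hqN : ¬ q ∣ N) (x : MM A χ S E) :
    ((dτ hK a A h hS E hq hqN 0 x : MM A χ₀ S E) : H1 (kap χ₀) A) =
      Trop hK a A h hq hqN (Wop hK a A h hq.ne_zero x) := rfl

theorem dτ_one (hq : q.Prime) (hqN : ¬ q ∣ N) (x : MM A χ S E) :
    ((dτ hK a A h hS E hq hqN 1 x : MM A χ₀ S E) : H1 (kap χ₀) A) =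
      Trop hK a A h hq hqN x := rfl

/-- **The matrix of `τ α`.** -/
theorem dτ_dα (hq : q.Prime) (hqN : ¬ q ∣ N) (k l : Fin 2) (x : MM A χ₀ S E) :
    dτ hK a A h hS E hq hqN k (dα hK a A h hS E hq.ne_zero l x) =
      if k = l then ((q : Λ) + 1) • x else hkM A χ₀ S E hq x := by
  refine Subtype.ext ?_
  fin_cases k <;> fin_cases l
  · exact Trop_Wop_Rop hK a A h hq hqN x
  · exact Trop_Wop_Wop_Rop hK a A h hq hqN x
  · exact Trop_Rop hK a A h hq hqN x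
  · exact Trop_Wop_Rop hK a A h hq hqN x

/-- Hecke equivariance of the degeneracy maps. -/
theorem dα_hkM (hq : q ≠ 0) (k : Fin 2) {ℓ : ℕ} (hℓ : ℓ.Prime) (hℓK : ¬ ℓ ∣ K)
    (x : MM A χ₀ S E) : dα hK a A h hS E hq k (hkM A χ₀ S E hℓ x) =
      hkM A χ S E hℓ (dα hK a A h hS E hq k x) := by
  refine Subtype.ext ?_
  fin_cases k
  · exact Rop_hk hK A h hℓ hℓK x
  · change Wop hK a A h hq (Rop hK A h (hk χ₀ A hℓ x)) =
      hk χ A hℓ (Wop hK a A h hq (Rop hK A h x))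
    rw [Rop_hk hK A h hℓ hℓK, Wop_hk hK a A h hq hℓ hℓK]

/-- Hecke equivariance of the traces. -/
theorem dτ_hkM (hq : q.Prime) (hqN : ¬ q ∣ N) (k : Fin 2) {ℓ : ℕ} (hℓ : ℓ.Prime) (hℓK : ¬ ℓ ∣ K)
    (x : MM A χ S E) : dτ hK a A h hS E hq hqN k (hkM A χ S E hℓ x) =
      hkM A χ₀ S E hℓ (dτ hK a A h hS E hq hqN k x) := by
  refine Subtype.ext ?_
  fin_cases k
  · change Trop hK a A h hq hqN (Wop hK a A h hq.ne_zero (hk χ A hℓ x)) =
      hk χ₀ A hℓ (Trop hK a A h hq hqN (Wop hK a A h hq.ne_zero x))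
    rw [Wop_hk hK a A h hq.ne_zero hℓ hℓK, Trop_hk hK a A h hq hqN hℓ hℓK]
  · exact Trop_hk hK a A h hq hqN hℓ hℓK x

end Step

section Lift

variable {N q K : ℕ} [NeZero N] [NeZero K] (hK : K = q * N) (a : ALD N q) {Λ : Type} [CommRing Λ]
  [IsLocalRing Λ]
variable {χ : DirichletCharacter Λ K} {χ₀ : DirichletCharacter Λ N} (h : CR χ χ₀)
variable {S : Set ℕ} (hS : ∀ l : ℕ, l.Prime → l ∣ K → l ∈ S) {E : MvPolynomial (Pr S) Λ}

/-- Naturality of the degeneracy maps under reduction. -/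
theorem red_dα (hq : q ≠ 0) (k : Fin 2) (x : MM Λ χ₀ S E) :
    red χ S E (dα hK a Λ h hS E hq k x) =
      dα hK a (ResidueField Λ) h hS E hq k (red χ₀ S E x) := by
  refine Subtype.ext ?_
  fin_cases k
  · exact (Rop_mapH hK h (resL Λ) x.1).symm
  · change mapH (resL Λ) (Wop hK a Λ h hq (Rop hK Λ h x.1)) =
      Wop hK a (ResidueField Λ) h hq (Rop hK (ResidueField Λ) h (mapH (resL Λ) x.1))
    rw [Rop_mapH, Wop_mapH]

/-- Naturality of the traces under reduction. -/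
theorem red_dτ (hq : q.Prime) (hqN : ¬ q ∣ N) (k : Fin 2) (x : MM Λ χ S E) :
    red χ₀ S E (dτ hK a Λ h hS E hq hqN k x) =
      dτ hK a (ResidueField Λ) h hS E hq hqN k (red χ S E x) := by
  refine Subtype.ext ?_
  fin_cases k
  · change mapH (resL Λ) (Trop hK a Λ h hq hqN (Wop hK a Λ h hq.ne_zero x.1)) =
      Trop hK a (ResidueField Λ) h hq hqN (Wop hK a (ResidueField Λ) h hq.ne_zero
        (mapH (resL Λ) x.1))
    rw [Wop_mapH, Trop_mapH]
  · exact (Trop_mapH hK a h hq hqN (resL Λ) x.1).symm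

variable (hg₀ : IsGood (kap χ₀)) (hg : IsGood (kap χ))
  (hE₀ : ev χ₀ S Λ (E * E) = ev χ₀ S Λ E) (hE : ev χ S Λ (E * E) = ev χ S Λ E)

include hg₀ hE₀

/-- **Ihara's lemma over `Λ`**: the pair of degeneracy maps has a retraction. -/
theorem exists_ρ [Module.Finite Λ (MM Λ χ₀ S E)] [Module.Finite Λ (MM Λ χ S E)]
    [Module.Free Λ (MM Λ χ S E)] (hq : q ≠ 0)
    (hinj : ∀ x y : MM (ResidueField Λ) χ₀ S E, dα hK a (ResidueField Λ) h hS E hq 0 x +
      dα hK a (ResidueField Λ) h hS E hq 1 y = 0 → x = 0 ∧ y = 0) :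
    ∃ ρ : Fin 2 → (MM Λ χ S E →ₗ[Λ] MM Λ χ₀ S E), ∀ k l x,
      ρ k (dα hK a Λ h hS E hq l x) = if k = l then x else 0 := by
  refine exists_retraction₂ (fun k ↦ dα hK a Λ h hS E hq k) fun x y hxy ↦ ?_
  have h1 := red_of_mem hxy
  rw [map_add, red_dα, red_dα] at h1
  obtain ⟨h2, h3⟩ := hinj _ _ h1
  exact ⟨red_eq_zero hg₀ hE₀ h2, red_eq_zero hg₀ hE₀ h3⟩

include hg

/-- The traces are jointly surjective over `Λ`. -/
theorem dτ_surjective [Module.Finite Λ (MM Λ χ₀ S E)] (hq : q.Prime) (hqN : ¬ q ∣ N)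
    (hsurj : ∀ x y : MM (ResidueField Λ) χ₀ S E, ∃ z : MM (ResidueField Λ) χ S E,
      dτ hK a (ResidueField Λ) h hS E hq hqN 0 z = x ∧
      dτ hK a (ResidueField Λ) h hS E hq hqN 1 z = y) (x y : MM Λ χ₀ S E) :
    ∃ z : MM Λ χ S E, dτ hK a Λ h hS E hq hqN 0 z = x ∧ dτ hK a Λ h hS E hq hqN 1 z = y := by
  have key : ∀ x y : MM Λ χ₀ S E, ∃ w : MM Λ χ S E,
      x - dτ hK a Λ h hS E hq hqN 0 w ∈ (maximalIdeal Λ) • (⊤ : Submodule Λ (MM Λ χ₀ S E)) ∧
      y - dτ hK a Λ h hS E hq hqN 1 w ∈ (maximalIdeal Λ) • (⊤ : Submodule Λ (MM Λ χ₀ S E)) := by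
    intro x y
    obtain ⟨z, hz1, hz2⟩ := hsurj (red χ₀ S E x) (red χ₀ S E y)
    obtain ⟨w, hw⟩ := red_surjective hg z
    refine ⟨w, red_eq_zero hg₀ hE₀ ?_, red_eq_zero hg₀ hE₀ ?_⟩
    · rw [map_sub, red_dτ, hw, hz1, sub_self]
    · rw [map_sub, red_dτ, hw, hz2, sub_self]
  exact surjective₂_of_mod _ _ key x y

end Lift

end Fermat.Agent.Deg
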