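import Fermat.Agent.Deg.IharaSurj
import Fermat.Agent.Deg.Local

set_option autoImplicit false
set_option linter.unusedSectionVars false

/-!
# Ihara's lemma on local components, over the residue field
-/

open CongruenceSubgroup Fermat.Agent.Top Fermat.Agent.TWMod Fermat.Agent.Twist
  Fermat.Agent.Ihara Fermat.Agent.TWLow MvPolynomial IsLocalRing ModularCurve
  Fermat.Agent.Deg
open scoped MatrixGroups TensorProduct

namespace Fermat.Agent.DegK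

/-- The residual system is not Eisenstein (for the trivial character). -/
def NonEisP (S : Set ℕ) {k : Type*} [Field k] (b : Pr S → k) : Prop :=
  ∀ n : ℕ, n ≠ 0 → ∃ ℓ : Pr S, ℓ.1 ≡ 1 [MOD n] ∧ b ℓ ≠ ((ℓ.1 : ℕ) : k) + 1

theorem NonEisP.exists_aux {S : Set ℕ} {k : Type*} [Field k] {b : Pr S → k} (h : NonEisP S b)
    {N q : ℕ} [NeZero N] (hq : q.Prime) (p : ℕ) [Fact p.Prime] :
    ∃ (ℓ : Pr S) (hℓ : ¬ ℓ.1 ∣ q * N), AuxP N q p ⟨⟨ℓ.1, ℓ.2.1⟩, hℓ⟩ ∧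
      b ℓ ≠ ((ℓ.1 : ℕ) : k) + 1 := by
  obtain ⟨ℓ, h1, hP⟩ := h (2 * p * (q * N) * nI N) (by
    have := (Fact.out : p.Prime).ne_zero
    have := hq.ne_zero
    have := NeZero.ne N
    have := nI_ne_zero N
    positivity)
  obtain ⟨ℓ, hℓ, hS⟩ := ℓ
  change ℓ ≡ 1 [MOD _] at h1
  have key : ∀ d : ℕ, d ≠ 1 → ℓ ≡ 1 [MOD d] → ¬ ℓ = d := by
    intro d hd h h'
    subst h'
    have h2 := (Nat.modEq_iff_dvd' hℓ.one_lt.le).mp h.symm
    have h3 : ℓ ∣ 1 := by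
      have := (Nat.dvd_sub_iff_right hℓ.one_lt.le dvd_rfl).mp h2
      exact this
    exact hd (Nat.dvd_one.mp h3)
  have hqN : ℓ ≡ 1 [MOD q * N] := h1.of_dvd ⟨2 * p * nI N, by ring⟩
  have hdvd : ¬ ℓ ∣ q * N := by
    intro h
    exact key ℓ hℓ.one_lt.ne' (hqN.of_dvd h) rfl
  refine ⟨⟨ℓ, hℓ, hS⟩, hdvd, ⟨?_, ?_, ?_, ?_⟩, hP⟩
  · exact key 2 (by norm_num) (h1.of_dvd ⟨p * (q * N) * nI N, by ring⟩)
  · exact key p (Fact.out : p.Prime).one_lt.ne' (h1.of_dvd ⟨2 * (q * N) * nI N, by ring⟩)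
  · exact h1.of_dvd ⟨2 * p * (q * N), by ring⟩
  · exact h1.of_dvd ⟨2 * p * q * nI N, by ring⟩

section Poly

variable {N : ℕ} {Λ : Type} [CommRing Λ] (S : Set ℕ)

/-- `T_ℓ - (ℓ + 1)` -/
noncomputable def pz (ℓ : Pr S) : MvPolynomial (Pr S) Λ := X ℓ - C ((ℓ.1 : Λ) + 1)

variable {S} {χ : DirichletCharacter Λ N} {A : Type*} [AddCommGroup A] [Module Λ A]

theorem ev_pz (ℓ : Pr S) (x : H1 (kap χ) A) :
    ev χ S A (pz S ℓ) x = hk χ A ℓ.2.1 x - (((ℓ.1 : ℕ) + 1 : ℕ) : Λ) • x := by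
  rw [pz, map_sub, LinearMap.sub_apply, ev_X, ev_C_apply]
  push_cast
  rfl

theorem homH_pz (h : TrivOn χ A) (ℓ : Pr S) (hℓN : ¬ ℓ.1 ∣ N) (x : H1 (kap χ) A) :
    homH h.kap (ev χ S A (pz S ℓ) x) =
      evalHom N A (dz ⟨ℓ.1, ℓ.2.1⟩) (homH h.kap x) := by
  rw [ev_pz, map_sub, map_smul, homH_hk h ℓ.2.1 hℓN, evalHom_dz, Nat.cast_smul_eq_nsmul]

theorem homH_pz_pow (h : TrivOn χ A) (ℓ : Pr S) (hℓN : ¬ ℓ.1 ∣ N) (n : ℕ) (x : H1 (kap χ) A) :
    homH h.kap (ev χ S A (pz S ℓ ^ n) x) =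
      evalHom N A (dz ⟨ℓ.1, ℓ.2.1⟩ ^ n) (homH h.kap x) := by
  induction n generalizing x with
  | zero => simp
  | succ n ih =>
    rw [pow_succ, map_mul, Module.End.mul_apply, ih, homH_pz h ℓ hℓN, pow_succ, map_mul,
      Module.End.mul_apply]

theorem resE_pz [IsLocalRing Λ] {b : Pr S → ResidueField Λ} (ℓ : Pr S)
    (h : b ℓ ≠ ((ℓ.1 : ℕ) : ResidueField Λ) + 1) : resE S b (pz S ℓ) ≠ 0 := by
  rw [pz, map_sub, resE_X, resE_C, map_add, map_natCast, map_one, sub_ne_zero]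
  exact h

end Poly

section Loc

variable {N q K : ℕ} [NeZero N] (hK : K = q * N) (a : ALD N q) {Λ : Type} [CommRing Λ]
  [IsLocalRing Λ]
variable {χ : DirichletCharacter Λ K} {χ₀ : DirichletCharacter Λ N} (h : CR χ χ₀)
variable {S : Set ℕ} (hS : ∀ l : ℕ, l.Prime → l ∣ K → l ∈ S) {E : MvPolynomial (Pr S) Λ}
variable {b : Pr S → ResidueField Λ} (p : ℕ) [Fact p.Prime] [CharP (ResidueField Λ) p]

/-- Hecke polynomials with nonzero residue are invertible on the local component. -/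
def InvOn (χ₀ : DirichletCharacter Λ N) (S : Set ℕ) (E : MvPolynomial (Pr S) Λ)
    (b : Pr S → ResidueField Λ) (A : Type*) [AddCommGroup A] [Module Λ A] : Prop :=
  ∀ P, resE S b P ≠ 0 → ∃ Q, ∀ x ∈ MM A χ₀ S E, ev χ₀ S A Q (ev χ₀ S A P x) = x

theorem homH_Rop {A : Type*} [AddCommGroup A] [Module Λ A] (h0 : TrivOn χ₀ A)
    (x : H1 (kap χ₀) A) (γ : Gamma0 K) :
    homH (h0.of_lower hK h).kap (Rop hK A h x) (Additive.ofMul γ) =
      homH h0.kap x (Additive.ofMul (incl (dvd_level hK) γ)) := by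
  rw [Rop, homH_opBH _ h0.kap _ (fun _ b => one_smul _ b), Fintype.sum_unique, Rop_c hK]

include hS in
theorem rel_of_deg {A : Type*} [AddCommGroup A] [Module Λ A] (h0 : TrivOn χ₀ A) (hq : q ≠ 0)
    {x y : H1 (kap χ₀) A} (hxy : Rop hK A h x + Wop hK a A h hq (Rop hK A h y) = 0)
    (γ γ' : Gamma0 K) (hγ : a.w * mt γ = mt γ' * a.w) :
    Ihara.ev (homH h0.kap x) (incl (dvd_level hK) γ) +
      Ihara.ev (homH h0.kap y) (incl (dvd_level hK) γ') = 0 := by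
  have h1 := congrArg (fun z => homH (h0.of_lower hK h).kap z (Additive.ofMul γ)) hxy
  simp only [map_add, map_zero, AddMonoidHom.add_apply, AddMonoidHom.zero_apply] at h1
  rw [homH_Wop hK a h h0 hq _ hγ, homH_Rop hK h h0, homH_Rop hK h h0] at h1
  exact h1

include hS p in
/-- **(a)**: injectivity over the residue field. -/
theorem deg_inj (h0 : TrivOn χ₀ (ResidueField Λ)) (hq : q.Prime) (hqN : ¬ q ∣ N)
    (hne : NonEisP S b) (hinv : InvOn χ₀ S E b (ResidueField Λ))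
    {x y : H1 (kap χ₀) (ResidueField Λ)} (hx : x ∈ MM (ResidueField Λ) χ₀ S E)
    (hy : y ∈ MM (ResidueField Λ) χ₀ S E)
    (hxy : Rop hK (ResidueField Λ) h x +
      Wop hK a (ResidueField Λ) h hq.ne_zero (Rop hK (ResidueField Λ) h y) = 0) :
    x = 0 ∧ y = 0 := by
  obtain ⟨ℓ, hℓK, haux, hℓ⟩ := hne.exists_aux (N := N) hq p
  have hgood : GoodP N q (ResidueField Λ) ℓ.1 := by
    refine ⟨fun h' => hℓK (h'.mul_left q), haux.h2, fun h' => hℓK (by rw [h']; exact dvd_mul_right q N),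
      fun h' => ?_⟩
    rw [CharP.cast_eq_zero_iff (ResidueField Λ) p,
      Nat.prime_dvd_prime_iff_eq Fact.out ℓ.2.1] at h'
    exact haux.hp h'.symm
  have hℓN : ¬ ℓ.1 ∣ N := hgood.hN
  have hℓK' : ¬ ℓ.1 ∣ K := by rw [hK]; exact hℓK
  have hxy' : Rop hK (ResidueField Λ) h (hk χ₀ (ResidueField Λ) ℓ.2.1 x) +
      Wop hK a (ResidueField Λ) h hq.ne_zero
        (Rop hK (ResidueField Λ) h (hk χ₀ (ResidueField Λ) ℓ.2.1 y)) = 0 := by
    rw [Rop_hk hK _ h ℓ.2.1 hℓK', Rop_hk hK _ h ℓ.2.1 hℓK', Wop_hk hK a _ h _ ℓ.2.1 hℓK',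
      ← map_add, hxy, map_zero]
  have r1 := rel_of_deg hK a h hS h0 hq.ne_zero hxy
  have r2 := rel_of_deg hK a h hS h0 hq.ne_zero hxy'
  rw [homH_hk h0 ℓ.2.1 hℓN, homH_hk h0 ℓ.2.1 hℓN] at r2
  subst hK
  obtain ⟨k1, k2⟩ := deg_kill a hq hqN ⟨ℓ.1, ℓ.2.1⟩ hgood haux.hI r1 r2
  obtain ⟨Q, hQ⟩ := hinv _ (resE_pz ℓ hℓ)
  have fin : ∀ z ∈ MM (ResidueField Λ) χ₀ S E,
      hop N ⟨ℓ.1, ℓ.2.1⟩ (hop N ⟨ℓ.1, ℓ.2.1⟩ (homH h0.kap z) - ((ℓ.1 : ℕ) + 1) • homH h0.kap z) =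
      ((ℓ.1 : ℕ) + 1) • (hop N ⟨ℓ.1, ℓ.2.1⟩ (homH h0.kap z) -
        ((ℓ.1 : ℕ) + 1) • homH h0.kap z) → z = 0 := by
    intro z hz hkz
    have h1 : ev χ₀ S (ResidueField Λ) (pz S ℓ) (ev χ₀ S (ResidueField Λ) (pz S ℓ) z) = 0 := by
      apply homH_injective h0.kap
      rw [homH_pz h0 ℓ hℓN, homH_pz h0 ℓ hℓN, evalHom_dz, evalHom_dz, map_zero, sub_eq_zero]
      exact hkz
    have h2 := hQ _ (ev_mem_MM (ResidueField Λ) (pz S ℓ) hz)
    rw [h1, map_zero] at h2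
    have h3 := hQ _ hz
    rw [← h2, map_zero] at h3
    exact h3.symm
  exact ⟨fin x hx k1, fin y hy k2⟩

include hS in
/-- **(b)**: surjectivity over the residue field. -/
theorem tr_surj (h0 : TrivOn χ₀ (ResidueField Λ)) (hp : p ≠ 2) (hq : q.Prime) (hqN : ¬ q ∣ N)
    (hne : NonEisP S b) (hinv : InvOn χ₀ S E b (ResidueField Λ)) (hlift : LiftHyp N p)
    {x y : H1 (kap χ₀) (ResidueField Λ)} (hx : x ∈ MM (ResidueField Λ) χ₀ S E)
    (hy : y ∈ MM (ResidueField Λ) χ₀ S E) (hx' : ev χ₀ S (ResidueField Λ) E x = x)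
    (hy' : ev χ₀ S (ResidueField Λ) E y = y) :
    ∃ z ∈ MM (ResidueField Λ) χ S E,
      Trop hK a (ResidueField Λ) h hq hqN (Wop hK a (ResidueField Λ) h hq.ne_zero z) = x ∧
      Trop hK a (ResidueField Λ) h hq hqN z = y := by
  obtain ⟨ℓ, hℓK, haux, hℓ⟩ := hne.exists_aux (N := N) hq p
  have hℓN : ¬ ℓ.1 ∣ N := fun h' => hℓK (h'.mul_left q)
  subst hK
  obtain ⟨n, hn⟩ := exists_pair (k := ResidueField Λ) hp a hq hqN haux hlift
  obtain ⟨Φ, h1, h2⟩ := hn (homH h0.kap y) (homH h0.kap x)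
  have h0' : TrivOn χ (ResidueField Λ) := h0.of_lower rfl h
  obtain ⟨Z, hZ⟩ := homH_surjective h0'.kap Φ
  have e1 : Trop rfl a (ResidueField Λ) h hq hqN Z =
      ev χ₀ S (ResidueField Λ) (pz S ℓ ^ n) y := by
    apply homH_injective h0.kap
    rw [homH_pz_pow h0 ℓ hℓN, ← h1]
    refine AddMonoidHom.ext fun γ' => ?_
    obtain ⟨γ, rfl⟩ := Additive.ofMul.surjective γ'
    rw [homH_Trop rfl a h h0 hq hqN, hZ]
    rfl
  have e2 : Trop rfl a (ResidueField Λ) h hq hqN (Wop rfl a (ResidueField Λ) h hq.ne_zero Z) =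
      ev χ₀ S (ResidueField Λ) (pz S ℓ ^ n) x := by
    apply homH_injective h0.kap
    rw [homH_pz_pow h0 ℓ hℓN, ← h2]
    refine AddMonoidHom.ext fun γ' => ?_
    obtain ⟨γ, rfl⟩ := Additive.ofMul.surjective γ'
    rw [homH_Trop rfl a h h0 hq hqN]
    change _ = Ihara.ev (trH a hq hqN (wop a hq.ne_zero Φ)) γ
    rw [ev_trH]
    refine Finset.sum_congr rfl fun i _ => ?_
    rw [homH_Wop rfl a h h0 hq.ne_zero Z (cj_spec a hq.ne_zero _), hZ]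
    rfl
  have hres : resE S b (pz S ℓ ^ n) ≠ 0 := by
    rw [map_pow]
    exact pow_ne_zero _ (resE_pz ℓ hℓ)
  obtain ⟨Q, hQ⟩ := hinv _ hres
  refine ⟨ev χ S (ResidueField Λ) E (ev χ S (ResidueField Λ) Q Z), ⟨_, rfl⟩, ?_, ?_⟩
  · rw [Wop_ev rfl a _ h hS, Wop_ev rfl a _ h hS, Trop_ev rfl a _ h hS, Trop_ev rfl a _ h hS, e2,
      hQ x hx, hx']
  · rw [Trop_ev rfl a _ h hS, Trop_ev rfl a _ h hS, e1, hQ y hy, hy']

variable [NeZero K]

include p in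
/-- **(a)**, in the form needed for `Deg.exists_ρ`. -/
theorem dα_inj (h0 : TrivOn χ₀ (ResidueField Λ)) (hq : q.Prime) (hqN : ¬ q ∣ N)
    (hne : NonEisP S b) (hinv : InvOn χ₀ S E b (ResidueField Λ))
    (x y : MM (ResidueField Λ) χ₀ S E)
    (hxy : dα hK a (ResidueField Λ) h hS E hq.ne_zero 0 x +
      dα hK a (ResidueField Λ) h hS E hq.ne_zero 1 y = 0) : x = 0 ∧ y = 0 := by
  obtain ⟨h1, h2⟩ := deg_inj hK a h hS p h0 hq hqN hne hinv x.2 y.2 (congrArg Subtype.val hxy)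
  exact ⟨Subtype.ext h1, Subtype.ext h2⟩

/-- **(b)**, in the form needed for `Deg.dτ_surjective`. -/
theorem dτ_surj (hg₀ : IsGood (kap χ₀)) (hE₀ : ev χ₀ S Λ (E * E) = ev χ₀ S Λ E)
    (h0 : TrivOn χ₀ (ResidueField Λ)) (hp : p ≠ 2) (hq : q.Prime) (hqN : ¬ q ∣ N)
    (hne : NonEisP S b) (hinv : InvOn χ₀ S E b (ResidueField Λ)) (hlift : LiftHyp N p)
    (x y : MM (ResidueField Λ) χ₀ S E) : ∃ z : MM (ResidueField Λ) χ S E,
      dτ hK a (ResidueField Λ) h hS E hq hqN 0 z = x ∧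
      dτ hK a (ResidueField Λ) h hS E hq hqN 1 z = y := by
  obtain ⟨z, hz, h1, h2⟩ := tr_surj hK a h hS p h0 hp hq hqN hne hinv hlift x.2 y.2
    (eq_of_mem' _ hE₀ hg₀ x.2) (eq_of_mem' _ hE₀ hg₀ y.2)
  exact ⟨⟨z, hz⟩, Subtype.ext h1, Subtype.ext h2⟩

/-- Invertibility on the local component from invertibility over `Λ`. -/
theorem invOn_of (hg₀ : IsGood (kap χ₀)) (hE₀ : ev χ₀ S Λ (E * E) = ev χ₀ S Λ E)
    (hu : ∀ P, resE S b P ≠ 0 → ∃ Q, ev χ₀ S Λ (Q * P * E) = ev χ₀ S Λ E)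
    (A : Type*) [AddCommGroup A] [Module Λ A] : InvOn χ₀ S E b A := by
  intro P hP
  obtain ⟨Q, hQ⟩ := hu P hP
  refine ⟨Q, fun x hx => ?_⟩
  have h1 := LinearMap.congr_fun (ev_congr' A hg₀ hQ) x
  rw [map_mul, map_mul, Module.End.mul_apply, Module.End.mul_apply, eq_of_mem' A hE₀ hg₀ hx] at h1
  exact h1

end Loc

/-- The residual triviality of a character. -/
theorem trivOn_residue {N : ℕ} {Λ : Type} [CommRing Λ] [IsLocalRing Λ]
    {χ : DirichletCharacter Λ N} (h : ∀ u : ZMod N, IsUnit u → residue Λ (χ u) = 1) :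
    TrivOn χ (ResidueField Λ) := by
  intro u hu a
  rw [Algebra.smul_def]
  have : algebraMap Λ (ResidueField Λ) (χ u) = 1 := h u hu
  rw [this, one_mul]

section Lift

variable {N : ℕ} [NeZero N] {p : ℕ} [Fact p.Prime]

/-- Lifting of homomorphisms modulo `p` from a coefficient ring between `ℤ` and `ℚ`. -/
theorem liftHyp_of {Λ : Type} [CommRing Λ] (m : ℕ) (hm : m.Coprime p)
    (hloc : ∀ r : Λ, ∃ (n : ℕ) (z : ℤ), (m : Λ) ^ n * r = z) (hinj : Function.Injective (Int.cast : ℤ → Λ))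
    (π : Λ →+* ZMod p)
    (hsurj : ∀ x : Additive (Gamma0 N) →+ ZMod p, ∃ y : Additive (Gamma0 N) →+ Λ,
      π.toAddMonoidHom.comp y = x) : LiftHyp N p := by
  classical
  intro x
  obtain ⟨y, rfl⟩ := hsurj x
  -- a common denominator
  choose ν z hz using hloc
  let n : ℕ := ∑ γ ∈ gens N, ν (Ihara.ev y γ)
  have hV : ∀ γ : Gamma0 N, ∃ c : ℤ, (m : Λ) ^ n * Ihara.ev y γ = c := by
    intro γ
    have hγ : γ ∈ Subgroup.closure (gens N : Set (Gamma0 N)) := by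
      rw [closure_gens]; trivial
    induction hγ using Subgroup.closure_induction with
    | mem γ h =>
      have hle : ν (Ihara.ev y γ) ≤ n :=
        Finset.single_le_sum (f := fun γ => ν (Ihara.ev y γ)) (fun _ _ => Nat.zero_le _) h
      obtain ⟨d, hd⟩ := Nat.exists_eq_add_of_le hle
      refine ⟨m ^ d * z (Ihara.ev y γ), ?_⟩
      rw [hd, add_comm, pow_add, mul_assoc, hz]
      push_cast
      rfl
    | one => exact ⟨0, by rw [Ihara.ev_one, mul_zero, Int.cast_zero]⟩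
    | mul γ γ' _ _ h h' =>
      obtain ⟨c, hc⟩ := h
      obtain ⟨c', hc'⟩ := h'
      exact ⟨c + c', by rw [Ihara.ev_mul, mul_add, hc, hc', Int.cast_add]⟩
    | inv γ _ h =>
      obtain ⟨c, hc⟩ := h
      exact ⟨-c, by rw [Ihara.ev_inv, mul_neg, hc, Int.cast_neg]⟩
  choose c hc using hV
  let Y : Additive (Gamma0 N) →+ ℤ := AddMonoidHom.mk' (fun γ => c γ.toMul) (fun γ γ' => by
    apply hinj
    rw [Int.cast_add, ← hc, ← hc, ← hc, toMul_add, Ihara.ev_mul, mul_add])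
  -- correct the factor `m ^ n`
  obtain ⟨u, hu⟩ : ∃ u : ℤ, ((u : ℤ) : ZMod p) * ((m : ZMod p) ^ n) = 1 := by
    have h1 : IsUnit ((m : ℕ) : ZMod p) := (ZMod.isUnit_iff_coprime _ _).mpr hm
    obtain ⟨v, hv⟩ := (h1.pow n)
    obtain ⟨u, hu⟩ := ZMod.intCast_surjective ((v⁻¹ : (ZMod p)ˣ) : ZMod p)
    exact ⟨u, by rw [hu, ← hv, Units.inv_mul]⟩
  refine ⟨u • Y, AddMonoidHom.ext fun γ => ?_⟩
  change ((u • c γ.toMul : ℤ) : ZMod p) = π (Ihara.ev y γ.toMul)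
  have h2 := congrArg π (hc γ.toMul)
  rw [map_mul, map_pow, map_natCast, map_intCast] at h2
  rw [smul_eq_mul, Int.cast_mul, ← h2, ← mul_assoc, hu, one_mul]

end Lift

end Fermat.Agent.DegK
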