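import Fermat.Agent.Deg.IharaHom
import Fermat.Agent.Ihara.Kernel
import Fermat.Agent.Ihara.Forms

set_option autoImplicit false
set_option linter.unusedSectionVars false

/-!
# Surjectivity of the traces modulo `p`, away from Eisenstein
-/

open CongruenceSubgroup Fermat.Agent.Top Fermat.Agent.TWMod Fermat.Agent.Twist
  Fermat.Agent.Ihara Fermat.Agent.TWLow Matrix ModularCurve
open scoped MatrixGroups

namespace Fermat.Agent.DegK

section DH

variable (N : ℕ) (A : Type*) [AddCommGroup A]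

/-- `T_ℓ - (ℓ + 1)`. -/
noncomputable def dz (ℓ : Nat.Primes) : HeckeAlg := heckeGen ℓ - (((ℓ : ℕ) + 1 : ℕ) : HeckeAlg)

variable {N A}

theorem evalHom_dz (ℓ : Nat.Primes) (φ : Additive (Gamma0 N) →+ A) :
    evalHom N A (dz ℓ) φ = hop N ℓ φ - ((ℓ : ℕ) + 1) • φ := by
  rw [dz, map_sub, LinearMap.sub_apply, map_natCast, Module.End.natCast_apply, evalHom_heckeGen]

theorem incR_tz {M : ℕ} (ℓ : GP M) : incR M (tz M ℓ) = dz ℓ.1 := by
  rw [tz, map_sub, incR_X, map_natCast, dz]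

theorem evalHom_smul {S : Type*} [Semiring S] [Module S A] (c : S) (t : HeckeAlg)
    (φ : Additive (Gamma0 N) →+ A) : evalHom N A t (c • φ) = c • evalHom N A t φ := by
  let g : (Additive (Gamma0 N) →+ A) →+ (Additive (Gamma0 N) →+ A) :=
    { toFun := fun φ => c • φ
      map_zero' := smul_zero c
      map_add' := smul_add c }
  exact (evalEnd_natural (hopEnd_comm N A) (hopEnd_comm N A) g
    (fun ℓ φ ↦ (hop_smul ℓ c φ).symm) t φ).symm

end DH

/-- Homomorphisms modulo `p` lift to integral homomorphisms. -/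
def LiftHyp (N p : ℕ) : Prop := ∀ x : Additive (Gamma0 N) →+ ZMod p,
  ∃ y : Additive (Gamma0 N) →+ ℤ, (Int.castAddHom (ZMod p)).comp y = x

section Fp

variable {N q : ℕ} [NeZero N] {p : ℕ} [Fact p.Prime]

theorem exists_symb_lift (hlift : LiftHyp N p) (ℓ : Nat.Primes) (hℓ : (ℓ : ℕ) ≡ 1 [MOD N])
    (x : Additive (Gamma0 N) →+ ZMod p) :
    ∃ f : Symb N ℤ, (Int.castAddHom (ZMod p)).comp (toHom f) = evalHom N (ZMod p) (dz ℓ) x := by
  obtain ⟨y, rfl⟩ := hlift x
  have h := isParabolicHom_hop_sub ℓ.2 hℓ y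
  obtain ⟨f, hf⟩ := Ihara.exists_lift _ h
  refine ⟨f, ?_⟩
  rw [hf, evalHom_comp_left, evalHom_dz, add_comm (ℓ : ℕ) 1]
  rfl

theorem comp_p_smul (y : Additive (Gamma0 N) →+ ℤ) :
    (Int.castAddHom (ZMod p)).comp (p • y) = 0 := by
  refine AddMonoidHom.ext fun γ => ?_
  change (((p • y γ : ℤ)) : ZMod p) = 0
  rw [nsmul_eq_mul]
  simp

/-- **Surjectivity over `𝔽_p`.** -/
theorem exists_pair_Fp (hp : p ≠ 2) (a : ALD N q) (hq : q.Prime)
    (hqN : ¬ q ∣ N) {ℓ : GP (q * N)} (hℓ : AuxP N q p ℓ) (hlift : LiftHyp N p) :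
    ∃ n : ℕ, ∀ x y : Additive (Gamma0 N) →+ ZMod p,
      ∃ Φ : Additive (Gamma0 (q * N)) →+ ZMod p,
        trH a hq hqN Φ = evalHom N (ZMod p) (dz ℓ.1 ^ n) x ∧
        trH a hq hqN (wop a hq.ne_zero Φ) = evalHom N (ZMod p) (dz ℓ.1 ^ n) y := by
  obtain ⟨n, R, h⟩ := coker_main hp a hq hqN hℓ
  refine ⟨n + 1, fun x y => ?_⟩
  obtain ⟨f, hf⟩ := exists_symb_lift hlift ℓ.1 hℓ.hN x
  obtain ⟨g, hg⟩ := exists_symb_lift hlift ℓ.1 hℓ.hN y
  obtain ⟨F, hF⟩ := h (f, g)
  rw [jmap_apply, Prod.mk.injEq] at hF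
  obtain ⟨h1, h2⟩ := hF
  have key : ∀ f : Symb N ℤ, (Int.castAddHom (ZMod p)).comp
      (toHom (eS (q * N) N ℤ (tz (q * N) ℓ ^ n + (p : RH (q * N)) * R) f)) =
      evalHom N (ZMod p) (dz ℓ.1 ^ n) ((Int.castAddHom (ZMod p)).comp (toHom f)) := by
    intro f
    rw [eS_eq, toHom_eF, map_add, map_add, map_mul, map_mul, map_natCast, map_natCast, map_pow,
      incR_tz, LinearMap.add_apply, Module.End.mul_apply, Module.End.natCast_apply,
      AddMonoidHom.comp_add, comp_p_smul, add_zero, ← evalHom_comp_left]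
  refine ⟨(Int.castAddHom (ZMod p)).comp (toHom F), ?_, ?_⟩
  · rw [trH_comp, ← toHom_Tr, h1, key, hf, pow_succ, map_mul, Module.End.mul_apply]
  · have e : wop a hq.ne_zero ((Int.castAddHom (ZMod p)).comp (toHom F)) =
        (Int.castAddHom (ZMod p)).comp (wop a hq.ne_zero (toHom F)) := rfl
    rw [e, ← toHom_W, trH_comp, ← toHom_Tr, h2, key, hg, pow_succ, map_mul, Module.End.mul_apply]

variable {k : Type*} [Field k] [CharP k p]

theorem exists_decomp (x : Additive (Gamma0 N) →+ k) :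
    ∃ (m : ℕ) (c : Fin m → k) (X : Fin m → (Additive (Gamma0 N) →+ ZMod p)),
      x = ∑ j, c j • ((ZMod.castHom dvd_rfl k).toAddMonoidHom.comp (X j)) := by
  classical
  let _ : Algebra (ZMod p) k := ZMod.algebra k p
  let V : Submodule (ZMod p) k :=
    Submodule.span (ZMod p) (((gens N).image (fun γ => ev x γ) : Finset k) : Set k)
  have hV : ∀ γ : Gamma0 N, ev x γ ∈ V := by
    intro γ
    have hγ : γ ∈ Subgroup.closure (gens N : Set (Gamma0 N)) := by
      rw [closure_gens]; trivial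
    induction hγ using Subgroup.closure_induction with
    | mem γ h =>
      refine Submodule.subset_span ?_
      exact Finset.mem_coe.mpr (Finset.mem_image_of_mem _ h)
    | one => rw [ev_one]; exact V.zero_mem
    | mul γ γ' _ _ h h' => rw [ev_mul]; exact V.add_mem h h'
    | inv γ _ h => rw [ev_inv]; exact V.neg_mem h
  let b := Module.finBasis (ZMod p) V
  let xV : Additive (Gamma0 N) →+ V :=
    { toFun := fun γ => ⟨x γ, hV γ.toMul⟩
      map_zero' := Subtype.ext (map_zero x)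
      map_add' := fun γ γ' => Subtype.ext (map_add x γ γ') }
  refine ⟨_, fun j => (b j : k), fun j => (b.coord j).toAddMonoidHom.comp xV, ?_⟩
  refine AddMonoidHom.ext fun γ => ?_
  have h1 := congrArg (Subtype.val) (b.sum_repr (xV γ))
  rw [AddMonoidHom.finsetSum_apply]
  have h2 : ((xV γ : V) : k) = x γ := rfl
  rw [← h2, ← h1, AddSubmonoidClass.coe_finsetSum]
  refine Finset.sum_congr rfl fun j _ => ?_
  rw [Submodule.coe_smul, Algebra.smul_def, mul_comm]
  rfl

/-- **Surjectivity** of `(Tr, Tr ∘ W)` on homomorphisms with values in a field of characteristic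
`p`, up to a power of `T_ℓ - ℓ - 1`. -/
theorem exists_pair (hp : p ≠ 2) (a : ALD N q) (hq : q.Prime)
    (hqN : ¬ q ∣ N) {ℓ : GP (q * N)} (hℓ : AuxP N q p ℓ) (hlift : LiftHyp N p) :
    ∃ n : ℕ, ∀ x y : Additive (Gamma0 N) →+ k,
      ∃ Φ : Additive (Gamma0 (q * N)) →+ k,
        trH a hq hqN Φ = evalHom N k (dz ℓ.1 ^ n) x ∧
        trH a hq hqN (wop a hq.ne_zero Φ) = evalHom N k (dz ℓ.1 ^ n) y := by
  obtain ⟨n, h⟩ := exists_pair_Fp hp a hq hqN hℓ hlift
  refine ⟨n, ?_⟩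
  let T : HeckeAlg := dz ℓ.1 ^ n
  -- the set of good pairs is a subspace
  have hadd : ∀ x y x' y' : Additive (Gamma0 N) →+ k,
      (∃ Φ : Additive (Gamma0 (q * N)) →+ k, trH a hq hqN Φ = evalHom N k T x ∧
        trH a hq hqN (wop a hq.ne_zero Φ) = evalHom N k T y) →
      (∃ Φ : Additive (Gamma0 (q * N)) →+ k, trH a hq hqN Φ = evalHom N k T x' ∧
        trH a hq hqN (wop a hq.ne_zero Φ) = evalHom N k T y') →
      ∃ Φ : Additive (Gamma0 (q * N)) →+ k, trH a hq hqN Φ = evalHom N k T (x + x') ∧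
        trH a hq hqN (wop a hq.ne_zero Φ) = evalHom N k T (y + y') := by
    rintro x y x' y' ⟨Φ, h1, h2⟩ ⟨Φ', h1', h2'⟩
    refine ⟨Φ + Φ', ?_, ?_⟩
    · rw [trH_add, h1, h1', map_add]
    · have e : wop a hq.ne_zero (Φ + Φ') = wop a hq.ne_zero Φ + wop a hq.ne_zero Φ' := rfl
      rw [e, trH_add, h2, h2', map_add]
  let κ : ZMod p →+* k := ZMod.castHom dvd_rfl k
  have hsm : ∀ (c d : k) (X Y : Additive (Gamma0 N) →+ ZMod p),
      ∃ Φ : Additive (Gamma0 (q * N)) →+ k,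
        trH a hq hqN Φ = evalHom N k T (c • (κ.toAddMonoidHom.comp X)) ∧
        trH a hq hqN (wop a hq.ne_zero Φ) = evalHom N k T (c • (κ.toAddMonoidHom.comp Y)) := by
    intro c d X Y
    obtain ⟨Φ, h1, h2⟩ := h X Y
    refine ⟨(AddMonoidHom.mulLeft c).comp (κ.toAddMonoidHom.comp Φ), ?_, ?_⟩
    · rw [trH_comp, trH_comp, h1, ← evalHom_comp_left, evalHom_smul]
      rfl
    · have e : wop a hq.ne_zero ((AddMonoidHom.mulLeft c).comp (κ.toAddMonoidHom.comp Φ)) =
        (AddMonoidHom.mulLeft c).comp (κ.toAddMonoidHom.comp (wop a hq.ne_zero Φ)) := rfl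
      rw [e, trH_comp, trH_comp, h2, ← evalHom_comp_left, evalHom_smul]
      rfl
  have hsum : ∀ {m : ℕ} (s : Finset (Fin m)) (c : Fin m → k)
      (X Y : Fin m → (Additive (Gamma0 N) →+ ZMod p)),
      ∃ Φ : Additive (Gamma0 (q * N)) →+ k,
        trH a hq hqN Φ = evalHom N k T (∑ j ∈ s, c j • (κ.toAddMonoidHom.comp (X j))) ∧
        trH a hq hqN (wop a hq.ne_zero Φ) =
          evalHom N k T (∑ j ∈ s, c j • (κ.toAddMonoidHom.comp (Y j))) := by
    intro m s c X Y
    classical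
    induction s using Finset.induction_on with
    | empty =>
      refine ⟨0, ?_, ?_⟩
      · rw [Finset.sum_empty, map_zero, trH_zero]
      · rw [Finset.sum_empty, map_zero]
        exact trH_zero a hq hqN
    | insert j s hj ih =>
      rw [Finset.sum_insert hj, Finset.sum_insert hj]
      exact hadd _ _ _ _ (hsm (c j) 0 (X j) (Y j)) ih
  intro x y
  obtain ⟨m, c, X, rfl⟩ := exists_decomp (p := p) x
  obtain ⟨m', c', Y, rfl⟩ := exists_decomp (p := p) y
  have e1 := hsum Finset.univ c X (fun _ => 0)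
  have e2 := hsum Finset.univ c' (fun _ => 0) Y
  have h3 := hadd _ _ _ _ e1 e2
  have z : ∀ {m : ℕ} (c : Fin m → k), ∑ j, c j • (κ.toAddMonoidHom.comp
      (0 : Additive (Gamma0 N) →+ ZMod p)) = 0 := by
    intro m c
    refine Finset.sum_eq_zero fun j _ => ?_
    rw [AddMonoidHom.comp_zero, smul_zero]
  rw [z, z, add_zero, zero_add] at h3
  exact h3

end Fp

end Fermat.Agent.DegK
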