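import Fermat.Agent.Deg.IharaLoc

set_option autoImplicit false
set_option linter.unusedSectionVars false

/-!
# Lifting of homomorphisms modulo `p` to integral homomorphisms
-/

open CongruenceSubgroup Fermat.Agent.Top Fermat.Agent.TWMod Fermat.Agent.Ihara
open scoped MatrixGroups

namespace Fermat.Agent.DegK

theorem trivOn_one {N : ℕ} {Λ : Type*} [CommRing Λ] (A : Type*) [AddCommGroup A] [Module Λ A] :
    TrivOn (1 : DirichletCharacter Λ N) A := by
  intro u hu a
  rw [MulChar.one_apply hu, one_smul]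

/-- Homomorphisms `Γ₀(N) → 𝔽_p` lift to `ℤ[1/m]` and hence to `ℤ`. -/
theorem liftHyp_aux {N : ℕ} [NeZero N] {p : ℕ} [Fact p.Prime] (m : ℕ) (hm0 : m ≠ 0)
    (hm : m.Coprime p) (h2 : 2 ∣ m) (h3 : 3 ∣ m ∨ ∃ r : ℕ, r.Prime ∧ r % 3 = 2 ∧ r ∣ N) :
    LiftHyp N p := by
  let Λ : Type := Localization.Away ((m : ℕ) : ℤ)
  have hmu : IsUnit ((m : ℕ) : Λ) := by
    have := IsLocalization.Away.algebraMap_isUnit (S := Λ) ((m : ℕ) : ℤ)
    rwa [map_natCast] at this
  have hu : ∀ d : ℕ, d ∣ m → IsUnit ((d : ℕ) : Λ) := by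
    rintro d ⟨e, he⟩
    have h4 : ((m : ℕ) : Λ) = (d : Λ) * (e : Λ) := by
      rw [← Nat.cast_mul]
      exact congrArg (Nat.cast : ℕ → Λ) he
    exact isUnit_of_mul_isUnit_left (h4 ▸ hmu)
  have hpu : IsUnit (((m : ℕ) : ℤ) : ZMod p) := by
    rw [Int.cast_natCast]
    exact (ZMod.isUnit_iff_coprime _ _).mpr hm
  let π : Λ →+* ZMod p := IsLocalization.Away.lift (S := Λ) ((m : ℕ) : ℤ)
    (g := Int.castRingHom (ZMod p)) hpu
  let _ : Module Λ (ZMod p) := Module.compHom (ZMod p) π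
  have hπ : Function.Surjective π := by
    intro x
    obtain ⟨z, rfl⟩ := ZMod.intCast_surjective x
    exact ⟨z, map_intCast π z⟩
  let πL : Λ →ₗ[Λ] ZMod p :=
    { toFun := π
      map_add' := map_add π
      map_smul' := fun r x => map_mul π r x }
  have hgood : IsGood (kap (1 : DirichletCharacter Λ N)) :=
    isGood_kap 1 (by exact_mod_cast hu 2 h2) (h3.imp (fun h => by exact_mod_cast hu 3 h) id)
  refine liftHyp_of (Λ := Λ) m hm ?_ ?_ π ?_
  · intro r
    obtain ⟨n, z, h⟩ := IsLocalization.Away.surj (S := Λ) ((m : ℕ) : ℤ) r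
    refine ⟨n, z, ?_⟩
    rw [mul_comm]
    have e1 : algebraMap ℤ Λ ((m : ℕ) : ℤ) = (m : Λ) := by simp
    have e2 : algebraMap ℤ Λ z = (z : Λ) := by simp
    rw [← e1, ← e2]
    exact h
  · have h1 : Function.Injective (algebraMap ℤ Λ) :=
      IsLocalization.injective (S := Λ) (M := Submonoid.powers ((m : ℕ) : ℤ))
        (powers_le_nonZeroDivisors_of_noZeroDivisors (by exact_mod_cast hm0))
    intro x y hxy
    apply h1
    rw [eq_intCast, eq_intCast]
    exact hxy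
  · intro x
    obtain ⟨X, hX⟩ := homH_surjective (κ := kap (1 : DirichletCharacter Λ N))
      (trivOn_one (ZMod p)).kap x
    obtain ⟨Y, hY⟩ := mapH_surjective hgood (g := πL) hπ X
    refine ⟨homH (trivOn_one Λ).kap Y, AddMonoidHom.ext fun γ => ?_⟩
    rw [← hX, ← hY, homH_mapH (trivOn_one Λ).kap]
    rfl

/-- **Lifting of homomorphisms.** -/
theorem liftHyp {N : ℕ} [NeZero N] {p : ℕ} [Fact p.Prime] (hp2 : p ≠ 2)
    (h3 : p ≠ 3 ∨ ∃ r : ℕ, r.Prime ∧ r % 3 = 2 ∧ r ∣ N) : LiftHyp N p := by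
  have hp : p.Prime := Fact.out
  rcases h3 with h3 | h3
  · refine liftHyp_aux 6 (by norm_num) ?_ (by norm_num) (Or.inl (by norm_num))
    rw [Nat.coprime_comm, Nat.Prime.coprime_iff_not_dvd hp]
    intro h
    have h6 : p ∣ 2 * 3 := h
    rcases hp.dvd_mul.mp h6 with h' | h'
    · exact hp2 ((Nat.prime_dvd_prime_iff_eq hp Nat.prime_two).mp h')
    · exact h3 ((Nat.prime_dvd_prime_iff_eq hp Nat.prime_three).mp h')
  · refine liftHyp_aux 2 (by norm_num) ?_ dvd_rfl (Or.inr h3)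
    rw [Nat.coprime_comm, Nat.Prime.coprime_iff_not_dvd hp]
    intro h
    exact hp2 ((Nat.prime_dvd_prime_iff_eq hp Nat.prime_two).mp h)

/-- The lifting property from the condition `Three` on a local coefficient ring. -/
theorem liftHyp_of_three {N : ℕ} [NeZero N] {Λ : Type} [CommRing Λ] [IsLocalRing Λ] {p : ℕ}
    [Fact p.Prime] [CharP (IsLocalRing.ResidueField Λ) p] (hp2 : p ≠ 2) (h3 : Three Λ N) :
    LiftHyp N p := by
  refine liftHyp hp2 (h3.imp (fun h => ?_) id)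
  rintro rfl
  have h1 := (h.map (IsLocalRing.residue Λ)).ne_zero
  apply h1
  have h2 : ((3 : ℕ) : IsLocalRing.ResidueField Λ) = 0 := CharP.cast_eq_zero _ 3
  rw [map_ofNat]
  exact_mod_cast h2

end Fermat.Agent.DegK
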