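import Fermat.Agent.TWLow.Trace

set_option autoImplicit false
set_option linter.unusedSectionVars false

/-!
# Degeneracy maps on twisted cohomology

`K = q N` with `q` a prime not dividing `N`, `χ` modulo `K` induced from `χ₀` modulo `N`.
`Rop : H1 (kap χ₀) A → H1 (kap χ) A` is the restriction.  Together with the Atkin–Lehner operator
`Wop` and the trace `Trop` one has `Wop ∘ Wop = 1`, `Trop ∘ Rop = T_q`,
`Trop ∘ Wop ∘ Rop = q + 1`.
-/

open CongruenceSubgroup Fermat.Agent.Top Fermat.Agent.TWMod Fermat.Agent.Twist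
  Fermat.Agent.Ihara Fermat.Agent.TWLow Matrix.SpecialLinearGroup
open scoped MatrixGroups

namespace Fermat.Agent.Deg

section Abs

variable {Γ₁ Γ₂ G : Type*} [Group Γ₁] [Group Γ₂] [Group G] {ι₁ : Γ₁ →* G} {ι₂ : Γ₂ →* G}
  {I I' : Type*} [Fintype I] [Fintype I']
variable {Λ : Type*} [CommRing Λ] {κ₁ : Γ₁ →* Λ} {κ₂ : Γ₂ →* Λ}
variable {A : Type*} [AddCommGroup A] [Module Λ A]

/-- Systems contained in the group up to a central factor act as scalars. -/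
theorem opBH_inner {R : BR ι₁ ι₁ I} {w : I → Λ} (hw : IsWB R κ₁ κ₁ w) (z : G)
    (hz : ∀ g, z * g = g * z) (g : I → Γ₁) (hg : ∀ i, R.δ i = z * ι₁ (g i))
    (hwg : ∀ i, w i * κ₁ (g i) = 1) (x : H1 κ₁ A) :
    opBH A hw x = (Fintype.card I : Λ) • x := by
  obtain ⟨f, rfl⟩ := cls_surjective _ _ x
  rw [opBH_cls, ← map_smul, cls_eq_iff]
  refine ⟨-(∑ i, w i • f.1 (g i)), Subtype.ext (funext fun γ ↦ ?_)⟩
  have h1 : ∀ i, g i * γ = R.c γ i * g (R.σ γ i) := by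
    intro i
    apply R.inj
    have h := R.mul_eq γ i
    rw [hg, hg, ← mul_assoc, ← hz, mul_assoc, mul_assoc] at h
    rw [map_mul, map_mul]
    exact mul_left_cancel h
  have h2 : ∀ i, w i • f.1 (R.c γ i) =
      w i • f.1 (g i) + f.1 γ - κ₁ γ • (w (R.σ γ i) • f.1 (g (R.σ γ i))) := by
    intro i
    have h := congrArg (fun y ↦ w i • f.1 y) (h1 i)
    simp only [Z1_mul f, smul_add, ← mul_smul] at h
    rw [hw γ i, hwg i, one_smul] at h
    rw [← mul_smul]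
    exact (sub_eq_of_eq_add h).symm
  have h3 : ∑ i, w i • f.1 (R.c γ i) = ∑ i, w i • f.1 (g i) + (Fintype.card I : Λ) • f.1 γ -
      κ₁ γ • ∑ i, w i • f.1 (g i) := by
    rw [Finset.sum_congr rfl fun i _ ↦ h2 i, Finset.sum_sub_distrib, Finset.sum_add_distrib,
      ← Finset.smul_sum, sum_perm' R γ (fun i ↦ w i • f.1 (g i)), Finset.sum_const,
      Finset.card_univ, Nat.cast_smul_eq_nsmul]
  rw [dB_apply, Submodule.coe_sub, Pi.sub_apply, opB_apply, h3]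
  change _ = _ - (Fintype.card I : Λ) • f.1 γ
  rw [smul_neg]
  abel

/-- Naturality in the coefficients. -/
theorem opB_mapZ {R : BR ι₁ ι₂ I} {w : I → Λ} (hw : IsWB R κ₁ κ₂ w) {A' : Type*} [AddCommGroup A']
    [Module Λ A'] (g : A →ₗ[Λ] A') (f : Z1 κ₁ A) : opB A' hw (mapZ g f) = mapZ g (opB A hw f) := by
  refine Subtype.ext (funext fun γ ↦ ?_)
  rw [opB_apply, mapZ_apply, opB_apply, map_sum]
  simp

theorem opBH_mapH {R : BR ι₁ ι₂ I} {w : I → Λ} (hw : IsWB R κ₁ κ₂ w) {A' : Type*} [AddCommGroup A']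
    [Module Λ A'] (g : A →ₗ[Λ] A') (x : H1 κ₁ A) :
    opBH A' hw (mapH g x) = mapH g (opBH A hw x) := by
  obtain ⟨f, rfl⟩ := cls_surjective _ _ x
  rw [mapH_cls, opBH_cls, opBH_cls, mapH_cls, opB_mapZ]

end Abs

section Scal

/-- the scalar matrix -/
noncomputable def scz (c : ℤ) (hc : c ≠ 0) : GL (Fin 2) ℝ :=
  Matrix.GeneralLinearGroup.mkOfDetNeZero (Matrix.scalar (Fin 2) (c : ℝ)) (by
    rw [Matrix.scalar_apply, Matrix.det_diagonal]
    simpa using hc)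

theorem scz_val (c : ℤ) (hc : c ≠ 0) :
    ((scz c hc : GL (Fin 2) ℝ) : Matrix (Fin 2) (Fin 2) ℝ) = Matrix.scalar (Fin 2) (c : ℝ) := rfl

theorem scz_comm (c : ℤ) (hc : c ≠ 0) (g : GL (Fin 2) ℝ) : scz c hc * g = g * scz c hc := by
  apply Units.ext
  rw [Units.val_mul, Units.val_mul, scz_val]
  exact (Matrix.scalar_commute (c : ℝ) (fun _ ↦ mul_comm _ _) _).eq

theorem scz_mul_of_int {c : ℤ} (hc : c ≠ 0) {X Y : M2} {a b : GL (Fin 2) ℝ}
    (ha : (a : Matrix (Fin 2) (Fin 2) ℝ) = X.map (Int.cast : ℤ → ℝ))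
    (hb : (b : Matrix (Fin 2) (Fin 2) ℝ) = Y.map (Int.cast : ℤ → ℝ)) (h : X = c • Y) :
    a = scz c hc * b := by
  apply Units.ext
  rw [Units.val_mul, ha, hb, scz_val, h]
  ext i j
  rw [Matrix.scalar_apply, Matrix.diagonal_mul, Matrix.map_apply, Matrix.map_apply,
    Matrix.smul_apply, smul_eq_mul, Int.cast_mul]

end Scal

theorem wt_smul {N q : ℕ} {Λ : Type*} [CommRing Λ] {χ₀ : DirichletCharacter Λ N} (hq : q.Prime)
    (hqN : ¬ q ∣ N) (X : M2) : wt χ₀ ((q : ℤ) • X) = wt χ₀ X := by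
  have hu : IsUnit ((q : ℕ) : ZMod N) :=
    (ZMod.isUnit_iff_coprime _ _).mpr ((Nat.Prime.coprime_iff_not_dvd hq).mpr hqN)
  have h1 := char_mul_inv χ₀ hu
  simp only [wt, Matrix.smul_apply, smul_eq_mul, Int.cast_mul, Int.cast_natCast, map_mul]
  linear_combination (χ₀ ((X 0 0 : ℤ) : ZMod N) * χ₀⁻¹ ((X 1 1 : ℤ) : ZMod N)) * h1

section Ops

variable {N q K : ℕ} (hK : K = q * N) (a : ALD N q) {Λ : Type*} [CommRing Λ]
variable (A : Type*) [AddCommGroup A] [Module Λ A]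
variable {χ : DirichletCharacter Λ K} {χ₀ : DirichletCharacter Λ N} (h : CR χ χ₀)

include hK in
theorem repSys_one : RepSys N K (fun _ : Unit => (1 : M2)) where
  det _ := by simp
  ex γ _ := ⟨incl (dvd_level hK) γ, (), by rw [Matrix.one_mul, Matrix.mul_one, mt_incl]⟩
  uniq _ _ _ _ := rfl

include hK h in
theorem isWB_one : IsWB (sys (repSys_one hK)) (kap χ₀) (kap χ) (fun _ => (1 : Λ)) := by
  have h0 := KW.isWB (intRep_sys (repSys_one hK)) (θ := χ₀) dvd_rfl (dvd_level hK)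
    (fun _ => by simp) (kw_kap χ₀) (h.kw (dvd_level hK))
  have h1 : (fun _ : Unit => wt χ₀ (1 : M2)) = fun _ => (1 : Λ) := by
    funext _
    simp [wt]
  rwa [h1] at h0

/-- The restriction. -/
noncomputable def Rop : H1 (kap χ₀) A →ₗ[Λ] H1 (kap χ) A := opBH A (isWB_one hK h)

theorem Rop_c (γ : Gamma0 K) (i : Unit) :
    (sys (repSys_one hK)).c γ i = incl (dvd_level hK) γ :=
  (sys_unique (repSys_one hK) γ i i (incl (dvd_level hK) γ)
    (by rw [Matrix.one_mul, Matrix.mul_one, mt_incl])).2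

theorem Rop_cls (f : Z1 (kap χ₀) A) : ∃ g : Z1 (kap χ) A,
    Rop hK A h (cls (kap χ₀) A f) = cls (kap χ) A g ∧
      ∀ γ, g.1 γ = f.1 (incl (dvd_level hK) γ) := by
  refine ⟨_, opBH_cls _ _, fun γ ↦ ?_⟩
  rw [opB_apply, Finset.univ_unique, Finset.sum_singleton, one_smul, Rop_c hK]

variable {A} in
theorem Rop_mapH {A' : Type*} [AddCommGroup A'] [Module Λ A'] (g : A →ₗ[Λ] A')
    (x : H1 (kap χ₀) A) : Rop hK A' h (mapH g x) = mapH g (Rop hK A h x) := opBH_mapH _ g x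

variable {A} in
theorem Wop_mapH (hq : q ≠ 0) {A' : Type*} [AddCommGroup A'] [Module Λ A'] (g : A →ₗ[Λ] A')
    (x : H1 (kap χ) A) : Wop hK a A' h hq (mapH g x) = mapH g (Wop hK a A h hq x) :=
  opBH_mapH _ g x

variable {A} in
theorem Trop_mapH (hq : q.Prime) (hqN : ¬ q ∣ N) {A' : Type*} [AddCommGroup A'] [Module Λ A']
    (g : A →ₗ[Λ] A') (x : H1 (kap χ) A) :
    Trop hK a A' h hq hqN (mapH g x) = mapH g (Trop hK a A h hq hqN x) := opBH_mapH _ g x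

theorem Rop_hk {ℓ : ℕ} (hℓ : ℓ.Prime) (hℓK : ¬ ℓ ∣ K) (x : H1 (kap χ₀) A) :
    Rop hK A h (hk χ₀ A hℓ x) = hk χ A hℓ (Rop hK A h x) := by
  classical
  have hℓN : ¬ ℓ ∣ N := fun hd => hℓK (hd.trans (dvd_level hK))
  have hcr : CR χ₀ χ₀ := fun _ _ => rfl
  have e1 : Rop hK A h (hk χ₀ A hℓ x) =
      opBH A ((IsWB.ofReps (isWeight_hw χ₀ hℓ)).comp (isWB_one hK h)) x := by
    rw [opBH_comp (IsWB.ofReps (isWeight_hw χ₀ hℓ)) (isWB_one hK h), opBH_ofReps]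
    rfl
  have e2 : hk χ A hℓ (Rop hK A h x) =
      opBH A ((isWB_one hK h).comp (IsWB.ofReps (isWeight_hw χ hℓ))) x := by
    rw [opBH_comp (isWB_one hK h) (IsWB.ofReps (isWeight_hw χ hℓ)), opBH_ofReps]
    rfl
  have r1 := (intRep_hreps N hℓ).comp (intRep_sys (repSys_one hK))
  have r2 := (intRep_sys (repSys_one hK)).comp (intRep_hreps K hℓ)
  rw [e1, e2]
  refine opBH_congr' _ _ ?_ ?_ ?_ x
  · rintro g ⟨i, _⟩ ⟨j, _⟩ hij
    have h1 := ((r1.eq_iff r1 g _ _).mp hij.symm).symm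
    simp only [Matrix.mul_one] at h1
    rw [(repSys_tM N hℓ).uniq g i j h1]
  · rintro ⟨⟨i, hi⟩, _⟩
    refine ⟨1, ((), ⟨i, fun hd => absurd hd hℓK⟩), (r1.eq_iff r2 _ _ _).mpr ?_, ?_⟩
    · rw [mt_one, Matrix.one_mul, Matrix.one_mul, Matrix.mul_one]
      rfl
    · change hw χ₀ ℓ _ * 1 * kap χ₀ 1 = 1 * hw χ ℓ _
      rw [hw_eq h (dvd_level hK) hℓ hℓK, hw_eq hcr dvd_rfl hℓ hℓN, map_one, mul_one, mul_one,
        one_mul]
      rfl
  · rw [Fintype.card_prod, Fintype.card_prod, card_HI, card_HI, if_neg hℓN, if_neg hℓK, mul_comm]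

theorem Wop_Wop (hq : q.Prime) (hqN : ¬ q ∣ N) (x : H1 (kap χ) A) :
    Wop hK a A h hq.ne_zero (Wop hK a A h hq.ne_zero x) = x := by
  subst hK
  have hq0 : (q : ℤ) ≠ 0 := by exact_mod_cast hq.ne_zero
  have hw := isWB_w rfl a h hq.ne_zero
  have e1 : Wop rfl a A h hq.ne_zero (Wop rfl a A h hq.ne_zero x) = opBH A (hw.comp hw) x := by
    rw [opBH_comp hw hw]
    rfl
  obtain ⟨γ, hγ⟩ := a.w_sq
  have r1 := (intRep_sys (repSys_w' rfl a hq.ne_zero)).comp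
    (intRep_sys (repSys_w' rfl a hq.ne_zero))
  rw [e1, opBH_inner (hw.comp hw) (scz q hq0) (scz_comm q hq0) (fun _ => γ) (fun i => ?_)
    (fun i => ?_)]
  · simp
  · exact scz_mul_of_int hq0 (r1 i) (toGL_coe _) hγ
  · have h1 : wt χ₀ a.w * wt χ₀ a.w = wt χ₀ (mt γ) := by
      rw [← wt_mul χ₀ (dvd_w a) (dvd_w a), hγ]
      exact wt_smul hq hqN _
    change wt χ₀ a.w * wt χ₀ a.w * kap χ γ = 1
    rw [h1]
    exact h.kw (dvd_level rfl) γ

/-- `w_q τ = q γ` for the representatives `τ` of the trace. -/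
theorem exists_w_mul_trM (i : Option (Fin q)) : ∃ γ : Gamma0 N, a.w * a.trM i = (q : ℤ) • mt γ := by
  cases i with
  | none =>
    obtain ⟨γ, hγ⟩ := a.w_sq
    exact ⟨incl (dvd_mul_left N q) γ, by rw [ALD.trM_none, hγ, mt_incl]⟩
  | some j => exact a.w_mul_HM j

/-- `Trop ∘ Wop ∘ Rop = q + 1` -/
theorem Trop_Wop_Rop (hq : q.Prime) (hqN : ¬ q ∣ N) (x : H1 (kap χ₀) A) :
    Trop hK a A h hq hqN (Wop hK a A h hq.ne_zero (Rop hK A h x)) = ((q : Λ) + 1) • x := by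
  subst hK
  have hq0 : (q : ℤ) ≠ 0 := by exact_mod_cast hq.ne_zero
  have h1 := isWB_one rfl h
  have h2 := isWB_w rfl a h hq.ne_zero
  have h3 := isWB_tr rfl a h hq hqN
  have e1 : Trop rfl a A h hq hqN (Wop rfl a A h hq.ne_zero (Rop rfl A h x)) =
      opBH A ((h1.comp h2).comp h3) x := by
    rw [opBH_comp (h1.comp h2) h3, opBH_comp h1 h2]
    rfl
  choose g hg using exists_w_mul_trM a
  have r := ((intRep_sys (repSys_one (K := q * N) rfl)).comp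
    (intRep_sys (repSys_w' rfl a hq.ne_zero))).comp (intRep_sys (repSys_tr' rfl a hq hqN))
  rw [e1, opBH_inner ((h1.comp h2).comp h3) (scz q hq0) (scz_comm q hq0) (fun i => g i.2)
    (fun i => ?_) (fun i => ?_)]
  · congr 1
    simp
  · refine scz_mul_of_int hq0 (r i) (toGL_coe _) ?_
    rw [Matrix.one_mul]
    exact hg i.2
  · change 1 * wt χ₀ a.w * wt χ₀ (a.trM i.2) * kap χ₀ (g i.2) = 1
    rw [one_mul, ← wt_mul χ₀ (dvd_w a) (dvd_trM a _), hg, wt_smul hq hqN]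
    exact kw_kap χ₀ _

/-- `Trop ∘ Rop = T_q` -/
theorem Trop_Rop (hq : q.Prime) (hqN : ¬ q ∣ N) (x : H1 (kap χ₀) A) :
    Trop hK a A h hq hqN (Rop hK A h x) = hk χ₀ A hq x := by
  classical
  have hcr : CR χ₀ χ₀ := fun _ _ => rfl
  have e1 : Trop hK a A h hq hqN (Rop hK A h x) =
      opBH A ((isWB_one hK h).comp (isWB_tr hK a h hq hqN)) x := by
    rw [opBH_comp (isWB_one hK h) (isWB_tr hK a h hq hqN)]
    rfl
  have e2 : hk χ₀ A hq x = opBH A (IsWB.ofReps (isWeight_hw χ₀ hq)) x := by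
    rw [opBH_ofReps]
    rfl
  have r1 := (intRep_sys (repSys_one hK)).comp (intRep_sys (repSys_tr' hK a hq hqN))
  have r2 := intRep_hreps N hq
  rw [e1, e2]
  symm
  obtain ⟨γ, hγ⟩ := a.w_eq
  have hγ' : HM q none = mt γ⁻¹ * a.w := by
    rw [hγ, ← Matrix.mul_assoc, mt_inv_mul, Matrix.one_mul]
  refine opBH_congr' _ _ ?_ ?_ ?_ x
  · intro g i j hij
    exact (repSys_tM N hq).uniq g i j ((r2.eq_iff r2 g _ _).mp hij.symm).symm
  · rintro ⟨i, hi⟩
    cases i with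
    | none =>
      refine ⟨γ⁻¹, ((), none), (r2.eq_iff r1 _ _ _).mpr ?_, ?_⟩
      · rw [Matrix.one_mul]
        exact hγ'
      · refine (congrArg (· * kap χ₀ γ⁻¹) (hw_eq hcr dvd_rfl hq hqN _)).trans ?_
        change wt χ₀ (HM q none) * kap χ₀ γ⁻¹ = 1 * wt χ₀ a.w
        rw [one_mul]
        exact (kw_kap χ₀).weight dvd_rfl γ⁻¹ (dvd_w a) hγ'
    | some j =>
      refine ⟨1, ((), some j), (r2.eq_iff r1 _ _ _).mpr ?_, ?_⟩
      · rw [mt_one, Matrix.one_mul, Matrix.one_mul]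
        rfl
      · refine (congrArg (· * kap χ₀ 1) (hw_eq hcr dvd_rfl hq hqN _)).trans ?_
        change wt χ₀ (HM q (some j)) * kap χ₀ 1 = 1 * wt χ₀ (HM q (some j))
        rw [map_one, mul_one, one_mul]
  · rw [Fintype.card_prod, card_HI, if_neg hqN]
    simp

/-- `Trop ∘ Wop ∘ Wop ∘ Rop = T_q` -/
theorem Trop_Wop_Wop_Rop (hq : q.Prime) (hqN : ¬ q ∣ N) (x : H1 (kap χ₀) A) :
    Trop hK a A h hq hqN (Wop hK a A h hq.ne_zero (Wop hK a A h hq.ne_zero (Rop hK A h x))) =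
      hk χ₀ A hq x := by
  rw [Wop_Wop hK a A h hq hqN, Trop_Rop]

end Ops

end Fermat.Agent.Deg
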