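import Fermat.Agent.Deg.ModChain

set_option autoImplicit false
set_option linter.unusedSectionVars false

/-!
# Construction of the modules of the raising steps
-/

open CongruenceSubgroup Fermat.Agent.Top Fermat.Agent.TWMod Fermat.Agent.Twist
  Fermat.Agent.Ihara Fermat.Agent.TWLow MvPolynomial IsLocalRing Fermat.Agent.LL
open scoped MatrixGroups TensorProduct

namespace Fermat.Agent.Deg

theorem CR_chz {R : Type} [CommRing R] {K N : ℕ} [NeZero K] (hNK : N ∣ K) {F : Finset ℕ}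
    {z : ℕ → R} (hF : ∀ q ∈ F, q ∣ N) : CR (chz K F z) (chz N F z) := by
  intro x hx
  have hK : (0 : ℤ) < K := by exact_mod_cast Nat.pos_of_ne_zero (NeZero.ne K)
  obtain ⟨u, hu⟩ : ∃ u : ℕ, (u : ℤ) = x % K := ⟨(x % K).toNat, Int.toNat_of_nonneg
    (Int.emod_nonneg _ hK.ne')⟩
  have h1 : ((x : ℤ) : ZMod K) = (u : ZMod K) := by
    rw [← Int.cast_natCast u, hu, ZMod.intCast_mod]
  have h2 : ((x : ℤ) : ZMod N) = (u : ZMod N) := by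
    have h3 : ((x : ℤ) : ZMod N) = ((x % K : ℤ) : ZMod N) := by
      rw [ZMod.intCast_eq_intCast_iff_dvd_sub]
      exact (Int.natCast_dvd_natCast.2 hNK).trans (Int.mod_modEq x K).symm.dvd
    rw [h3, ← hu, Int.cast_natCast]
  have hcop : Nat.Coprime u K := by
    rw [← ZMod.isUnit_iff_coprime, ← h1]
    exact TWLow.isUnit_intCast hx
  rw [h1, h2]
  exact chz_apply_eq (fun q hq ↦ (hF q hq).trans hNK) hF hcop (hcop.coprime_dvd_right hNK)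

section

variable {p : ℕ} {𝒪 : Type} [CommRing 𝒪] [IsDomain 𝒪] [IsDiscreteValuationRing 𝒪]
    [IsAdicComplete (maximalIdeal 𝒪) 𝒪] [Finite (ResidueField 𝒪)] [CharZero 𝒪] {j : 𝒪 →+* ℂ}
    {ρbar : ResidualGaloisRep (ResidueField 𝒪)} {S0 : Finset ℕ} {b : ℕ → 𝒪}
    {r : ℕ} {av : Fin r → ℕ} {G : GrpRing 𝒪 p av} {T S' : Finset ℕ} {N : ℕ} {F : Finset ℕ}
    {z : ℕ → G.Λ}

theorem Lev_mono (L : Lev G S' N F z) (h : S' ⊆ T) : Lev G T N F z :=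
  { L with mem := fun q hq hqN ↦ h (L.mem q hq hqN) }

variable {χ₁ χ₂ : DirichletCharacter G.Λ N} {E : MvPolynomial (Pr (↑T : Set ℕ)) G.Λ}
  {ψ : G.Λ →+* ℂ}

theorem hk_mem_MP' {χ : DirichletCharacter G.Λ N} {ℓ : ℕ} (hℓ : ℓ.Prime)
    {x : H1 (kap (χ.ringHomComp ψ)) (PtMod ψ)} (hx : x ∈ MP ψ χ ↑T E) :
    hk (χ.ringHomComp ψ) (PtMod ψ) hℓ x ∈ MP ψ χ ↑T E := by
  obtain ⟨y, rfl⟩ := hx
  exact ⟨hk (χ.ringHomComp ψ) (PtMod ψ) hℓ y, (hk_ev (PtMod ψ) hℓ (MvPolynomial.map ψ E) y).symm⟩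

/-- semisimplicity at points, with a smaller set of excluded primes -/
theorem eigSpan_of_lev [NeZero N] (L : Lev G S' N F z) (C : Ctx p j ρbar S0 b) (hSS : SpecSS)
    (hT : S' ⊆ T) (hE : IsLoc χ₁ χ₂ ↑T (aL G T b) E)
    (hχ : chz N F z ∈ ({χ₁, χ₂} : Set (DirichletCharacter G.Λ N))) :
    EigSpan (chz N F z) ↑T S' E ψ := by
  have hTw : TwHyp N (cond F (fun q ↦ ψ (z q))) ((chz N F z).ringHomComp ψ) := by
    rw [L.comp]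
    exact L.twHyp C
  let W : Submodule ℂ (H1 (kap ((chz N F z).ringHomComp ψ)) ℂ) := MP ψ (chz N F z) ↑T E
  have hc : 0 < N * cond F (fun q ↦ ψ (z q)) :=
    Nat.mul_pos hTw.pos (Nat.pos_of_ne_zero hTw.sqf.ne_zero)
  obtain ⟨ℓ, hℓ1, hℓ2⟩ := exists_noneis C G T hc
  have h := hSS N _ _ hTw S' L.mem W (fun ℓ hℓ hS x hx ↦ hk_mem_MP' hℓ hx)
    ⟨ℓ.1, ℓ.2.1, fun h ↦ ℓ.2.2 (Finset.mem_coe.2 (hT h)), hℓ1, fun x hx hxe ↦ by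
      refine eq_zero_of_MP hE hχ (resE_sub ℓ hℓ2) (x := x) hx ?_
      refine (ev_map_sub ℓ _ x).trans (sub_eq_zero.2 ?_)
      have h1 : ψ (1 + (ℓ.1 : G.Λ)) = 1 + (ℓ.1 : ℂ) := by rw [map_add, map_one, map_natCast]
      exact hxe.trans (congrArg (· • x) h1.symm)⟩
  change W = _
  rw [h]
  apply le_antisymm
  · refine Submodule.span_mono ?_
    rintro x ⟨hx, α, hα⟩
    exact ⟨hx, fun ℓ ↦ α ℓ.1, fun ℓ ↦ hα ℓ.1 ℓ.2.1 fun h ↦ ℓ.2.2 (Finset.mem_coe.2 h)⟩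
  · refine Submodule.span_mono ?_
    rintro x ⟨hx, α, hα⟩
    classical
    refine ⟨hx, fun ℓ ↦ if h : ℓ.Prime ∧ ℓ ∉ (↑S' : Set ℕ) then α ⟨ℓ, h⟩ else 0,
      fun ℓ hℓ hS ↦ ?_⟩
    have h' : ℓ.Prime ∧ ℓ ∉ (↑S' : Set ℕ) := ⟨hℓ, fun h ↦ hS (Finset.mem_coe.1 h)⟩
    beta_reduce
    rw [dif_pos h']
    exact hα ⟨ℓ, h'⟩

theorem NonEis_mono {t : ℕ → ℂ} (h : NonEis T t) (hS : S' ⊆ T) : NonEis S' t := by
  intro M hM
  obtain ⟨ℓ, h1, h2, h3, h4⟩ := h M hM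
  exact ⟨ℓ, h1, fun h' ↦ h2 (hS h'), h3, h4⟩

/-- Eigenvectors for a smaller set of excluded primes are not Eisenstein. -/
theorem nonEis_of_eig' [NeZero N] (C : Ctx p j ρbar S0 b) (hT : S' ⊆ T)
    (hE : IsLoc χ₁ χ₂ ↑T (aL G T b) E)
    {χ : DirichletCharacter G.Λ N} (hχ : χ ∈ ({χ₁, χ₂} : Set (DirichletCharacter G.Λ N)))
    {α : Pr (↑S' : Set ℕ) → ℂ}
    {x : H1 (kap (χ.ringHomComp ψ)) (PtMod ψ)} (hx : IsEigP ψ χ ↑S' α x) (hx0 : x ≠ 0)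
    (hxM : x ∈ MP ψ χ ↑T E) {t : ℕ → ℂ} (ht : ∀ ℓ (h : ℓ.Prime ∧ ℓ ∉ (↑S' : Set ℕ)),
      t ℓ = α ⟨ℓ, h⟩) : NonEis S' t := by
  have hsub : ∀ ℓ : ℕ, (ℓ.Prime ∧ ℓ ∉ (↑T : Set ℕ)) → (ℓ.Prime ∧ ℓ ∉ (↑S' : Set ℕ)) :=
    fun ℓ h ↦ ⟨h.1, fun h' ↦ h.2 (Finset.mem_coe.2 (hT (Finset.mem_coe.1 h')))⟩
  exact NonEis_mono (nonEis_of_eig C hE hχ (α := fun ℓ ↦ α ⟨ℓ.1, hsub ℓ.1 ℓ.2⟩)
    (fun ℓ ↦ hx ⟨ℓ.1, hsub ℓ.1 ℓ.2⟩) hx0 hxM fun ℓ h ↦ ht ℓ (hsub ℓ h)) hT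

theorem nonEisP_aL (C : Ctx p j ρbar S0 b) (G : GrpRing 𝒪 p av) (T : Finset ℕ) :
    DegK.NonEisP (↑T : Set ℕ) (aL G T b) := by
  intro n hn
  obtain ⟨ℓ, h1, h2⟩ := exists_noneis C G T (Nat.pos_of_ne_zero hn)
  exact ⟨ℓ, h1, fun h ↦ h2 (h.trans (add_comm _ _))⟩

end

/-- **The module part of the raising steps.** -/
theorem modChainStmt : ModChainStmt := by
  intro p 𝒪 _ _ _ _ _ _ j ρbar S0 b C r av G m ql S N _ F z E CL hSS hNew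
  have : Fact p.Prime := ⟨C.prime⟩
  have hchar : CharP (ResidueField G.Λ) p := by
    refine (CharP.charP_iff_prime_eq_zero C.prime).2 ?_
    rw [← map_natCast (residue G.Λ)]
    exact (residue_eq_zero_iff _).2 (pΛ C G)
  have hg : ∀ i, IsGood (kap (chz (N i) F z)) := fun i ↦
    isGood_kap _ (CL.loc i).two (CL.loc i).three
  have hE : ∀ i, ev (chz (N i) F z) ↑(S m) G.Λ (E * E) = ev (chz (N i) F z) ↑(S m) G.Λ E :=
    fun i ↦ (CL.loc i).idem _ (Or.inl rfl)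
  have hfree : ∀ i, Module.Free G.Λ (MM G.Λ (chz (N i) F z) ↑(S m) E) := fun i ↦
    (Lev_mono (CL.lev i) (CL.S_top i)).free C (CL.loc i) (Or.inl rfl)
  have hfin : ∀ i, Module.Finite G.Λ (MM G.Λ (chz (N i) F z) ↑(S m) E) := fun i ↦
    finite_MM (CL.loc i)
  choose a haz using fun i : Fin m ↦ exists_ALD_dvd (CL.ql_prime i) (CL.ql_N i)
  have hNK : ∀ i : Fin m, N i ∣ N (i + 1) := fun i ↦ by
    rw [CL.step i]
    exact dvd_mul_left _ _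
  have hCR : ∀ i : Fin m, CR (chz (N (i + 1)) F z) (chz (N i) F z) := fun i ↦
    CR_chz (hNK i) (CL.lev i).dvd
  have hSm : ∀ i : Fin m, ∀ l : ℕ, l.Prime → l ∣ N (i + 1) → l ∈ (↑(S m) : Set ℕ) :=
    fun i l hl hlN ↦ Finset.mem_coe.2 (CL.S_top _ ((CL.lev (i + 1)).mem l hl hlN))
  have hES : ∀ i (T' : Finset ℕ), S i ⊆ T' → T' ⊆ S m → ∀ ψ : G.Λ →+* ℂ,
      EigSpan (chz (N i) F z) ↑(S m) T' E ψ := fun i T' h1 h2 ψ ↦
    eigSpan_of_lev (Lev_mono (CL.lev i) h1) C hSS h2 (CL.loc i) (Or.inl rfl)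
  have D0 : ∀ ψ : Pts G j, EigD (chz (N 0) F z) ↑(S m) (S 0) E ψ.1 := fun ψ ↦
    (hES 0 (S 0) subset_rfl (CL.S_top 0) ψ.1).nonempty_eigD.some
  have hD : ∀ i (ψ : Pts G j), ∃ D : EigD (chz (N (i + 1)) F z) ↑(S m) (S (i + 1)) E ψ.1,
      ∀ (hi : i < m) (v : MP ψ.1 (chz (N (i + 1)) F z) ↑(S m) E),
        v ∈ oldP (CL.step ⟨i, hi⟩) (a ⟨i, hi⟩) (hCR ⟨i, hi⟩) (hSm ⟨i, hi⟩) E
          (CL.ql_prime ⟨i, hi⟩).ne_zero ψ.1 ↔ ∀ c ∉ D.old, D.b.coord c v = 0 := by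
    intro i ψ
    by_cases hi : i < m
    · obtain ⟨D, hD⟩ := exists_eigD_new (CL.step ⟨i, hi⟩) (a ⟨i, hi⟩) (hCR ⟨i, hi⟩)
        (hSm ⟨i, hi⟩) E (CL.ql_prime ⟨i, hi⟩).ne_zero ψ.1 (CL.lev (i + 1)).mem
        (hES i (S (i + 1)) (CL.S_mono i) (CL.S_top _) ψ.1)
        (hES (i + 1) (S (i + 1)) subset_rfl (CL.S_top _) ψ.1)
      exact ⟨D, fun _ ↦ hD⟩
    · exact ⟨(hES (i + 1) (S (i + 1)) subset_rfl (CL.S_top _) ψ.1).nonempty_eigD.some,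
        fun h ↦ absurd h hi⟩
  choose D1 hD1' using hD
  have hD1 : ∀ i : Fin m, Adapted (CL.step i) (a i) (hCR i) (hSm i) E (CL.ql_prime i).ne_zero
      (D1 i) := fun i ψ ↦ hD1' i ψ i.2
  have hneP := nonEisP_aL C G (S m)
  have htriv : ∀ i, DegK.TrivOn (chz (N i) F z) (ResidueField G.Λ) := fun i ↦
    DegK.trivOn_residue fun u hu ↦ (CL.lev i).res_apply hu
  have hinv : ∀ i, DegK.InvOn (chz (N i) F z) ↑(S m) E (aL G (S m) b) (ResidueField G.Λ) := by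
    intro i
    refine DegK.invOn_of (hg i) (hE i) (fun P hP ↦ ?_) _
    obtain ⟨Q, hQ⟩ := (CL.loc i).unit P hP
    exact ⟨Q, hQ _ (Or.inl rfl)⟩
  have hρ : ∀ i : Fin m, ∃ ρ : Fin 2 → (MM G.Λ (chz (N (i + 1)) F z) ↑(S m) E →ₗ[G.Λ]
      MM G.Λ (chz (N i) F z) ↑(S m) E), ∀ k l x,
      ρ k (dα (CL.step i) (a i) G.Λ (hCR i) (hSm i) E (CL.ql_prime i).ne_zero l x) =
        if k = l then x else 0 := by
    intro i
    have := hfin i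
    have := hfin (i + 1)
    have := hfree (i + 1)
    exact exists_ρ (CL.step i) (a i) (hCR i) (hSm i) (hg i) (hE i) (CL.ql_prime i).ne_zero
      (DegK.dα_inj (CL.step i) (a i) (hCR i) (hSm i) p (htriv i) (CL.ql_prime i) (CL.ql_N i)
        hneP (hinv i))
  choose ρ hρ using hρ
  have hτ : ∀ (i : Fin m) (x y : MM G.Λ (chz (N i) F z) ↑(S m) E),
      ∃ w : MM G.Λ (chz (N (i + 1)) F z) ↑(S m) E,
      dτ (CL.step i) (a i) G.Λ (hCR i) (hSm i) E (CL.ql_prime i) (CL.ql_N i) 0 w = x ∧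
      dτ (CL.step i) (a i) G.Λ (hCR i) (hSm i) E (CL.ql_prime i) (CL.ql_N i) 1 w = y := by
    intro i
    have := hfin i
    exact dτ_surjective (CL.step i) (a i) (hCR i) (hSm i) (hg i) (hg (i + 1)) (hE i)
      (CL.ql_prime i) (CL.ql_N i)
      (DegK.dτ_surj (CL.step i) (a i) (hCR i) (hSm i) p (hg i) (hE i) (htriv i) C.ne2
        (CL.ql_prime i) (CL.ql_N i) hneP (hinv i)
        (DegK.liftHyp_of_three C.ne2 (CL.loc i).three))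
  refine ⟨modChain C.inj CL.step a hCR CL.ql_prime CL.ql_N hSm (fun i ↦ (CL.lev i).mem) CL.ql_S
    CL.S_mono hg hE hfree hfin D0 D1 hD1 ρ hρ hτ ?_⟩
  intro i x hx M hM g hgn hga
  have hT : ∀ i, TwHyp (N i) (cond F (fun q ↦ x.1.1 (z q)))
      ((chz (N i) F z).ringHomComp x.1.1) := fun i ↦ by
    rw [(CL.lev i).comp]
    exact (CL.lev i).twHyp C
  refine (hD1 i).dvd_level (CL.step i) (a i) (hCR i) (hSm i) E (CL.ql_prime i) (haz i)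
    (CL.ql_N i) (hg (i + 1)) (hE (i + 1)) (CL.lev (i + 1)).mem hx (hT (i + 1)) (hT i) ?_ hgn hga
  exact nonEis_of_eig' C (CL.S_top _) (CL.loc (i + 1)) (Or.inl rfl) ((D1 i x.1).eig x.2)
    (fun h ↦ (D1 i x.1).b.ne_zero x.2 (Subtype.ext h)) ((D1 i x.1).b x.2).2
    (fun ℓ h ↦ evD_of (D1 i) h x.1 x.2)

end Fermat.Agent.Deg
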