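import Fermat.Agent.Deg.NewLevel
import Fermat.Agent.Deg.LiftHyp
import Fermat.Agent.LL.ChainBase

set_option autoImplicit false
set_option linter.unusedSectionVars false

/-!
# The modules of the raising steps

All module theoretic fields of `LL.AutChain`, for the local components at the levels `N i`.
-/

open CongruenceSubgroup Fermat.Agent.Top Fermat.Agent.TWMod Fermat.Agent.Twist
  Fermat.Agent.Ihara Fermat.Agent.TWLow MvPolynomial IsLocalRing Fermat.Agent.LL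
open scoped MatrixGroups TensorProduct

namespace Fermat.Agent.Deg

/-- An eigenvector (with the eigenvalues `A.ev x`) attached to an index of the automorphic
module. -/
def HasVec {𝒪 : Type} [CommRing 𝒪] [IsLocalRing 𝒪] {p r : ℕ} {av : Fin r → ℕ}
    {G : GrpRing 𝒪 p av} {j : 𝒪 →+* ℂ} {N : ℕ} (χ : DirichletCharacter G.Λ N) {S : Set ℕ}
    {S' : Finset ℕ} (E : MvPolynomial (Pr S) G.Λ) (A : AutMod j G.Λ S') (x : A.I) : Prop :=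
  ∃ (α : Pr (↑S' : Set ℕ) → ℂ) (v : H1 (kap (χ.ringHomComp (A.psi x))) (PtMod (A.psi x))),
    IsEigP (A.psi x) χ ↑S' α v ∧ v ≠ 0 ∧ v ∈ MP (A.psi x) χ S E ∧
      ∀ ℓ (h : ℓ.Prime ∧ ℓ ∉ (↑S' : Set ℕ)), A.ev x ℓ = α ⟨ℓ, h⟩

section Build

variable {𝒪 : Type} [CommRing 𝒪] [IsLocalRing 𝒪] {p r : ℕ} {av : Fin r → ℕ}
  {G : GrpRing 𝒪 p av} {j : 𝒪 →+* ℂ} (hj : Function.Injective j)
  {S : ℕ → Finset ℕ} {N : ℕ → ℕ} [∀ i, NeZero (N i)] {m : ℕ} {ql : Fin m → ℕ}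
  {χ : ∀ i, DirichletCharacter G.Λ (N i)} {E : MvPolynomial (Pr (↑(S m) : Set ℕ)) G.Λ}

/-- The eigenbases at all levels. -/
noncomputable def DD (D0 : ∀ ψ : Pts G j, EigD (χ 0) ↑(S m) (S 0) E ψ.1)
    (D1 : ∀ i, ∀ ψ : Pts G j, EigD (χ (i + 1)) ↑(S m) (S (i + 1)) E ψ.1) :
    ∀ i, ∀ ψ : Pts G j, EigD (χ i) ↑(S m) (S i) E ψ.1
  | 0 => D0
  | i + 1 => D1 i

theorem finrank_MM_pt {N : ℕ} [NeZero N] {χ : DirichletCharacter G.Λ N} {S : Set ℕ}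
    {E : MvPolynomial (Pr S) G.Λ} (hg : IsGood (kap χ))
    (hE : ev χ S G.Λ (E * E) = ev χ S G.Λ E) [Module.Free G.Λ (MM G.Λ χ S E)]
    [Module.Finite G.Λ (MM G.Λ χ S E)] (ψ : G.Λ →+* ℂ) :
    Module.finrank G.Λ (MM G.Λ χ S E) = Module.finrank ℂ (MP ψ χ S E) := by
  let B := Module.Free.chooseBasis G.Λ (MM G.Λ χ S E)
  obtain ⟨b₁, -⟩ := exists_basis_pt' hg hE ψ B
  rw [Module.finrank_eq_card_basis B, Module.finrank_eq_card_basis b₁]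

variable (hN : ∀ i : Fin m, N (i + 1) = ql i * N i) (a : ∀ i : Fin m, ALD (N i) (ql i))
  (hCR : ∀ i : Fin m, CR (χ (i + 1)) (χ i)) (hq : ∀ i, (ql i).Prime)
  (hqN : ∀ i : Fin m, ¬ ql i ∣ N i)
  (hSm : ∀ i : Fin m, ∀ l : ℕ, l.Prime → l ∣ N (i + 1) → l ∈ (↑(S m) : Set ℕ))
  (hSi : ∀ i, ∀ l : ℕ, l.Prime → l ∣ N i → l ∈ S i)
  (hqS : ∀ i : Fin m, ql i ∉ S i)
  (hSS : ∀ i, S i ⊆ S (i + 1))
  (hg : ∀ i, IsGood (kap (χ i)))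
  (hE : ∀ i, ev (χ i) ↑(S m) G.Λ (E * E) = ev (χ i) ↑(S m) G.Λ E)
  (hfree : ∀ i, Module.Free G.Λ (MM G.Λ (χ i) ↑(S m) E))
  (hfin : ∀ i, Module.Finite G.Λ (MM G.Λ (χ i) ↑(S m) E))
  (D0 : ∀ ψ : Pts G j, EigD (χ 0) ↑(S m) (S 0) E ψ.1)
  (D1 : ∀ i, ∀ ψ : Pts G j, EigD (χ (i + 1)) ↑(S m) (S (i + 1)) E ψ.1)
  (hD1 : ∀ i : Fin m, Adapted (hN i) (a i) (hCR i) (hSm i) E (hq i).ne_zero (D1 i))
  (ρ : ∀ i : Fin m, Fin 2 → (MM G.Λ (χ (i + 1)) ↑(S m) E →ₗ[G.Λ] MM G.Λ (χ i) ↑(S m) E))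
  (hρ : ∀ (i : Fin m) k l x, ρ i k (dα (hN i) (a i) G.Λ (hCR i) (hSm i) E (hq i).ne_zero l x) =
    if k = l then x else 0)
  (hτ : ∀ (i : Fin m) (x y : MM G.Λ (χ i) ↑(S m) E), ∃ z : MM G.Λ (χ (i + 1)) ↑(S m) E,
    dτ (hN i) (a i) G.Λ (hCR i) (hSm i) E (hq i) (hqN i) 0 z = x ∧
    dτ (hN i) (a i) G.Λ (hCR i) (hSm i) E (hq i) (hqN i) 1 z = y)
  (hdvd : ∀ i : Fin m, ∀ x ∈ newI E (D1 i), ∀ (M : ℕ) (_ : NeZero M)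
    (g : CuspForm (Gamma0 M) 2), g.IsNewform → (∀ ℓ : ℕ, ℓ.Prime → ℓ ∉ S (i + 1) →
      ModularFormClass.qCoeff g ℓ = evD (D1 i) x.1 x.2 ℓ) → ql i ∣ M)

/-- the degeneracy maps, for all `i` -/
noncomputable def aM (i : ℕ) (k : Fin 2) :
    MM G.Λ (χ i) ↑(S m) E →ₗ[G.Λ] MM G.Λ (χ (i + 1)) ↑(S m) E :=
  if hi : i < m then
    dα (hN ⟨i, hi⟩) (a ⟨i, hi⟩) G.Λ (hCR ⟨i, hi⟩) (hSm ⟨i, hi⟩) E (hq ⟨i, hi⟩).ne_zero k else 0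

theorem aM_of (i : Fin m) (k : Fin 2) : aM hN a hCR hq hSm i k =
    dα (hN i) (a i) G.Λ (hCR i) (hSm i) E (hq i).ne_zero k := dif_pos i.2

/-- the traces, for all `i` -/
noncomputable def tM (i : ℕ) (k : Fin 2) :
    MM G.Λ (χ (i + 1)) ↑(S m) E →ₗ[G.Λ] MM G.Λ (χ i) ↑(S m) E :=
  if hi : i < m then
    dτ (hN ⟨i, hi⟩) (a ⟨i, hi⟩) G.Λ (hCR ⟨i, hi⟩) (hSm ⟨i, hi⟩) E (hq ⟨i, hi⟩) (hqN ⟨i, hi⟩) k
    else 0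

theorem tM_of (i : Fin m) (k : Fin 2) : tM hN a hCR hq hqN hSm i k =
    dτ (hN i) (a i) G.Λ (hCR i) (hSm i) E (hq i) (hqN i) k := dif_pos i.2

/-- the retractions, for all `i` -/
noncomputable def rM (i : ℕ) (k : Fin 2) :
    MM G.Λ (χ (i + 1)) ↑(S m) E →ₗ[G.Λ] MM G.Λ (χ i) ↑(S m) E :=
  if hi : i < m then ρ ⟨i, hi⟩ k else 0

omit [∀ i, NeZero (N i)] in
theorem rM_of (i : Fin m) (k : Fin 2) : rM ρ i k = ρ i k := dif_pos i.2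

include hSi hSS in
theorem aM_T (i : Fin m) (k : Fin 2) {ℓ : ℕ} (hℓ : ℓ.Prime) (hℓS : ℓ ∉ S (i + 1))
    (v : MM G.Λ (χ i) ↑(S m) E) : aM hN a hCR hq hSm i k (TD (χ i) ↑(S m) (S i) E ℓ v) =
      TD (χ (i + 1)) ↑(S m) (S (i + 1)) E ℓ (aM hN a hCR hq hSm i k v) := by
  have h1 : ℓ.Prime ∧ ℓ ∉ S (i + 1) := ⟨hℓ, hℓS⟩
  have h0 : ℓ.Prime ∧ ℓ ∉ S i := ⟨hℓ, fun h ↦ hℓS (hSS i h)⟩
  rw [aM_of, TD_of h1, TD_of h0]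
  exact dα_hkM (hN i) (a i) G.Λ (hCR i) (hSm i) E _ k hℓ (fun h ↦ hℓS (hSi _ ℓ hℓ h)) v

include hSi hSS in
theorem tM_T (i : Fin m) (k : Fin 2) {ℓ : ℕ} (hℓ : ℓ.Prime) (hℓS : ℓ ∉ S (i + 1))
    (v : MM G.Λ (χ (i + 1)) ↑(S m) E) :
    tM hN a hCR hq hqN hSm i k (TD (χ (i + 1)) ↑(S m) (S (i + 1)) E ℓ v) =
      TD (χ i) ↑(S m) (S i) E ℓ (tM hN a hCR hq hqN hSm i k v) := by
  have h1 : ℓ.Prime ∧ ℓ ∉ S (i + 1) := ⟨hℓ, hℓS⟩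
  have h0 : ℓ.Prime ∧ ℓ ∉ S i := ⟨hℓ, fun h ↦ hℓS (hSS i h)⟩
  rw [tM_of, TD_of h1, TD_of h0]
  exact dτ_hkM (hN i) (a i) G.Λ (hCR i) (hSm i) E _ _ k hℓ (fun h ↦ hℓS (hSi _ ℓ hℓ h)) v

include hqS in
theorem tM_aM (i : Fin m) (k l : Fin 2) (v : MM G.Λ (χ i) ↑(S m) E) :
    tM hN a hCR hq hqN hSm i k (aM hN a hCR hq hSm i l v) =
      if k = l then ((ql i + 1 : ℕ) : G.Λ) • v else TD (χ i) ↑(S m) (S i) E (ql i) v := by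
  have h0 : (ql i).Prime ∧ ql i ∉ S i := ⟨hq i, hqS i⟩
  rw [tM_of, aM_of, dτ_dα, TD_of h0]
  push_cast
  rfl

include hρ in
theorem rM_aM (i : Fin m) (k l : Fin 2) (v : MM G.Λ (χ i) ↑(S m) E) :
    rM ρ i k (aM hN a hCR hq hSm i l v) = if k = l then v else 0 := by
  rw [rM_of, aM_of]
  exact hρ i k l v

include hτ in
theorem tM_surj (i : Fin m) (x y : MM G.Λ (χ i) ↑(S m) E) :
    ∃ z : MM G.Λ (χ (i + 1)) ↑(S m) E, tM hN a hCR hq hqN hSm i 0 z = x ∧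
      tM hN a hCR hq hqN hSm i 1 z = y := by
  rw [tM_of, tM_of]
  exact hτ i x y

include hD1 in
theorem lam_aM (i : Fin m) {x : Σ ψ : Pts G j, (D1 i ψ).ι} (hx : x ∈ newI E (D1 i)) (k : Fin 2)
    (v : MM G.Λ (χ i) ↑(S m) E) :
    lamD (D1 i) x.1 x.2 (aM hN a hCR hq hSm i k v) = 0 := by
  rw [aM_of]
  exact (hD1 i).lam_α (hN i) (a i) (hCR i) (hSm i) E (hq i).ne_zero hx k v

include hj hg hE hfree hfin hD1 hρ in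
theorem sep_aM (i : Fin m) {v : MM G.Λ (χ (i + 1)) ↑(S m) E}
    (hv : ∀ x ∈ newI E (D1 i), lamD (D1 i) x.1 x.2 v = 0) :
    ∃ v₀ v₁, v = aM hN a hCR hq hSm i 0 v₀ + aM hN a hCR hq hSm i 1 v₁ := by
  have := hfree i
  have := hfin i
  have := hfree (i + 1)
  have := hfin (i + 1)
  rw [aM_of, aM_of]
  exact (hD1 i).sep (hN i) (a i) (hCR i) (hSm i) E
    (hq i).ne_zero hj (hg i) (hg (i + 1)) (hE i) (hE (i + 1)) (ρ i) (hρ i) hv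

theorem vecD {N : ℕ} [NeZero N] {χ : DirichletCharacter G.Λ N} {S : Set ℕ} {S' : Finset ℕ}
    {E : MvPolynomial (Pr S) G.Λ} (D : ∀ ψ : Pts G j, EigD χ S S' E ψ.1)
    (x : Σ ψ : Pts G j, (D ψ).ι) : ∃ (α : Pr (↑S' : Set ℕ) → ℂ)
    (v : H1 (kap (χ.ringHomComp x.1.1)) (PtMod x.1.1)),
      IsEigP x.1.1 χ ↑S' α v ∧ v ≠ 0 ∧ v ∈ MP x.1.1 χ S E ∧
      ∀ ℓ (h : ℓ.Prime ∧ ℓ ∉ (↑S' : Set ℕ)), evD D x.1 x.2 ℓ = α ⟨ℓ, h⟩ :=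
  ⟨(D x.1).α x.2, ((D x.1).b x.2).1, (D x.1).eig x.2,
    fun h ↦ (D x.1).b.ne_zero x.2 (Subtype.ext h), ((D x.1).b x.2).2,
    fun _ h ↦ evD_of D h x.1 x.2⟩

theorem hasVec_autD {N : ℕ} [NeZero N] {χ : DirichletCharacter G.Λ N} {S : Set ℕ}
    {S' : Finset ℕ} {E : MvPolynomial (Pr S) G.Λ} (hg : IsGood (kap χ))
    (hE : ev χ S G.Λ (E * E) = ev χ S G.Λ E)
    (D : ∀ ψ : Pts G j, EigD χ S S' E ψ.1) [Module.Free G.Λ (MM G.Λ χ S E)]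
    [Module.Finite G.Λ (MM G.Λ χ S E)] (x : (autD hj hg hE D).I) :
    HasVec χ E (autD hj hg hE D) x := by
  change Σ ψ : Pts G j, (D ψ).ι at x
  obtain ⟨α, v, hv⟩ := vecD D x
  exact ⟨α, v, hv⟩

end Build

section Build2

variable {𝒪 : Type} [CommRing 𝒪] [IsDomain 𝒪] [IsDiscreteValuationRing 𝒪]
  [IsAdicComplete (maximalIdeal 𝒪) 𝒪] [Finite (ResidueField 𝒪)] [CharZero 𝒪]
  {p r : ℕ} {av : Fin r → ℕ}
  {G : GrpRing 𝒪 p av} {j : 𝒪 →+* ℂ} (hj : Function.Injective j)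
  {S : ℕ → Finset ℕ} {N : ℕ → ℕ} [∀ i, NeZero (N i)] {m : ℕ} {ql : Fin m → ℕ}
  {F : Finset ℕ} {z : ℕ → G.Λ} {E : MvPolynomial (Pr (↑(S m) : Set ℕ)) G.Λ}
  (hN : ∀ i : Fin m, N (i + 1) = ql i * N i) (a : ∀ i : Fin m, ALD (N i) (ql i))
  (hCR : ∀ i : Fin m, CR (chz (N (i + 1)) F z) (chz (N i) F z)) (hq : ∀ i, (ql i).Prime)
  (hqN : ∀ i : Fin m, ¬ ql i ∣ N i)
  (hSm : ∀ i : Fin m, ∀ l : ℕ, l.Prime → l ∣ N (i + 1) → l ∈ (↑(S m) : Set ℕ))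
  (hSi : ∀ i, ∀ l : ℕ, l.Prime → l ∣ N i → l ∈ S i)
  (hqS : ∀ i : Fin m, ql i ∉ S i)
  (hSS : ∀ i, S i ⊆ S (i + 1))
  (hg : ∀ i, IsGood (kap (chz (N i) F z)))
  (hE : ∀ i, ev (chz (N i) F z) ↑(S m) G.Λ (E * E) = ev (chz (N i) F z) ↑(S m) G.Λ E)
  (hfree : ∀ i, Module.Free G.Λ (MM G.Λ (chz (N i) F z) ↑(S m) E))
  (hfin : ∀ i, Module.Finite G.Λ (MM G.Λ (chz (N i) F z) ↑(S m) E))
  (D0 : ∀ ψ : Pts G j, EigD (chz (N 0) F z) ↑(S m) (S 0) E ψ.1)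
  (D1 : ∀ i, ∀ ψ : Pts G j, EigD (chz (N (i + 1)) F z) ↑(S m) (S (i + 1)) E ψ.1)
  (hD1 : ∀ i : Fin m, Adapted (hN i) (a i) (hCR i) (hSm i) E (hq i).ne_zero (D1 i))
  (ρ : ∀ i : Fin m, Fin 2 → (MM G.Λ (chz (N (i + 1)) F z) ↑(S m) E →ₗ[G.Λ]
    MM G.Λ (chz (N i) F z) ↑(S m) E))
  (hρ : ∀ (i : Fin m) k l x, ρ i k (dα (hN i) (a i) G.Λ (hCR i) (hSm i) E (hq i).ne_zero l x) =
    if k = l then x else 0)
  (hτ : ∀ (i : Fin m) (x y : MM G.Λ (chz (N i) F z) ↑(S m) E),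
    ∃ w : MM G.Λ (chz (N (i + 1)) F z) ↑(S m) E,
    dτ (hN i) (a i) G.Λ (hCR i) (hSm i) E (hq i) (hqN i) 0 w = x ∧
    dτ (hN i) (a i) G.Λ (hCR i) (hSm i) E (hq i) (hqN i) 1 w = y)
  (hdvd : ∀ i : Fin m, ∀ x ∈ newI E (D1 i), ∀ (M : ℕ) (_ : NeZero M)
    (g : CuspForm (Gamma0 M) 2), g.IsNewform → (∀ ℓ : ℕ, ℓ.Prime → ℓ ∉ S (i + 1) →
      ModularFormClass.qCoeff g ℓ = evD (D1 i) x.1 x.2 ℓ) → ql i ∣ M)

/-- the automorphic module at stage `i` -/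
noncomputable def modA (i : ℕ) : AutMod j G.Λ (S i) :=
  haveI := hfree i
  haveI := hfin i
  autD hj (hg i) (hE i) (DD (χ := fun i ↦ chz (N i) F z) D0 D1 i)

/-- **The modules of the raising steps.** -/
noncomputable def modChain : ModChain j G ql S N F z E where
  A := modA hj hg hE hfree hfin D0 D1
  α := aM (χ := fun i ↦ chz (N i) F z) hN a hCR hq hSm
  α_T i hi k ℓ hℓ hℓS v := aM_T (χ := fun i ↦ chz (N i) F z) hN a hCR hq hSm hSi hSS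
    ⟨i, hi⟩ k hℓ hℓS v
  ret := rM (χ := fun i ↦ chz (N i) F z) ρ
  ret_α i hi k l v := rM_aM (χ := fun i ↦ chz (N i) F z) hN a hCR hq hSm ρ hρ ⟨i, hi⟩ k l v
  τ := tM (χ := fun i ↦ chz (N i) F z) hN a hCR hq hqN hSm
  τ_T i hi k ℓ hℓ hℓS v := tM_T (χ := fun i ↦ chz (N i) F z) hN a hCR hq hqN hSm hSi hSS
    ⟨i, hi⟩ k hℓ hℓS v
  τ_surj i hi v w := tM_surj (χ := fun i ↦ chz (N i) F z) hN a hCR hq hqN hSm hτ ⟨i, hi⟩ v w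
  τ_α i k l v := tM_aM (χ := fun i ↦ chz (N i) F z) hN a hCR hq hqN hSm hqS i k l v
  new i := newI E (D1 i)
  new_sep i hi v hv := sep_aM (χ := fun i ↦ chz (N i) F z) hj hN a hCR hq hSm hg hE hfree hfin
    D1 hD1 ρ hρ ⟨i, hi⟩ hv
  new_α i hi x hx k v := lam_aM (χ := fun i ↦ chz (N i) F z) hN a hCR hq hSm D1 hD1 ⟨i, hi⟩ hx k v
  rank i ψ := by
    have := hfree i
    have := hfin i
    exact finrank_MM_pt (hg i) (hE i) ψ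
  vec i x := by
    have := hfree i
    have := hfin i
    exact hasVec_autD hj (hg i) (hE i) (DD (χ := fun i ↦ chz (N i) F z) D0 D1 i) x
  new_dvd i x hx M hM g hgn hga := hdvd i x hx M hM g hgn hga

end Build2

end Fermat.Agent.Deg
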