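import Fermat.Agent.Deg.Func

set_option autoImplicit false
set_option linter.unusedSectionVars false

/-!
# Eigenfunctionals which are new at the additional prime
-/

open CongruenceSubgroup Fermat.Agent.Top Fermat.Agent.TWMod Fermat.Agent.Twist
  Fermat.Agent.Ihara Fermat.Agent.TWLow MvPolynomial IsLocalRing Fermat.Agent.LL
open scoped MatrixGroups TensorProduct

namespace Fermat.Agent.Deg

section Abs

theorem map_mem_of_span {K V V' : Type*} [Field K] [AddCommGroup V] [Module K V] [AddCommGroup V']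
    [Module K V'] (f : V →ₗ[K] V') {X : Set V} (hX : Submodule.span K X = ⊤) (T : Submodule K V')
    (h : ∀ x ∈ X, f x ∈ T) (x : V) : f x ∈ T := by
  have h1 : Submodule.span K X ≤ T.comap f := Submodule.span_le.2 h
  rw [hX] at h1
  exact h1 trivial

/-- An element killed by all linear functionals of a free module is zero. -/
theorem eq_zero_of_functionals {Λ M : Type*} [CommRing Λ] [AddCommGroup M] [Module Λ M]
    [Module.Free Λ M] {v : M} (h : ∀ φ : M →ₗ[Λ] Λ, φ v = 0) : v = 0 := by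
  let b := Module.Free.chooseBasis Λ M
  apply b.repr.injective
  ext i
  rw [map_zero, Finsupp.zero_apply]
  exact h (b.coord i)

theorem exists_of_old_abs {Λ M₀ M₁ : Type*} [CommRing Λ] [AddCommGroup M₀] [Module Λ M₀]
    [AddCommGroup M₁] [Module Λ M₁] [Module.Free Λ M₁] {Ψ : Set (Λ →+* ℂ)}
    (hsep : ∀ r : Λ, (∀ ψ ∈ Ψ, ψ r = 0) → r = 0) (α : Fin 2 → (M₀ →ₗ[Λ] M₁))
    (ρ : Fin 2 → (M₁ →ₗ[Λ] M₀)) (hρ : ∀ k l x, ρ k (α l x) = if k = l then x else 0) {v : M₁}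
    (hv : ∀ ψ ∈ Ψ, ∀ φ : M₁ →ₗ[Λ] Λ, (∀ k x, φ (α k x) = 0) → ψ (φ v) = 0) :
    ∃ v₀ v₁, v = α 0 v₀ + α 1 v₁ := by
  let π : M₁ →ₗ[Λ] M₁ := LinearMap.id - ((α 0).comp (ρ 0) + (α 1).comp (ρ 1))
  have hπ : ∀ x, π x = x - (α 0 (ρ 0 x) + α 1 (ρ 1 x)) := fun _ ↦ rfl
  have hπα : ∀ k x, π (α k x) = 0 := by
    intro k x
    rw [hπ, hρ, hρ]
    fin_cases k
    · simp
    · simp
  have h0 : π v = 0 := by
    refine eq_zero_of_functionals fun φ ↦ hsep _ fun ψ hψ ↦ ?_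
    exact hv ψ hψ (φ.comp π) fun k x ↦ by rw [LinearMap.comp_apply, hπα, map_zero]
  rw [hπ, sub_eq_zero] at h0
  exact ⟨_, _, h0⟩

end Abs

section Old

variable {N q K : ℕ} (hK : K = q * N) (a : ALD N q) {Λ : Type} [CommRing Λ]
  {χ : DirichletCharacter Λ K} {χ₀ : DirichletCharacter Λ N} (h : CR χ χ₀)
  {S : Set ℕ} (hS : ∀ l : ℕ, l.Prime → l ∣ K → l ∈ S) (E : MvPolynomial (Pr S) Λ)
  (hq : q ≠ 0) (ψ : Λ →+* ℂ)

/-- the image of the degeneracy maps at a point -/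
noncomputable def oldP : Submodule ℂ (MP ψ χ S E) :=
  LinearMap.range (pα hK a ψ h hS E hq 0) ⊔ LinearMap.range (pα hK a ψ h hS E hq 1)

theorem pα_mem_oldP (k : Fin 2) (x : MP ψ χ₀ S E) :
    pα hK a ψ h hS E hq k x ∈ oldP hK a h hS E hq ψ := by
  fin_cases k
  · exact Submodule.mem_sup_left ⟨x, rfl⟩
  · exact Submodule.mem_sup_right ⟨x, rfl⟩

/-- degeneracy maps preserve eigenvectors -/
theorem isEv_pα {S' : Finset ℕ} (hS' : ∀ l : ℕ, l.Prime → l ∣ K → l ∈ S') (k : Fin 2)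
    {x : MP ψ χ₀ S E} (hx : IsEv χ₀ S S' E ψ x) :
    IsEv χ S S' E ψ (pα hK a ψ h hS E hq k x) := by
  obtain ⟨α, hα⟩ := hx
  refine ⟨α, fun ℓ ↦ ?_⟩
  have hℓK : ¬ ℓ.1 ∣ K := fun hd ↦ ℓ.2.2 (Finset.mem_coe.2 (hS' _ ℓ.2.1 hd))
  have h1 : hkP ψ χ₀ S E ℓ.2.1 x = α ℓ • x := Subtype.ext (hα ℓ)
  have h2 := pα_hkP hK a ψ h hS E hq k ℓ.2.1 hℓK x
  rw [h1, map_smul] at h2
  exact (congrArg Subtype.val h2).symm

theorem oldP_span {S' : Finset ℕ} (hS' : ∀ l : ℕ, l.Prime → l ∣ K → l ∈ S')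
    (h₀ : EigSpan χ₀ S S' E ψ) : oldP hK a h hS E hq ψ =
      Submodule.span ℂ {x | x ∈ oldP hK a h hS E hq ψ ∧ IsEv χ S S' E ψ x} := by
  apply le_antisymm
  · have key : ∀ k : Fin 2, LinearMap.range (pα hK a ψ h hS E hq k) ≤
        Submodule.span ℂ {x | x ∈ oldP hK a h hS E hq ψ ∧ IsEv χ S S' E ψ x} := by
      rintro k _ ⟨x, rfl⟩
      have h2 : ∀ y ∈ {x : MP ψ χ₀ S E | IsEv χ₀ S S' E ψ x}, pα hK a ψ h hS E hq k y ∈
          Submodule.span ℂ {x | x ∈ oldP hK a h hS E hq ψ ∧ IsEv χ S S' E ψ x} := by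
        intro y hy
        refine Submodule.subset_span ?_
        exact ⟨pα_mem_oldP hK a h hS E hq ψ k y, isEv_pα hK a h hS E hq ψ hS' k hy⟩
      exact map_mem_of_span (pα hK a ψ h hS E hq k) h₀.top _ h2 x
    exact sup_le (key 0) (key 1)
  · rw [Submodule.span_le]
    rintro x ⟨hx, -⟩
    exact hx

/-- an adapted eigenbasis at the higher level -/
theorem exists_eigD_new {S' : Finset ℕ} (hS' : ∀ l : ℕ, l.Prime → l ∣ K → l ∈ S')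
    (h₀ : EigSpan χ₀ S S' E ψ) (h₁ : EigSpan χ S S' E ψ) :
    ∃ D : EigD χ S S' E ψ, ∀ v, v ∈ oldP hK a h hS E hq ψ ↔ ∀ c ∉ D.old, D.b.coord c v = 0 :=
  h₁.exists_eigD _ (oldP_span hK a h hS E hq ψ hS' h₀)

end Old

section Sep

variable {N q K : ℕ} [NeZero N] [NeZero K] (hK : K = q * N) (a : ALD N q) {Λ : Type} [CommRing Λ]
  [IsLocalRing Λ]
  {χ : DirichletCharacter Λ K} {χ₀ : DirichletCharacter Λ N} (h : CR χ χ₀)
  {S : Set ℕ} (hS : ∀ l : ℕ, l.Prime → l ∣ K → l ∈ S) {E : MvPolynomial (Pr S) Λ}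
  (hq : q ≠ 0) (hg₀ : IsGood (kap χ₀)) (hg : IsGood (kap χ))
  (hE₀ : ev χ₀ S Λ (E * E) = ev χ₀ S Λ E) (hE : ev χ S Λ (E * E) = ev χ S Λ E)

include hg₀ hg hE₀ hE in
/-- Classes whose specialisations are old are old. -/
theorem exists_of_old [Module.Free Λ (MM Λ χ₀ S E)] [Module.Finite Λ (MM Λ χ₀ S E)]
    [Module.Free Λ (MM Λ χ S E)] [Module.Finite Λ (MM Λ χ S E)] {Ψ : Set (Λ →+* ℂ)}
    (hsep : ∀ r : Λ, (∀ ψ ∈ Ψ, ψ r = 0) → r = 0)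
    (ρ : Fin 2 → (MM Λ χ S E →ₗ[Λ] MM Λ χ₀ S E))
    (hρ : ∀ k l x, ρ k (dα hK a Λ h hS E hq l x) = if k = l then x else 0)
    {v : MM Λ χ S E} (hv : ∀ ψ ∈ Ψ, spE ψ χ S E v ∈ oldP hK a h hS E hq ψ) :
    ∃ v₀ v₁, v = dα hK a Λ h hS E hq 0 v₀ + dα hK a Λ h hS E hq 1 v₁ := by
  refine exists_of_old_abs hsep (fun k ↦ dα hK a Λ h hS E hq k) ρ hρ fun ψ hψ φ hφ ↦ ?_
  obtain ⟨φ', hφ'⟩ := exists_functional_pt hg hE ψ φ
  rw [← hφ']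
  have h1 : ∀ k (y : MP ψ χ₀ S E), φ' (pα hK a ψ h hS E hq k y) = 0 := by
    intro k y
    have h2 := map_mem_of_span (φ'.comp (pα hK a ψ h hS E hq k)) (span_spc hg₀ hE₀ ψ) ⊥ (by
      rintro _ ⟨m, rfl⟩
      rw [LinearMap.comp_apply, ← spE_dα, hφ', hφ, map_zero]
      exact Submodule.zero_mem _) y
    exact (Submodule.mem_bot ℂ).1 h2
  obtain ⟨x, ⟨x', hx'⟩, y, ⟨y', hy'⟩, hxy⟩ := Submodule.mem_sup.1 (hv ψ hψ)
  rw [← hxy, ← hx', ← hy', map_add, h1, h1, add_zero]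

end Sep

section Chain

variable {𝒪 : Type} [CommRing 𝒪] [IsLocalRing 𝒪] {p r : ℕ} {av : Fin r → ℕ} {G : GrpRing 𝒪 p av}
  {j : 𝒪 →+* ℂ} (hj : Function.Injective j)
  {N q K : ℕ} [NeZero N] [NeZero K] (hK : K = q * N) (a : ALD N q)
  {χ : DirichletCharacter G.Λ K} {χ₀ : DirichletCharacter G.Λ N} (h : CR χ χ₀)
  {S : Set ℕ} {S' : Finset ℕ} (hS : ∀ l : ℕ, l.Prime → l ∣ K → l ∈ S)
  (E : MvPolynomial (Pr S) G.Λ) (hq : q ≠ 0)

/-- the new indices -/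
def newI (D : ∀ ψ : Pts G j, EigD χ S S' E ψ.1) : Set (Σ ψ : Pts G j, (D ψ).ι) :=
  {x | x.2 ∉ (D x.1).old}

/-- adapted families of eigenbases -/
def Adapted (D : ∀ ψ : Pts G j, EigD χ S S' E ψ.1) : Prop :=
  ∀ (ψ : Pts G j) v, v ∈ oldP hK a h hS E hq ψ.1 ↔ ∀ c ∉ (D ψ).old, (D ψ).b.coord c v = 0

variable {D : ∀ ψ : Pts G j, EigD χ S S' E ψ.1} (hD : Adapted hK a h hS E hq D)

include hD

theorem Adapted.lam_α {x : Σ ψ : Pts G j, (D ψ).ι} (hx : x ∈ newI E D) (k : Fin 2)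
    (v : MM G.Λ χ₀ S E) : lamD D x.1 x.2 (dα hK a G.Λ h hS E hq k v) = 0 := by
  rw [lamD_apply, spE_dα]
  exact (hD x.1 _).1 (pα_mem_oldP hK a h hS E hq x.1.1 k _) x.2 hx

/-- new basis vectors are not old -/
theorem Adapted.notMem {x : Σ ψ : Pts G j, (D ψ).ι} (hx : x ∈ newI E D) :
    (D x.1).b x.2 ∉ oldP hK a h hS E hq x.1.1 := by
  intro hmem
  have h1 := (hD x.1 _).1 hmem x.2 hx
  rw [Module.Basis.coord_apply, Module.Basis.repr_self, Finsupp.single_eq_same] at h1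
  exact one_ne_zero h1

theorem Adapted.sep (hj : Function.Injective j) (hg₀ : IsGood (kap χ₀)) (hg : IsGood (kap χ))
    (hE₀ : ev χ₀ S G.Λ (E * E) = ev χ₀ S G.Λ E) (hE : ev χ S G.Λ (E * E) = ev χ S G.Λ E)
    [Module.Free G.Λ (MM G.Λ χ₀ S E)] [Module.Finite G.Λ (MM G.Λ χ₀ S E)]
    [Module.Free G.Λ (MM G.Λ χ S E)] [Module.Finite G.Λ (MM G.Λ χ S E)]
    (ρ : Fin 2 → (MM G.Λ χ S E →ₗ[G.Λ] MM G.Λ χ₀ S E))
    (hρ : ∀ k l x, ρ k (dα hK a G.Λ h hS E hq l x) = if k = l then x else 0)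
    {v : MM G.Λ χ S E} (hv : ∀ x ∈ newI E D, lamD D x.1 x.2 v = 0) :
    ∃ v₀ v₁, v = dα hK a G.Λ h hS E hq 0 v₀ + dα hK a G.Λ h hS E hq 1 v₁ := by
  refine exists_of_old hK a h hS hq hg₀ hg hE₀ hE (Ψ := {ψ | ψ.comp (algebraMap 𝒪 G.Λ) = j})
    (fun r hr ↦ G.sep j hj r hr) ρ hρ fun ψ hψ ↦ ?_
  exact (hD ⟨ψ, hψ⟩ _).2 fun c hc ↦ hv ⟨⟨ψ, hψ⟩, c⟩ hc

end Chain

end Fermat.Agent.Deg
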