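import Fermat.Agent.Deg.Maps
import Fermat.Agent.TWLow.Main
import Fermat.Agent.TWNew.Main
import Fermat.Agent.TWMod.LocalPart

set_option autoImplicit false
set_option linter.unusedSectionVars false

/-!
# Old eigenvectors are in the image of the degeneracy maps

Everything is over `ℂ`.  `K = q N` with `q ∤ N` prime.  A non-Eisenstein eigenvector of level `K`
attached to a newform of level prime to `q` is of the form `Rop y + Wop (Rop z)`.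
-/

open CongruenceSubgroup Fermat.Agent.Top Fermat.Agent.TWMod Fermat.Agent.Twist
  Fermat.Agent.Ihara Fermat.Agent.TWLow Matrix.SpecialLinearGroup Fermat.Agent.Newform
  Fermat.Agent.Petersson Fermat.Agent.IntStr Fermat.Agent.Deg
open scoped MatrixGroups

namespace Fermat.Agent.DegK

/-- `± (q + 1)` is not an eigenvalue of `T_q` on the `α`-part. -/
theorem eq_zero_of_hk_eigen {N q c : ℕ} {χ₀ : DirichletCharacter ℂ N} (hT₀ : TwHyp N c χ₀)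
    (hq : q.Prime) (hqN : ¬ q ∣ N) {S : Finset ℕ} (hS : ∀ l : ℕ, l.Prime → l ∣ N → l ∈ S)
    (hqS : q ∈ S) {α : ℕ → ℂ} (hne : NonEis S α) {w : H1 (kap χ₀) ℂ} (hw : IsEig χ₀ S α w)
    {ε : ℂ} (hε : ε ^ 2 = 1) (hqw : hk χ₀ ℂ hq w = (ε * (q + 1)) • w) : w = 0 := by
  classical
  by_contra hw0
  have hqc : ¬ q ∣ c := fun h => hqN (h.trans hT₀.dvd)
  obtain ⟨M', hM', g', hM'N, hg', hga', -⟩ := TWNew.specNew N c χ₀ hT₀ (S.erase q)
    (fun l hl hlN => Finset.mem_erase.mpr ⟨fun h => hqN (h ▸ hlN), hS l hl hlN⟩)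
    (Function.update α q (ε * (q + 1))) (by
      intro m hm
      obtain ⟨ℓ, hℓ, hℓS, h1, h2⟩ := hne m hm
      have hℓq : ℓ ≠ q := fun h => hℓS (h ▸ hqS)
      refine ⟨ℓ, hℓ, fun h => hℓS (Finset.mem_of_mem_erase h), h1, ?_⟩
      rw [Function.update_of_ne hℓq]
      exact h2) w hw0 (by
      intro ℓ hℓ hℓS
      by_cases hℓq : ℓ = q
      · subst hℓq
        rw [Function.update_self]
        exact hqw
      · rw [Function.update_of_ne hℓq]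
        exact hw ℓ hℓ fun h => hℓS (Finset.mem_erase.mpr ⟨hℓq, h⟩))
  have hqM' : ¬ q ∣ M' := fun h => by
    rcases hq.dvd_mul.mp (h.trans hM'N) with h1 | h1
    · exact hqN h1
    · exact hqc h1
  have h1 := hga' q hq (Finset.notMem_erase q S)
  rw [Function.update_self] at h1
  apply hg'.ne_zero
  apply DFunLike.coe_injective
  refine eq_zero_of_heckeT_eigen hq hqM' (IsCF.of_cuspForm g') hε ?_
  rw [← h1]
  have h10 := hOp_eigen hg'.1 ⟨q, hq⟩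
  rw [hOp_of_not_dvd (by exact hqM')] at h10
  exact congrArg (fun f : CuspForm (Gamma0 M') 2 => (f : UpperHalfPlane → ℂ)) h10

/-- The eigenspace. -/
def eigV {N : ℕ} (χ₀ : DirichletCharacter ℂ N) (S : Finset ℕ) (α : ℕ → ℂ) :
    Submodule ℂ (H1 (kap χ₀) ℂ) where
  carrier := {x | IsEig χ₀ S α x}
  add_mem' := by
    intro x y hx hy ℓ hℓ hℓS
    rw [map_add, hx ℓ hℓ hℓS, hy ℓ hℓ hℓS, smul_add]
  zero_mem' := by
    intro ℓ hℓ hℓS
    rw [map_zero, smul_zero]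
  smul_mem' := by
    intro r x hx ℓ hℓ hℓS
    rw [map_smul, hx ℓ hℓ hℓS, smul_comm]

theorem mem_eigV {N : ℕ} {χ₀ : DirichletCharacter ℂ N} {S : Finset ℕ} {α : ℕ → ℂ}
    {x : H1 (kap χ₀) ℂ} : x ∈ eigV χ₀ S α ↔ IsEig χ₀ S α x := Iff.rfl

theorem hk_mem_eigV {N : ℕ} {χ₀ : DirichletCharacter ℂ N} {S : Finset ℕ} {α : ℕ → ℂ}
    {q : ℕ} (hq : q.Prime) {x : H1 (kap χ₀) ℂ} (hx : x ∈ eigV χ₀ S α) :
    hk χ₀ ℂ hq x ∈ eigV χ₀ S α := by
  intro ℓ hℓ hℓS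
  rw [hk_comm, hx ℓ hℓ hℓS, map_smul]

section Main

variable {N q K c : ℕ} [NeZero N] [NeZero K] (hK : K = q * N) (a : ALD N q)
  {χ : DirichletCharacter ℂ K} {χ₀ : DirichletCharacter ℂ N} (h : CR χ χ₀)

/-- `τ α` is bijective on the eigenspace. -/
theorem exists_preimage (hT₀ : TwHyp N c χ₀) (hq : q.Prime) (hqN : ¬ q ∣ N) {S : Finset ℕ}
    (hS : ∀ l : ℕ, l.Prime → l ∣ N → l ∈ S) (hqS : q ∈ S) {α : ℕ → ℂ} (hne : NonEis S α)
    {s t : H1 (kap χ₀) ℂ} (hs : IsEig χ₀ S α s) (ht : IsEig χ₀ S α t) :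
    ∃ y z : H1 (kap χ₀) ℂ, IsEig χ₀ S α y ∧ IsEig χ₀ S α z ∧
      ((q : ℂ) + 1) • y + hk χ₀ ℂ hq z = s ∧ hk χ₀ ℂ hq y + ((q : ℂ) + 1) • z = t := by
  have hfin : Module.Finite ℂ (H1 (kap χ₀) ℂ) := by
    refine finite_H1 (isGood_kap χ₀ ?_ (Or.inl ?_)) ℂ
    · exact (IsUnit.mk0 (2 : ℂ) two_ne_zero)
    · exact (IsUnit.mk0 (3 : ℂ) three_ne_zero)
  let V := eigV χ₀ S α
  let T : V →ₗ[ℂ] V := (hk χ₀ ℂ hq).restrict fun x hx => hk_mem_eigV hq hx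
  have hT : ∀ (ε : ℂ), ε ^ 2 = 1 → ∀ w : V, T w = (ε * ((q : ℂ) + 1)) • w → w = 0 := by
    intro ε hε w hw
    exact Subtype.ext (eq_zero_of_hk_eigen hT₀ hq hqN hS hqS hne w.2 hε (congrArg Subtype.val hw))
  let Φ : V × V →ₗ[ℂ] V × V :=
    ((((q : ℂ) + 1) • LinearMap.fst ℂ V V) + T.comp (LinearMap.snd ℂ V V)).prod
      (T.comp (LinearMap.fst ℂ V V) + (((q : ℂ) + 1) • LinearMap.snd ℂ V V))
  have hΦ : ∀ y z, Φ (y, z) = (((q : ℂ) + 1) • y + T z, T y + ((q : ℂ) + 1) • z) := fun _ _ => rfl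
  have hinj : Function.Injective Φ := by
    rw [injective_iff_map_eq_zero]
    rintro ⟨u, v⟩ huv
    rw [hΦ, Prod.mk_eq_zero] at huv
    obtain ⟨h1, h2⟩ := huv
    have e1 : T (u + v) = ((-1 : ℂ) * ((q : ℂ) + 1)) • (u + v) := by
      have h3 : T (u + v) + ((q : ℂ) + 1) • (u + v) = 0 := by
        rw [map_add, smul_add]
        calc T u + T v + (((q : ℂ) + 1) • u + ((q : ℂ) + 1) • v)
            = (((q : ℂ) + 1) • u + T v) + (T u + ((q : ℂ) + 1) • v) := by abel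
          _ = 0 := by rw [h1, h2, add_zero]
      rw [neg_one_mul]
      exact (eq_neg_of_add_eq_zero_left h3).trans (neg_smul ((q : ℂ) + 1) (u + v)).symm
    have e2 : T (u - v) = ((1 : ℂ) * ((q : ℂ) + 1)) • (u - v) := by
      have h3 : ((q : ℂ) + 1) • (u - v) - T (u - v) = 0 := by
        rw [map_sub, smul_sub]
        calc ((q : ℂ) + 1) • u - ((q : ℂ) + 1) • v - (T u - T v)
            = (((q : ℂ) + 1) • u + T v) - (T u + ((q : ℂ) + 1) • v) := by abel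
          _ = 0 := by rw [h1, h2, sub_zero]
      rw [one_mul]
      exact (sub_eq_zero.mp h3).symm
    have h4 := hT (-1) (by norm_num) _ e1
    have h5 := hT 1 (by norm_num) _ e2
    have hu : u = 0 := by
      have h6 : (2 : ℂ) • u = 0 := by
        calc (2 : ℂ) • u = (u + v) + (u - v) := by rw [two_smul]; abel
          _ = 0 := by rw [h4, h5, add_zero]
      exact (smul_eq_zero.mp h6).resolve_left two_ne_zero
    have hv : v = 0 := by rw [hu, zero_add] at h4; exact h4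
    rw [hu, hv]
    rfl
  obtain ⟨⟨y, z⟩, hyz⟩ := (LinearMap.injective_iff_surjective.mp hinj) (⟨s, hs⟩, ⟨t, ht⟩)
  rw [hΦ, Prod.mk.injEq] at hyz
  exact ⟨y, z, y.2, z.2, congrArg Subtype.val hyz.1, congrArg Subtype.val hyz.2⟩

/-- Eigenvectors killed by both traces vanish. -/
theorem eq_zero_of_traces' (hz : (N : ℤ) ∣ a.z) (hT : TwHyp K c χ) (hcN : c ∣ N) (hq : q.Prime)
    (hqN : ¬ q ∣ N) {S : Finset ℕ} (hS : ∀ l : ℕ, l.Prime → l ∣ K → l ∈ S) {α : ℕ → ℂ}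
    (hne : NonEis S α) {x : H1 (kap χ) ℂ} (hx : IsEig χ S α x) {M : ℕ} [NeZero M]
    {g : CuspForm (Gamma0 M) 2} (hg : g.IsNewform)
    (hga : ∀ ℓ : ℕ, ℓ.Prime → ℓ ∉ S → ModularFormClass.qCoeff g ℓ = α ℓ) (hqM : ¬ q ∣ M)
    (h1 : Trop hK a ℂ h hq hqN (Wop hK a ℂ h hq.ne_zero x) = 0)
    (h2 : Trop hK a ℂ h hq hqN x = 0) : x = 0 := by
  have hN0 : 0 < N := Nat.pos_of_ne_zero (NeZero.ne N)
  have hc0 : 0 < c := Nat.pos_of_dvd_of_pos hcN hN0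
  have hqc : ¬ q ∣ c := fun hd => hqN (hd.trans hcN)
  have hqm : ¬ q ∣ N * c := fun hd => (hq.dvd_mul.mp hd).elim hqN hqc
  have : NeZero (N * c) := ⟨(Nat.mul_pos hN0 hc0).ne'⟩
  have : NeZero (q * (N * c)) := ⟨(Nat.mul_pos hq.pos (Nat.mul_pos hN0 hc0)).ne'⟩
  obtain ⟨z', hz'⟩ : (c : ℤ) ∣ a.z := (Int.natCast_dvd_natCast.mpr hcN).trans hz
  let al : ALD (N * c) q := ⟨a.x, a.y, z', a.t, by
    have h1 := a.h
    rw [hz'] at h1
    push_cast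
    linear_combination h1⟩
  have hal : a.w = al.w := by
    change (!![q * a.x, a.y; q * (N : ℕ) * a.z, q * a.t] : M2) =
      !![q * a.x, a.y; q * (N * c : ℕ) * z', q * a.t]
    have e1 : ((q : ℤ) * ((N : ℕ) : ℤ) * a.z) = q * ((N * c : ℕ) : ℤ) * z' := by
      rw [hz']
      push_cast
      ring
    rw [e1]
  obtain ⟨tw, i1, i2, i3, i4⟩ := tower hq c N K χ χ₀ hqN hK h hT hcN (N * c) rfl al a hal
  apply i1
  rw [map_zero]
  have hS' : ∀ r : ℕ, r.Prime → r ∣ q * (N * c) → r ∈ S := by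
    intro r hr hd
    refine hS r hr ?_
    rw [hK]
    rcases hr.dvd_mul.mp hd with hd | hd
    · exact hd.mul_right N
    · rcases hr.dvd_mul.mp hd with hd | hd
      · exact hd.mul_left q
      · exact (hd.trans hcN).mul_left q
  refine TWNew.hom_eq_zero_of_traces hq hqm al hS' hne (F := tw x) ?_ hg hga hqM ?_ ?_
  · intro ℓ hℓ hℓS
    rw [← i2 ℓ hℓ (fun hd => hℓS (hS ℓ hℓ hd)), hx ℓ hℓ hℓS, map_smul]
  · have h3 := i3 (Wop hK a ℂ h hq.ne_zero x) h1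
    rw [i4, wop_wop] at h3
    rw [add_comm]
    exact h3
  · rw [add_comm]
    exact i3 x h2

/-- **Old eigenvectors are in the image of the degeneracy maps.** -/
theorem mem_range_of_old (hz : (N : ℤ) ∣ a.z) (hT : TwHyp K c χ) (hT₀ : TwHyp N c χ₀)
    (hq : q.Prime) (hqN : ¬ q ∣ N) {S : Finset ℕ} (hS : ∀ l : ℕ, l.Prime → l ∣ K → l ∈ S)
    {α : ℕ → ℂ} (hne : NonEis S α) {x : H1 (kap χ) ℂ} (hx : IsEig χ S α x) {M : ℕ} [NeZero M]
    {g : CuspForm (Gamma0 M) 2} (hg : g.IsNewform)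
    (hga : ∀ ℓ : ℕ, ℓ.Prime → ℓ ∉ S → ModularFormClass.qCoeff g ℓ = α ℓ) (hqM : ¬ q ∣ M) :
    ∃ y z : H1 (kap χ₀) ℂ, IsEig χ₀ S α y ∧ IsEig χ₀ S α z ∧
      x = Rop hK ℂ h y + Wop hK a ℂ h hq.ne_zero (Rop hK ℂ h z) := by
  have hqK : q ∣ K := ⟨N, hK⟩
  have hNK : N ∣ K := dvd_level hK
  have hqS : q ∈ S := hS q hq hqK
  have hSN : ∀ l : ℕ, l.Prime → l ∣ N → l ∈ S := fun l hl hlN => hS l hl (hlN.trans hNK)
  have hnd : ∀ {ℓ : ℕ}, ℓ.Prime → ℓ ∉ S → ¬ ℓ ∣ K := fun hℓ hℓS hd => hℓS (hS _ hℓ hd)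
  have hs : IsEig χ₀ S α (Trop hK a ℂ h hq hqN (Wop hK a ℂ h hq.ne_zero x)) := by
    intro ℓ hℓ hℓS
    rw [← Trop_hk hK a ℂ h hq hqN hℓ (hnd hℓ hℓS), ← Wop_hk hK a ℂ h hq.ne_zero hℓ (hnd hℓ hℓS),
      hx ℓ hℓ hℓS, map_smul, map_smul]
  have ht : IsEig χ₀ S α (Trop hK a ℂ h hq hqN x) := by
    intro ℓ hℓ hℓS
    rw [← Trop_hk hK a ℂ h hq hqN hℓ (hnd hℓ hℓS), hx ℓ hℓ hℓS, map_smul]
  obtain ⟨y, z, hy, hz', e1, e2⟩ := exists_preimage hT₀ hq hqN hSN hqS hne hs ht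
  refine ⟨y, z, hy, hz', ?_⟩
  rw [← sub_eq_zero]
  refine eq_zero_of_traces' hK a h hz hT hT₀.dvd hq hqN hS hne ?_ hg hga hqM ?_ ?_
  · intro ℓ hℓ hℓS
    rw [map_sub, map_add, ← Wop_hk hK a ℂ h hq.ne_zero hℓ (hnd hℓ hℓS),
      ← Rop_hk hK ℂ h hℓ (hnd hℓ hℓS), ← Rop_hk hK ℂ h hℓ (hnd hℓ hℓS), hx ℓ hℓ hℓS, hy ℓ hℓ hℓS,
      hz' ℓ hℓ hℓS]
    simp only [map_smul, smul_add, smul_sub]
  · rw [map_sub, map_sub, map_add, map_add, Trop_Wop_Rop, Trop_Wop_Wop_Rop, e1, sub_self]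
  · rw [map_sub, map_add, Trop_Rop, Trop_Wop_Rop, e2, sub_self]

end Main

end Fermat.Agent.DegK
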