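import Fermat.Agent.Deg.New
import Fermat.Agent.Deg.Old

set_option autoImplicit false
set_option linter.unusedSectionVars false

/-!
# New eigenvectors belong to newforms of level divisible by `q`
-/

open CongruenceSubgroup Fermat.Agent.Top Fermat.Agent.TWMod Fermat.Agent.Twist
  Fermat.Agent.Ihara Fermat.Agent.TWLow MvPolynomial IsLocalRing Fermat.Agent.LL
open scoped MatrixGroups TensorProduct

namespace Fermat.Agent.Deg

/-- Atkin–Lehner data with `N ∣ z`. -/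
theorem exists_ALD_dvd {N q : ℕ} (hq : q.Prime) (hqN : ¬ q ∣ N) :
    ∃ a : ALD N q, (N : ℤ) ∣ a.z := by
  have h1 : Nat.Coprime q (N * N) :=
    Nat.Coprime.mul_right ((Nat.Prime.coprime_iff_not_dvd hq).2 hqN)
      ((Nat.Prime.coprime_iff_not_dvd hq).2 hqN)
  obtain ⟨b⟩ := exists_ALD (N := N * N) h1
  refine ⟨⟨b.x, b.y, N * b.z, b.t, ?_⟩, dvd_mul_right _ _⟩
  have h2 := b.h
  push_cast at h2
  linear_combination h2

section Pt

variable {N : ℕ} [NeZero N] {Λ : Type} [CommRing Λ] {χ : DirichletCharacter Λ N} {S : Set ℕ}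
  {E : MvPolynomial (Pr S) Λ} {F : Type} [Field F] (ψ : Λ →+* F)

/-- the projector is the identity on the component at a point -/
theorem ev_map_of_mem (hg : IsGood (kap χ)) (hE : ev χ S Λ (E * E) = ev χ S Λ E)
    {x : H1 (kap (χ.ringHomComp ψ)) (PtMod ψ)} (hx : x ∈ MP ψ χ S E) :
    ev (χ.ringHomComp ψ) S (PtMod ψ) (MvPolynomial.map ψ E) x = x := by
  obtain ⟨y, rfl⟩ := hx
  obtain ⟨z, rfl⟩ := (chg (sameOn_pt ψ χ)).surjective y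
  rw [← chg_ev_pt, ← chg_ev_pt, idem_apply (PtMod ψ) hE hg]

end Pt

section Old

variable {N q K : ℕ} [NeZero K] (hK : K = q * N) (a : ALD N q) {Λ : Type} [CommRing Λ]
  {χ : DirichletCharacter Λ K} {χ₀ : DirichletCharacter Λ N} (h : CR χ χ₀)
  {S : Set ℕ} (hS : ∀ l : ℕ, l.Prime → l ∣ K → l ∈ S) (E : MvPolynomial (Pr S) Λ)
  (hq : q ≠ 0) (ψ : Λ →+* ℂ)

/-- Elements of the component which are in the image of the degeneracy maps are old. -/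
theorem mem_oldP_of_range (hg : IsGood (kap χ)) (hE : ev χ S Λ (E * E) = ev χ S Λ E)
    (v : MP ψ χ S E) (y z : H1 (kap (χ₀.ringHomComp ψ)) (PtMod ψ))
    (hv : (v : H1 (kap (χ.ringHomComp ψ)) (PtMod ψ)) = Rop hK (PtMod ψ) (CR.comp ψ h) y +
      Wop hK a (PtMod ψ) (CR.comp ψ h) hq (Rop hK (PtMod ψ) (CR.comp ψ h) z)) :
    v ∈ oldP hK a h hS E hq ψ := by
  have h1 := ev_map_of_mem ψ hg hE v.2
  have e1 := Rop_ev hK (PtMod ψ) (CR.comp ψ h) hS (MvPolynomial.map ψ E) y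
  have e2 := Rop_ev hK (PtMod ψ) (CR.comp ψ h) hS (MvPolynomial.map ψ E) z
  have e3 := Wop_ev hK a (PtMod ψ) (CR.comp ψ h) hS hq (MvPolynomial.map ψ E)
    (Rop hK (PtMod ψ) (CR.comp ψ h) z)
  rw [hv, map_add, ← e1, ← e3, ← e2, ← hv] at h1
  have h2 : v = pα hK a ψ h hS E hq 0 ⟨_, y, rfl⟩ + pα hK a ψ h hS E hq 1 ⟨_, z, rfl⟩ :=
    Subtype.ext h1.symm
  rw [h2]
  exact Submodule.add_mem _ (pα_mem_oldP hK a h hS E hq ψ 0 _) (pα_mem_oldP hK a h hS E hq ψ 1 _)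

end Old

section Main

variable {𝒪 : Type} [CommRing 𝒪] [IsLocalRing 𝒪] {p r : ℕ} {av : Fin r → ℕ} {G : GrpRing 𝒪 p av}
  {j : 𝒪 →+* ℂ}
  {N q K : ℕ} [NeZero N] [NeZero K] (hK : K = q * N) (a : ALD N q)
  {χ : DirichletCharacter G.Λ K} {χ₀ : DirichletCharacter G.Λ N} (h : CR χ χ₀)
  {S : Set ℕ} {S' : Finset ℕ} (hS : ∀ l : ℕ, l.Prime → l ∣ K → l ∈ S)
  (E : MvPolynomial (Pr S) G.Λ) (hq : q.Prime)
  {D : ∀ ψ : Pts G j, EigD χ S S' E ψ.1} (hD : Adapted hK a h hS E hq.ne_zero D)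

include hD

/-- **New eigenfunctionals belong to newforms of level divisible by `q`.** -/
theorem Adapted.dvd_level (hz : (N : ℤ) ∣ a.z) (hqN : ¬ q ∣ N) (hg : IsGood (kap χ))
    (hE : ev χ S G.Λ (E * E) = ev χ S G.Λ E)
    (hS' : ∀ l : ℕ, l.Prime → l ∣ K → l ∈ S') {x : Σ ψ : Pts G j, (D ψ).ι} (hx : x ∈ newI E D)
    {c : ℕ} (hT : TwHyp K c (χ.ringHomComp x.1.1)) (hT₀ : TwHyp N c (χ₀.ringHomComp x.1.1))
    (hne : NonEis S' (evD D x.1 x.2)) {M : ℕ} [NeZero M] {g : CuspForm (Gamma0 M) 2}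
    (hgn : g.IsNewform)
    (hga : ∀ ℓ : ℕ, ℓ.Prime → ℓ ∉ S' → ModularFormClass.qCoeff g ℓ = evD D x.1 x.2 ℓ) :
    q ∣ M := by
  by_contra hqM
  have hx1 : IsEig (χ.ringHomComp x.1.1) S' (evD D x.1 x.2)
      ((D x.1).b x.2 : H1 (kap (χ.ringHomComp x.1.1)) (PtMod x.1.1)) := by
    intro ℓ hℓ hℓS
    have h' : ℓ.Prime ∧ ℓ ∉ (↑S' : Set ℕ) := ⟨hℓ, fun hh ↦ hℓS (Finset.mem_coe.1 hh)⟩
    rw [evD_of D h']
    exact (D x.1).eig x.2 ⟨ℓ, h'⟩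
  obtain ⟨y₁, z₁, -, -, hyz⟩ := DegK.mem_range_of_old hK a (CR.comp x.1.1 h) hz hT hT₀ hq hqN hS'
    hne hx1 hgn hga hqM
  obtain ⟨y, z, h2⟩ : ∃ y z : H1 (kap (χ₀.ringHomComp x.1.1)) (PtMod x.1.1),
      (((D x.1).b x.2 : MP x.1.1 χ S E) : H1 (kap (χ.ringHomComp x.1.1)) (PtMod x.1.1)) =
      Rop hK (PtMod x.1.1) (CR.comp x.1.1 h) y +
        Wop hK a (PtMod x.1.1) (CR.comp x.1.1 h) hq.ne_zero
          (Rop hK (PtMod x.1.1) (CR.comp x.1.1 h) z) := ⟨y₁, z₁, hyz⟩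
  apply hD.notMem hK a h hS E hq.ne_zero hx
  exact mem_oldP_of_range hK a h hS E hq.ne_zero x.1.1 hg hE _ y z h2

end Main

end Fermat.Agent.Deg
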