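import Fermat.Agent.Deg.Local

set_option autoImplicit false
set_option linter.unusedSectionVars false

/-!
# A common projector for a finite family of levels
-/

open CongruenceSubgroup Fermat.Agent.Top Fermat.Agent.TWMod MvPolynomial IsLocalRing
open scoped MatrixGroups TensorProduct

namespace Fermat.Agent.Deg

theorem noeth_pi_end {Λ : Type*} [CommRing Λ] [IsNoetherianRing Λ] {ι : Type*} [Finite ι]
    (V : ι → Type*) [∀ i, AddCommGroup (V i)] [∀ i, Module Λ (V i)]
    [∀ i, Module.Finite Λ (V i)] : IsNoetherian Λ (∀ i, Module.End Λ (V i)) := by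
  choose n s hs using fun i ↦ Module.Finite.exists_fin (R := Λ) (M := V i)
  have : ∀ i, IsNoetherian Λ (V i) := fun i ↦ isNoetherian_of_isNoetherianRing_of_finite Λ _
  let g : (∀ i, Module.End Λ (V i)) →ₗ[Λ] (∀ i, Fin (n i) → V i) :=
    { toFun := fun f i k ↦ f i (s i k)
      map_add' := fun f f' ↦ rfl
      map_smul' := fun r f ↦ rfl }
  refine isNoetherian_of_injective g ?_
  intro f f' h
  funext i
  refine LinearMap.ext_on_range (hs i) fun k ↦ ?_
  exact congrFun (congrFun h i) k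

variable {Λ : Type} [CommRing Λ] [IsLocalRing Λ] {ι : Type} (N : ι → ℕ) [∀ i, NeZero (N i)]
  (χ : ∀ i, DirichletCharacter Λ (N i)) (S : Set ℕ) (a : Pr S → ResidueField Λ)

/-- A projector onto the local components at several levels. -/
structure IsProjF (E : MvPolynomial (Pr S) Λ) : Prop where
  idem : ∀ i, ev (χ i) S Λ (E * E) = ev (χ i) S Λ E
  res : resE S a E = 1
  unit : ∀ P, resE S a P ≠ 0 → ∃ Q, ∀ i, ev (χ i) S Λ (Q * P * E) = ev (χ i) S Λ E

variable {N χ S a}

/-- the projector at one level -/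
theorem IsProjF.isProj {E : MvPolynomial (Pr S) Λ} (h : IsProjF N χ S a E) (i : ι) :
    IsProj (χ i) (χ i) S a E where
  idem := by
    rintro χ' (rfl | rfl)
    · exact h.idem i
    · exact h.idem i
  res := h.res
  unit := by
    intro P hP
    obtain ⟨Q, hQ⟩ := h.unit P hP
    refine ⟨Q, ?_⟩
    rintro χ' (rfl | rfl)
    · exact hQ i
    · exact hQ i

variable (N χ S a)

/-- **Existence of a common projector.** -/
theorem exists_isProjF [Finite ι] [IsNoetherianRing Λ] [IsAdicComplete (maximalIdeal Λ) Λ]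
    (hg : ∀ i, IsGood (kap (χ i)))
    (ha : ∀ P, (∀ i, ev (χ i) S Λ P = 0) → resE S a P = 0) :
    ∃ E, IsProjF N χ S a E := by
  have hf1 : ∀ i, Module.Finite Λ (H1 (kap (χ i)) Λ) := fun i ↦ finite_H1 (hg i) Λ
  have hf4 : IsNoetherian Λ (∀ i, Module.End Λ (H1 (kap (χ i)) Λ)) :=
    noeth_pi_end fun i ↦ H1 (kap (χ i)) Λ
  let Φ : MvPolynomial (Pr S) Λ →ₐ[Λ] (∀ i, Module.End Λ (H1 (kap (χ i)) Λ)) :=
    AlgHom.pi fun i ↦ ev (χ i) S Λ
  let J : Ideal (MvPolynomial (Pr S) Λ) := RingHom.ker Φ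
  have hJ : ∀ P, P ∈ J ↔ ∀ i, ev (χ i) S Λ P = 0 := by
    intro P
    rw [RingHom.mem_ker]
    exact funext_iff
  have hfin : Module.Finite Λ (MvPolynomial (Pr S) Λ ⧸ J) :=
    Module.Finite.of_injective (Ideal.kerLiftAlg Φ).toLinearMap (Ideal.kerLiftAlg_injective Φ)
  let 𝔪 : Ideal (MvPolynomial (Pr S) Λ ⧸ J) :=
    RingHom.ker (Ideal.Quotient.lift J (resE S a) (fun P hP ↦ ha P ((hJ P).mp hP)))
  have hsurj : Function.Surjective
      (Ideal.Quotient.lift J (resE S a) (fun P hP ↦ ha P ((hJ P).mp hP))) := by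
    intro x
    obtain ⟨r, rfl⟩ := residue_surjective x
    exact ⟨Ideal.Quotient.mk J (C r), by rw [Ideal.Quotient.lift_mk, resE_C]⟩
  have hmax : 𝔪.IsMaximal := RingHom.ker_isMaximal_of_surjective _ hsurj
  obtain ⟨e, he1, he2, he3⟩ := exists_idempotent (Λ := Λ) (MvPolynomial (Pr S) Λ ⧸ J) 𝔪
  obtain ⟨E, rfl⟩ := Ideal.Quotient.mk_surjective e
  have key : ∀ P Q, (Ideal.Quotient.mk J P = Ideal.Quotient.mk J Q) →
      ∀ i, ev (χ i) S Λ P = ev (χ i) S Λ Q := by
    intro P Q h i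
    rw [Ideal.Quotient.eq, hJ] at h
    have := h i
    rw [map_sub, sub_eq_zero] at this
    exact this
  refine ⟨E, ⟨key _ _ (by rw [map_mul]; exact he1), ?_, ?_⟩⟩
  · rw [RingHom.mem_ker, map_sub, map_one, sub_eq_zero] at he2
    exact he2.symm
  · intro P hP
    obtain ⟨c, hc⟩ := he3 (Ideal.Quotient.mk J P) (by
      intro h
      rw [RingHom.mem_ker, Ideal.Quotient.lift_mk] at h
      exact hP h)
    obtain ⟨Q, rfl⟩ := Ideal.Quotient.mk_surjective c
    exact ⟨Q, key _ _ (by rw [map_mul, map_mul]; exact hc)⟩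

end Fermat.Agent.Deg
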