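import Fermat.Agent.TWLow.Trace

set_option autoImplicit false
set_option linter.unusedSectionVars false

/-!
# Twisted cohomology with coefficients on which the character acts trivially
-/

open CongruenceSubgroup Fermat.Agent.Top Fermat.Agent.TWMod Fermat.Agent.Twist
  Fermat.Agent.Ihara Fermat.Agent.TWLow Matrix.SpecialLinearGroup
open scoped MatrixGroups

namespace Fermat.Agent.DegK

section Gen

variable {Γ : Type*} [Group Γ] {Λ : Type*} [CommRing Λ] {κ : Γ →* Λ}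
variable {A : Type*} [AddCommGroup A] [Module Λ A]

/-- cocycles are homomorphisms -/
noncomputable def homZ (h : ∀ γ (a : A), κ γ • a = a) : Z1 κ A →ₗ[Λ] (Additive Γ →+ A) where
  toFun f :=
    { toFun := fun γ => f.1 γ.toMul
      map_zero' := Z1_one f
      map_add' := fun γ γ' => by
        rw [toMul_add, Z1_mul, h] }
  map_add' f g := by ext; rfl
  map_smul' r f := by ext; rfl

theorem homZ_apply (h : ∀ γ (a : A), κ γ • a = a) (f : Z1 κ A) (γ : Γ) :
    homZ h f (Additive.ofMul γ) = f.1 γ := rfl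

/-- Twisted cohomology is `Hom` when the character acts trivially. -/
noncomputable def homH (h : ∀ γ (a : A), κ γ • a = a) : H1 κ A →ₗ[Λ] (Additive Γ →+ A) :=
  Submodule.liftQ _ (homZ h) (by
    rintro _ ⟨a, rfl⟩
    rw [LinearMap.mem_ker]
    refine AddMonoidHom.ext fun γ => ?_
    change (dB κ A a).1 γ.toMul = 0
    rw [dB_apply, h, sub_self])

theorem homH_cls (h : ∀ γ (a : A), κ γ • a = a) (f : Z1 κ A) : homH h (cls κ A f) = homZ h f := rfl

theorem homH_injective (h : ∀ γ (a : A), κ γ • a = a) : Function.Injective (homH h) := by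
  rw [injective_iff_map_eq_zero]
  intro x hx
  obtain ⟨f, rfl⟩ := cls_surjective _ _ x
  rw [homH_cls] at hx
  have : f = 0 := Subtype.ext (funext fun γ => DFunLike.congr_fun hx (Additive.ofMul γ))
  rw [this, map_zero]

theorem homH_surjective (h : ∀ γ (a : A), κ γ • a = a) : Function.Surjective (homH h) := by
  intro φ
  refine ⟨cls κ A ⟨fun γ => φ (Additive.ofMul γ), fun γ γ' => ?_⟩, rfl⟩
  rw [h]
  exact φ.map_add _ _

theorem homH_mapH (h : ∀ γ (a : A), κ γ • a = a) {A' : Type*} [AddCommGroup A'] [Module Λ A']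
    (h' : ∀ γ (a : A'), κ γ • a = a) (g : A →ₗ[Λ] A') (x : H1 κ A) (γ : Additive Γ) :
    homH h' (mapH g x) γ = g (homH h x γ) := by
  obtain ⟨f, rfl⟩ := cls_surjective _ _ x
  rfl

end Gen

section BR

variable {Γ₁ Γ₂ G : Type*} [Group Γ₁] [Group Γ₂] [Group G] {ι₁ : Γ₁ →* G}
  {ι₂ : Γ₂ →* G} {I : Type*} [Fintype I]
variable {Λ : Type*} [CommRing Λ] {κ₁ : Γ₁ →* Λ} {κ₂ : Γ₂ →* Λ}
variable {A : Type*} [AddCommGroup A] [Module Λ A]

theorem homH_opBH {R : BR ι₁ ι₂ I} {w : I → Λ} (hw : IsWB R κ₁ κ₂ w)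
    (h₁ : ∀ γ (a : A), κ₁ γ • a = a) (h₂ : ∀ γ (a : A), κ₂ γ • a = a)
    (hw1 : ∀ i (a : A), w i • a = a) (x : H1 κ₁ A) (γ : Γ₂) :
    homH h₂ (opBH A hw x) (Additive.ofMul γ) =
      ∑ i, homH h₁ x (Additive.ofMul (R.c γ i)) := by
  obtain ⟨f, rfl⟩ := cls_surjective _ _ x
  rw [opBH_cls, homH_cls, homH_cls, homZ_apply, opB_apply]
  refine Finset.sum_congr rfl fun i _ => ?_
  rw [hw1]
  rfl

end BR

section Char

variable {N : ℕ} {Λ : Type*} [CommRing Λ]

/-- The character acts trivially on `A`. -/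
def TrivOn (χ : DirichletCharacter Λ N) (A : Type*) [AddCommGroup A] [Module Λ A] : Prop :=
  ∀ u : ZMod N, IsUnit u → ∀ a : A, χ u • a = a

variable {χ : DirichletCharacter Λ N} {A : Type*} [AddCommGroup A] [Module Λ A]

theorem TrivOn.inv (h : TrivOn χ A) : TrivOn χ⁻¹ A := by
  intro u hu a
  have h1 := char_mul_inv χ hu
  have h2 : (χ u * χ⁻¹ u) • a = a := by rw [h1, one_smul]
  rwa [mul_smul, h u hu] at h2

theorem TrivOn.wt (h : TrivOn χ A) {X : M2} (h0 : IsCoprime (X 0 0) (N : ℤ))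
    (h1 : IsCoprime (X 1 1) (N : ℤ)) (a : A) : wt χ X • a = a := by
  rw [TWMod.wt, mul_smul, h.inv _ (isUnit_intCast h1), h _ (isUnit_intCast h0)]

theorem TrivOn.kap (h : TrivOn χ A) (γ : Gamma0 N) (a : A) : kap χ γ • a = a := by
  obtain ⟨-, hd⟩ := isUnit_cast_of_mem γ
  rw [kap_eq_sq, pow_two, mul_smul, h _ hd, h _ hd]

theorem TrivOn.hw (h : TrivOn χ A) {ℓ : ℕ} (hℓ : ℓ.Prime) (hℓN : ¬ ℓ ∣ N) (i : HI N ℓ) (a : A) :
    hw χ ℓ i • a = a := by
  have hc : IsCoprime (ℓ : ℤ) (N : ℤ) :=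
    Nat.isCoprime_iff_coprime.mpr ((Nat.Prime.coprime_iff_not_dvd hℓ).mpr hℓN)
  refine h.wt ?_ ?_ a
  · obtain ⟨i, hi⟩ := i
    cases i with
    | none => simpa using hc
    | some j => simpa using isCoprime_one_left
  · obtain ⟨i, hi⟩ := i
    cases i with
    | none => simpa using isCoprime_one_left
    | some j => simpa using hc

theorem homH_hk (h : TrivOn χ A) {ℓ : ℕ} (hℓ : ℓ.Prime) (hℓN : ¬ ℓ ∣ N) (x : H1 (kap χ) A) :
    homH h.kap (hk χ A hℓ x) = hop N ⟨ℓ, hℓ⟩ (homH h.kap x) := by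
  obtain ⟨f, rfl⟩ := cls_surjective _ _ x
  rw [hk, opH_cls, homH_cls, homH_cls]
  refine AddMonoidHom.ext fun γ' => ?_
  obtain ⟨γ, rfl⟩ : ∃ γ, Additive.ofMul γ = γ' := ⟨γ'.toMul, rfl⟩
  change (opZ A (isWeight_hw χ hℓ) f).1 γ = (hreps N hℓ).op (homZ h.kap f) (Additive.ofMul γ)
  rw [opZ_apply, Reps.op_apply]
  refine Finset.sum_congr rfl fun i _ => ?_
  rw [h.hw hℓ hℓN]
  rfl

end Char

section Lower

variable {N q K : ℕ} (hK : K = q * N) (a : ALD N q) {Λ : Type*} [CommRing Λ]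
variable {A : Type*} [AddCommGroup A] [Module Λ A]
variable {χ : DirichletCharacter Λ K} {χ₀ : DirichletCharacter Λ N} (h : CR χ χ₀)

include hK in
theorem TrivOn.of_lower (h : CR χ χ₀) (h0 : TrivOn χ₀ A) : TrivOn χ A := by
  intro u hu b
  obtain ⟨x, rfl⟩ := ZMod.intCast_surjective u
  have hx : IsCoprime x (K : ℤ) := ((ZMod.coe_int_isUnit_iff_isCoprime x K).mp hu).symm
  rw [h x hx]
  refine h0 _ (isUnit_intCast ?_) b
  exact hx.of_isCoprime_of_dvd_right ⟨q, by rw [hK]; push_cast; ring⟩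

theorem w_cop : IsCoprime (a.w 0 0) (N : ℤ) ∧ IsCoprime (a.w 1 1) (N : ℤ) := by
  have hh := a.h
  constructor
  · refine ⟨a.t, -(a.y * a.z), ?_⟩
    simp [ALD.w]
    linear_combination hh
  · refine ⟨a.x, -(a.y * a.z), ?_⟩
    simp [ALD.w]
    linear_combination hh

theorem trM_cop (hq : q.Prime) (hqN : ¬ q ∣ N) (i : Option (Fin q)) :
    IsCoprime (a.trM i 0 0) (N : ℤ) ∧ IsCoprime (a.trM i 1 1) (N : ℤ) := by
  cases i with
  | none => exact w_cop a
  | some j =>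
    have hc : IsCoprime (q : ℤ) (N : ℤ) :=
      Nat.isCoprime_iff_coprime.mpr ((Nat.Prime.coprime_iff_not_dvd hq).mpr hqN)
    exact ⟨by simpa using isCoprime_one_left, by simpa using hc⟩

theorem homH_Wop (h0 : TrivOn χ₀ A) (hq : q ≠ 0) (x : H1 (kap χ) A) {γ γ' : Gamma0 K}
    (hγ : a.w * mt γ = mt γ' * a.w) :
    homH (h0.of_lower hK h).kap (Wop hK a A h hq x) (Additive.ofMul γ) =
      homH (h0.of_lower hK h).kap x (Additive.ofMul γ') := by
  rw [Wop, homH_opBH _ (h0.of_lower hK h).kap _ (fun _ b => h0.wt (w_cop a).1 (w_cop a).2 b)]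
  rw [Fintype.sum_unique, (sys_unique (repSys_w' hK a hq) γ () () γ' hγ).2]

theorem homH_Trop (h0 : TrivOn χ₀ A) (hq : q.Prime) (hqN : ¬ q ∣ N) (x : H1 (kap χ) A)
    (γ : Gamma0 N) :
    homH h0.kap (Trop hK a A h hq hqN x) (Additive.ofMul γ) =
      ∑ i, homH (h0.of_lower hK h).kap x
        (Additive.ofMul ((sys (repSys_tr' hK a hq hqN)).c γ i)) := by
  rw [Trop, homH_opBH _ (h0.of_lower hK h).kap _
    (fun i b => h0.wt (trM_cop a hq hqN i).1 (trM_cop a hq hqN i).2 b)]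

end Lower

end Fermat.Agent.DegK
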