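import Fermat.Agent.Deg.Base

set_option autoImplicit false
set_option linter.unusedSectionVars false

/-!
# Specialisation of the degeneracy maps at points `ψ : Λ → K`
-/

open CongruenceSubgroup Fermat.Agent.Top Fermat.Agent.TWMod Fermat.Agent.Twist
  Fermat.Agent.Ihara Fermat.Agent.TWLow MvPolynomial IsLocalRing
open scoped MatrixGroups TensorProduct

namespace Fermat.Agent.Deg

section Chg

variable {Γ₁ Γ₂ G : Type*} [Group Γ₁] [Group Γ₂] [Group G] {ι₁ : Γ₁ →* G} {ι₂ : Γ₂ →* G}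
  {I : Type*} [Fintype I] {Λ Λ' : Type*} [CommRing Λ] [CommRing Λ'] {κ₁ : Γ₁ →* Λ}
  {κ₂ : Γ₂ →* Λ} {κ₁' : Γ₁ →* Λ'} {κ₂' : Γ₂ →* Λ'} {A : Type*} [AddCommGroup A] [Module Λ A]
  [Module Λ' A] (h₁ : ∀ (g : Γ₁) (a : A), κ₁' g • a = κ₁ g • a)
  (h₂ : ∀ (g : Γ₂) (a : A), κ₂' g • a = κ₂ g • a)
  {R : BR ι₁ ι₂ I} {w : I → Λ} {w' : I → Λ'} (hw : IsWB R κ₁ κ₂ w) (hw' : IsWB R κ₁' κ₂' w')

theorem chgH_opBH (hww : ∀ i (a : A), w' i • a = w i • a) (x : H1 κ₁ A) :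
    chgH h₂ (opBH A hw x) = opBH A hw' (chgH h₁ x) := by
  obtain ⟨f, rfl⟩ := cls_surjective _ _ x
  rw [opBH_cls, chgH_cls, chgH_cls, opBH_cls]
  congr 1
  refine Subtype.ext (funext fun γ ↦ ?_)
  rw [chgZ_apply, opB_apply, opB_apply]
  exact Finset.sum_congr rfl fun i _ ↦ (hww i _).symm

end Chg

section Ops

variable {N q K : ℕ} (hK : K = q * N) (a : ALD N q) {Λ Λ' : Type*} [CommRing Λ] [CommRing Λ']
variable {A : Type*} [AddCommGroup A] [Module Λ A] [Module Λ' A]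
variable {χ : DirichletCharacter Λ K} {χ₀ : DirichletCharacter Λ N} (h : CR χ χ₀)
variable {χ' : DirichletCharacter Λ' K} {χ₀' : DirichletCharacter Λ' N} (h' : CR χ' χ₀')
variable (s : SameOn χ χ' A) (s₀ : SameOn χ₀ χ₀' A)

theorem chg_Rop (x : H1 (kap χ₀) A) : chg s (Rop hK A h x) = Rop hK A h' (chg s₀ x) :=
  chgH_opBH s₀.kap s.kap _ _ (fun _ a ↦ by rw [one_smul, one_smul]) x

include s₀ in
theorem chg_Wop (hq : q ≠ 0) (x : H1 (kap χ) A) :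
    chg s (Wop hK a A h hq x) = Wop hK a A h' hq (chg s x) :=
  chgH_opBH s.kap s.kap _ _ (fun _ b ↦ s₀.wt _ b) x

theorem chg_Trop (hq : q.Prime) (hqN : ¬ q ∣ N) (x : H1 (kap χ) A) :
    chg s₀ (Trop hK a A h hq hqN x) = Trop hK a A h' hq hqN (chg s x) :=
  chgH_opBH s.kap s₀.kap _ _ (fun _ b ↦ s₀.wt _ b) x

end Ops

section Spc

variable {N q K : ℕ} (hK : K = q * N) (a : ALD N q) {Λ : Type} [CommRing Λ]
variable {F : Type} [Field F] (ψ : Λ →+* F)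
variable {χ : DirichletCharacter Λ K} {χ₀ : DirichletCharacter Λ N} (h : CR χ χ₀)

include h in
theorem CR.comp : CR (χ.ringHomComp ψ) (χ₀.ringHomComp ψ) := by
  intro x hx
  rw [MulChar.ringHomComp_apply, MulChar.ringHomComp_apply, h x hx]

theorem spc_Rop (x : H1 (kap χ₀) Λ) :
    spc ψ χ (Rop hK Λ h x) = Rop hK (PtMod ψ) (CR.comp ψ h) (spc ψ χ₀ x) := by
  rw [spc_apply, spc_apply, ← Rop_mapH]
  exact chg_Rop hK h (CR.comp ψ h) (sameOn_pt ψ χ) (sameOn_pt ψ χ₀) _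

theorem spc_Wop (hq : q ≠ 0) (x : H1 (kap χ) Λ) :
    spc ψ χ (Wop hK a Λ h hq x) = Wop hK a (PtMod ψ) (CR.comp ψ h) hq (spc ψ χ x) := by
  rw [spc_apply, spc_apply, ← Wop_mapH]
  exact chg_Wop hK a h (CR.comp ψ h) (sameOn_pt ψ χ) (sameOn_pt ψ χ₀) hq _

theorem spc_Trop (hq : q.Prime) (hqN : ¬ q ∣ N) (x : H1 (kap χ) Λ) :
    spc ψ χ₀ (Trop hK a Λ h hq hqN x) =
      Trop hK a (PtMod ψ) (CR.comp ψ h) hq hqN (spc ψ χ x) := by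
  rw [spc_apply, spc_apply, ← Trop_mapH]
  exact chg_Trop hK a h (CR.comp ψ h) (sameOn_pt ψ χ) (sameOn_pt ψ χ₀) hq hqN _

theorem spc_hk' {ℓ : ℕ} (hℓ : ℓ.Prime) (x : H1 (kap χ) Λ) :
    spc ψ χ (hk χ Λ hℓ x) = hk (χ.ringHomComp ψ) (PtMod ψ) hℓ (spc ψ χ x) := by
  rw [spc_apply, spc_apply, ← chg_hk]
  congr 1
  exact (opH_mapH (isWeight_hw χ hℓ) (ptLin ψ) x).symm

variable {S : Set ℕ} (hS : ∀ l : ℕ, l.Prime → l ∣ K → l ∈ S) (E : MvPolynomial (Pr S) Λ)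

/-- the degeneracy maps at a point -/
noncomputable def pα (hq : q ≠ 0) (k : Fin 2) : MP ψ χ₀ S E →ₗ[F] MP ψ χ S E :=
  dα hK a (PtMod ψ) (CR.comp ψ h) hS (MvPolynomial.map ψ E) hq k

/-- Hecke operators at a point -/
noncomputable def hkP (χ : DirichletCharacter Λ K) (S : Set ℕ) (E : MvPolynomial (Pr S) Λ)
    {ℓ : ℕ} (hℓ : ℓ.Prime) : MP ψ χ S E →ₗ[F] MP ψ χ S E :=
  hkM (PtMod ψ) (χ.ringHomComp ψ) S (MvPolynomial.map ψ E) hℓ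

theorem coe_hkP {ℓ : ℕ} (hℓ : ℓ.Prime) (x : MP ψ χ S E) :
    ((hkP ψ χ S E hℓ x : MP ψ χ S E) : H1 _ _) =
      hk (χ.ringHomComp ψ) (PtMod ψ) hℓ (x : H1 _ _) := rfl

theorem spE_hkM {ℓ : ℕ} (hℓ : ℓ.Prime) (x : MM Λ χ S E) :
    spE ψ χ S E (hkM Λ χ S E hℓ x) = hkP ψ χ S E hℓ (spE ψ χ S E x) :=
  Subtype.ext (spc_hk' ψ hℓ x.1)

theorem spE_dα (hq : q ≠ 0) (k : Fin 2) (x : MM Λ χ₀ S E) :
    spE ψ χ S E (dα hK a Λ h hS E hq k x) = pα hK a ψ h hS E hq k (spE ψ χ₀ S E x) := by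
  refine Subtype.ext ?_
  fin_cases k
  · exact spc_Rop hK ψ h x.1
  · change spc ψ χ (Wop hK a Λ h hq (Rop hK Λ h x.1)) =
      Wop hK a (PtMod ψ) (CR.comp ψ h) hq (Rop hK (PtMod ψ) (CR.comp ψ h) (spc ψ χ₀ x.1))
    rw [spc_Wop, spc_Rop]

theorem pα_hkP (hq : q ≠ 0) (k : Fin 2) {ℓ : ℕ} (hℓ : ℓ.Prime) (hℓK : ¬ ℓ ∣ K)
    (x : MP ψ χ₀ S E) : pα hK a ψ h hS E hq k (hkP ψ χ₀ S E hℓ x) =
      hkP ψ χ S E hℓ (pα hK a ψ h hS E hq k x) :=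
  dα_hkM hK a (PtMod ψ) (CR.comp ψ h) hS (MvPolynomial.map ψ E) hq k hℓ hℓK x

theorem coe_pα_zero (hq : q ≠ 0) (x : MP ψ χ₀ S E) :
    ((pα hK a ψ h hS E hq 0 x : MP ψ χ S E) : H1 _ _) =
      Rop hK (PtMod ψ) (CR.comp ψ h) (x : H1 _ _) := rfl

theorem coe_pα_one (hq : q ≠ 0) (x : MP ψ χ₀ S E) :
    ((pα hK a ψ h hS E hq 1 x : MP ψ χ S E) : H1 _ _) =
      Wop hK a (PtMod ψ) (CR.comp ψ h) hq (Rop hK (PtMod ψ) (CR.comp ψ h) (x : H1 _ _)) := rfl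

end Spc

end Fermat.Agent.Deg
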